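import Fermat.Agent.ModField.Semistable.Mono.Core

/-!
# The orders at the two branches of a crossing add up to a multiple of `n`

For any class killed by `n`, fixed by inertia or not. The proof is the first half of the one of
`branch_ord_relation`, without the automorphisms.
-/

set_option autoImplicit false
set_option linter.style.haveILetI false
set_option linter.unusedSectionVars false

noncomputable section

namespace FA.ModField.FibreHyp

open AlgebraicCurve FA.Curve FA.CurveRed FA.CurveRed.ConstRed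

variable {K F k : Type*} [Field K] [IsAlgClosed K] [Field F] [Algebra K F] [Field k]
  [IsAlgClosed k] {Fk : Fin 2 → Type*} [∀ i, Field (Fk i)] [∀ i, Algebra k (Fk i)]
  {A : ValuationSubring K} {J : MultiRed K F k Fk A} {hF : IsFunctionField K F}
  {hk : ∀ i, IsFunctionField k (Fk i)} {x : F} {xb : ∀ i, Fk i}
  {H : FibreHyp J hF hk x xb} {ϖ : K} {U : H.UnitDatum ϖ}

open Classical in
/-- **The orders of the reductions at the two branches are opposite modulo `n`.** -/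
theorem branch_ord_sum (hconn : ∀ c : Fin 2 → k,
    (∀ b b' : H.Br, H.sgPt b = H.sgPt b' → c b.1.1 = c b'.1.1) → ∀ i j, c i = c j)
    (U : H.UnitDatum ϖ) {p : ℕ} (D : Divisor K F)
    {g : F} (hg : g ≠ 0) (hgD : ∀ P, P.ord g = (p : ℤ) * D P)
    {c : Fin 2 → K} {gg : Fin 2 → F} {r : ∀ i, Fk i}
    (hfg : ∀ i, g = algebraMap K F (c i) * gg i) (hr : ∀ i, (J.C i).Red (gg i) (r i))
    (hr0 : ∀ i, r i ≠ 0) (s : H.Sg) :
    (p : ℤ) ∣ (H.brPl s 0).ord (r 0) + (H.brPl s 1).ord (r 1) := by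
  obtain ⟨C⟩ := nonempty_coord hconn U s
  set TP := D.support.filter fun P => H.TubeAt s P
  have hmem : ∀ {P}, P ∈ TP → H.TubeAt s P := fun hP => (Finset.mem_filter.1 hP).2
  choose! a ha using fun P (hP : P ∈ TP) => exists_hasValue hF (C.clean.atLeast (hmem hP))
  choose! w hw using fun P (hP : P ∈ TP) => exists_hasValue hF ((U.clean s).atLeast (hmem hP))
  have ha0 : ∀ P ∈ TP, a P ≠ 0 := fun P hP h0 => by
    have := (C.value_lt (hmem hP) (ha P hP)).1
    simp [h0] at this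
  have hw0 : ∀ P ∈ TP, w P ≠ 0 := fun P hP h0 => by
    have := (U.value_lt (hmem hP) (hw P hP)).1
    simp [h0] at this
  -- removing the divisor
  set e : Place K F → ℤ := fun P => -((p : ℤ) * D P)
  set eS := ∑ P ∈ TP, e P with heS
  set g₂ := g * ∏ P ∈ TP, (C.T - algebraMap K F (a P)) ^ e P with hg₂
  have hLne : ∀ P ∈ TP, C.T - algebraMap K F (a P) ≠ 0 := fun P hP =>
    (C.linear (hmem hP) (ha P hP)).2.2.1
  have hprodne : ∏ P ∈ TP, (C.T - algebraMap K F (a P)) ^ e P ≠ 0 :=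
    Finset.prod_ne_zero_iff.2 fun P hP => zpow_ne_zero _ (hLne P hP)
  have hg₂ne : g₂ ≠ 0 := mul_ne_zero hg hprodne
  have hclean₂ : H.CleanAt s g₂ := fun Q hQ => by
    rw [hg₂, Q.ord_mul hg hprodne, ord_finsetProd Q _ fun P hP => zpow_ne_zero _ (hLne P hP),
      Finset.sum_congr rfl fun P hP => by
        rw [place_ord_zpow, (C.linear (hmem hP) (ha P hP)).2.2.2 Q hQ]]
    simp only [mul_ite, mul_one, mul_zero, Finset.sum_ite_eq]
    rw [hgD]
    by_cases hQm : Q ∈ TP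
    · rw [if_pos hQm]; simp [e]
    · rw [if_neg hQm, show D Q = 0 from Finsupp.notMem_support_iff.1 fun h =>
        hQm (Finset.mem_filter.2 ⟨h, hQ⟩)]
      ring
  set A₀ := (H.brPl s 0).ord (r 0) + eS with hA₀
  set g₃ := g₂ * C.T ^ (-A₀) with hg₃
  have hclean₃ : H.CleanAt s g₃ := fun Q hQ => by
    rw [hg₃, Q.ord_mul hg₂ne (zpow_ne_zero _ C.T_ne), hclean₂ Q hQ, place_ord_zpow,
      C.clean Q hQ, mul_zero, add_zero]
  set aP := ∏ P ∈ TP, (a P) ^ e P with haP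
  have haPne : aP ≠ 0 := Finset.prod_ne_zero_iff.2 fun P hP => zpow_ne_zero _ (ha0 P hP)
  have hc0 : ∀ i, c i ≠ 0 := scale_ne hfg hr hg
  let c₃ : Fin 2 → K := ![c 0, c 1 * aP * C.ε ^ (-A₀)]
  let r₃ : ∀ i, Fk i := mkTwo (r 0 * C.t 0 ^ eS * C.t 0 ^ (-A₀))
    (r 1 * (-1 : Fk 1) ^ eS * C.t 1 ^ (-A₀))
  have hc₃ : ∀ i, c₃ i ≠ 0 := Fin.forall_fin_two.2
    ⟨hc0 0, mul_ne_zero (mul_ne_zero (hc0 1) haPne) (zpow_ne_zero _ C.ε_ne)⟩
  have hr₃ : ∀ i, (J.C i).Red (algebraMap K F (c₃ i)⁻¹ * g₃) (r₃ i) := by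
    rw [Fin.forall_fin_two]
    constructor
    · have h := ((hr 0).mul (ConstRed.red_prod (C := J.C 0) (s := TP)
        (f := fun P => (C.T - algebraMap K F (a P)) ^ e P) (r := fun P => C.t 0 ^ e P)
        fun P hP => red_zpow (C.linear (hmem hP) (ha P hP)).1 (C.t_ne 0) _)).mul
        (red_zpow C.red0 (C.t_ne 0) (-A₀))
      rw [← zpow_finsetSum (C.t_ne 0) TP e, ← heS] at h
      rwa [show gg 0 * (∏ P ∈ TP, (C.T - algebraMap K F (a P)) ^ e P) * C.T ^ (-A₀) =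
        algebraMap K F (c₃ 0)⁻¹ * g₃ by
          rw [hg₃, hg₂, show c₃ 0 = c 0 from rfl]
          conv_rhs => rw [hfg 0, map_inv₀]
          field_simp [(map_ne_zero (algebraMap K F)).2 (hc0 0)]] at h
    · have h := ((hr 1).mul (ConstRed.red_prod (C := J.C 1) (s := TP)
        (f := fun P => (algebraMap K F (a P)⁻¹ * (C.T - algebraMap K F (a P))) ^ e P)
        (r := fun P => (-1 : Fk 1) ^ e P)
        fun P hP => red_zpow (C.linear (hmem hP) (ha P hP)).2.1 (neg_ne_zero.2 one_ne_zero) _)).mul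
        (red_zpow C.red1 (C.t_ne 1) (-A₀))
      rw [← zpow_finsetSum (neg_ne_zero.2 one_ne_zero) TP e, ← heS] at h
      rwa [show gg 1 * (∏ P ∈ TP, (algebraMap K F (a P)⁻¹ * (C.T - algebraMap K F (a P))) ^ e P) *
          (algebraMap K F C.ε⁻¹ * C.T) ^ (-A₀) = algebraMap K F (c₃ 1)⁻¹ * g₃ by
          simp only [mul_zpow, Finset.prod_mul_distrib, map_inv₀, inv_zpow, Finset.prod_inv_distrib]
          rw [hg₃, hg₂, show c₃ 1 = c 1 * aP * C.ε ^ (-A₀) from rfl, haP, map_mul, map_mul,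
            map_prod, map_zpow₀]
          simp only [map_zpow₀, mul_inv]
          conv_rhs => rw [hfg 1]
          have hc1 := (map_ne_zero (algebraMap K F)).2 (hc0 1)
          field_simp] at h
  have hr₃0 : ∀ i, r₃ i ≠ 0 := Fin.forall_fin_two.2
    ⟨mul_ne_zero (mul_ne_zero (hr0 0) (zpow_ne_zero _ (C.t_ne 0))) (zpow_ne_zero _ (C.t_ne 0)),
      mul_ne_zero (mul_ne_zero (hr0 1) (zpow_ne_zero _ (neg_ne_zero.2 one_ne_zero)))
        (zpow_ne_zero _ (C.t_ne 1))⟩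
  have hg₃ne : g₃ ≠ 0 := mul_ne_zero hg₂ne (zpow_ne_zero _ C.T_ne)
  have hfg₃ : ∀ i, g₃ = algebraMap K F (c₃ i) * (algebraMap K F (c₃ i)⁻¹ * g₃) := fun i => by
    rw [← mul_assoc, ← map_mul, mul_inv_cancel₀ (hc₃ i), map_one, one_mul]
  have h00 : (H.brPl s 0).ord (r₃ 0) = 0 := by
    show (H.brPl s 0).ord (r 0 * C.t 0 ^ eS * C.t 0 ^ (-A₀)) = 0
    rw [Place.ord_mul _ (mul_ne_zero (hr0 0) (zpow_ne_zero _ (C.t_ne 0)))
      (zpow_ne_zero _ (C.t_ne 0)), Place.ord_mul _ (hr0 0) (zpow_ne_zero _ (C.t_ne 0)),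
      place_ord_zpow, place_ord_zpow, C.ord0, hA₀]
    ring
  have heq := CleanAt.scale_eq hfg₃ hr₃ hr₃0 hg₃ne hclean₃ h00
  have h11 := (CleanAt.of_eq hfg₃ hr₃ hr₃0 hg₃ne hclean₃ heq).1 1
  replace h11 : (H.brPl s 1).ord (r 1) + A₀ = 0 := by
    have h := h11
    change (H.brPl s 1).ord (r 1 * (-1 : Fk 1) ^ eS * C.t 1 ^ (-A₀)) = 0 at h
    rw [Place.ord_mul _ (mul_ne_zero (hr0 1) (zpow_ne_zero _ (neg_ne_zero.2 one_ne_zero)))
      (zpow_ne_zero _ (C.t_ne 1)),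
      Place.ord_mul _ (hr0 1) (zpow_ne_zero _ (neg_ne_zero.2 one_ne_zero)),
      place_ord_zpow, place_ord_zpow, C.ord1,
      show (-1 : Fk 1) = algebraMap k (Fk 1) (-1) by simp, place_ord_algebraMap] at h
    linarith
  have heSp : (p : ℤ) ∣ eS := Finset.dvd_sum fun P _ => (dvd_mul_right _ _).neg_right
  rw [show (H.brPl s 0).ord (r 0) + (H.brPl s 1).ord (r 1) = -eS by rw [hA₀] at h11; linarith]
  exact heSp.neg_right

end FA.ModField.FibreHyp
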