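import Fermat.Agent.JZeroInertia.CuspPower
import Fermat.Agent.Root.SummaryComponentJZero
import Fermat.Agent.Root.SummaryToricJZero

/-!
# The classes fixed by inertia and the cuspidal group at every order prime to `6 p`

`M ^ g · gcd (M, n)` of them at least, `M ^ (g + 1)` for `M ∣ n`.
-/

set_option autoImplicit false
set_option linter.style.haveILetI false
set_option linter.unusedSectionVars false
set_option synthInstance.maxHeartbeats 400000
set_option maxHeartbeats 1000000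

noncomputable section

open ModularCurve FA.Mazur FA.JTorsion FA.ModField CongruenceSubgroup

local notation "Qb" => AlgebraicClosure ℚ
local notation "GQ" => AlgebraicClosure ℚ ≃ₐ[ℚ] AlgebraicClosure ℚ

namespace FA.JZeroInertia

variable {p : ℕ} [hp : Fact p.Prime] {A : ValuationSubring Qb}

/-- The classes killed by `M` and fixed by inertia. -/
def fixI (p M : ℕ) [Fact p.Prime] (A : ValuationSubring Qb) : AddSubgroup (JZero p) :=
  torsSub p M ⊓ ⨅ τ ∈ A.inertiaSubgroupIn ℚ, (subOne p τ).ker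

theorem mem_fixI {M : ℕ} {x : JZero p} :
    x ∈ fixI p M A ↔ M • x = 0 ∧ ∀ τ ∈ A.inertiaSubgroupIn ℚ, τ • x = x := by
  simp [fixI, mem_torsSub, AddSubgroup.mem_iInf, subOne_apply, sub_eq_zero]

theorem card_fixI (M : ℕ) :
    Nat.card {x : JZero p // M • x = 0 ∧ ∀ τ ∈ A.inertiaSubgroupIn ℚ, τ • x = x} =
      Nat.card (fixI p M A) :=
  Nat.card_congr (Equiv.subtypeEquivRight fun _ => mem_fixI.symm)

theorem finite_fixI (M : ℕ) [NeZero M] : Finite (fixI p M A) := by
  obtain ⟨alg⟩ := exists_algebra_qbar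
  letI := alg
  haveI := (card_torsSub (p := p) M).1
  exact Finite.of_injective (fun x => (⟨x.1, (mem_fixI.1 x.2).1⟩ : torsSub p M))
    fun a b h => Subtype.ext (congrArg Subtype.val h :)

theorem numerator_dvd : eisensteinNumerator p ∣ p - 1 := eisensteinNumerator_dvd p

theorem not_dvd_numerator : ¬ p ∣ eisensteinNumerator p := fun h => by
  have h2 := hp.out.two_le
  have := Nat.le_of_dvd (by omega) (h.trans (numerator_dvd (p := p)))
  omega

theorem five_le_of_dvd {l : ℕ} (h5 : 5 ≤ l) (hn : l ∣ eisensteinNumerator p) : 5 ≤ p := by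
  have h2 := hp.out.two_le
  have := Nat.le_of_dvd (by omega) (hn.trans (numerator_dvd (p := p)))
  omega

section PrimePower

variable {l : ℕ} [hl : Fact l.Prime]

theorem card_fixI_le (h5 : 5 ≤ l) (hlp : l ≠ p) (hA : A.LiesOverPrime p) :
    ∀ k, Nat.card (fixI p (l ^ k) A) ≤ (l ^ k) ^ (Module.finrank ℂ (CuspForm (Gamma0 p) 2) +
      if l ∣ eisensteinNumerator p then 1 else 0)
  | 0 => by
    rw [pow_zero, one_pow]
    haveI := finite_fixI (p := p) (A := A) 1
    have h : fixI p 1 A = ⊥ := (eq_bot_iff).2 fun x hx => by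
      simpa [AddSubgroup.mem_bot] using (mem_fixI.1 hx).1
    rw [h, AddSubgroup.card_bot]
  | k + 1 => by
    haveI : NeZero (l ^ (k + 1)) := ⟨pow_ne_zero _ hl.out.ne_zero⟩
    haveI : NeZero (l ^ k) := ⟨pow_ne_zero _ hl.out.ne_zero⟩
    haveI : NeZero l := ⟨hl.out.ne_zero⟩
    haveI := finite_fixI (p := p) (A := A) (l ^ (k + 1))
    haveI := finite_fixI (p := p) (A := A) (l ^ k)
    haveI := finite_fixI (p := p) (A := A) l
    let φ : fixI p (l ^ (k + 1)) A →+ fixI p (l ^ k) A :=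
      AddMonoidHom.mk' (fun x => ⟨l • x.1, mem_fixI.2 ⟨by
        rw [← mul_nsmul', ← pow_succ]; exact (mem_fixI.1 x.2).1, fun τ hτ => by
        rw [smul_nsmul_comm, (mem_fixI.1 x.2).2 τ hτ]⟩⟩)
        fun a b => Subtype.ext (nsmul_add _ _ _)
    have hker : Nat.card φ.ker ≤ Nat.card (fixI p l A) :=
      Nat.card_le_card_of_injective (fun x => (⟨x.1.1, mem_fixI.2
        ⟨congrArg Subtype.val (x.2 : φ x.1 = 0), (mem_fixI.1 x.1.2).2⟩⟩ : fixI p l A))
        fun a b h => Subtype.ext (Subtype.ext (congrArg Subtype.val h :))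
    rw [AddSubgroup.card_eq_card_quotient_mul_card_addSubgroup φ.ker,
      Nat.card_congr (QuotientAddGroup.quotientKerEquivRange φ).toEquiv]
    refine le_of_le_of_eq (Nat.mul_le_mul ((Nat.card_le_card_of_injective _
      Subtype.val_injective).trans (card_fixI_le h5 hlp hA k)) hker) ?_
    rw [← card_fixI, FA.ComponentJZero.Summary.fixed_card h5 hlp hA, ← mul_pow, ← pow_succ]

/-- The lower bound at a power of a prime. -/
theorem le_card_fixI (h5 : 5 ≤ l) (hlp : l ≠ p) (hA : A.LiesOverPrime p) (k : ℕ) :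
    (l ^ k) ^ Module.finrank ℂ (CuspForm (Gamma0 p) 2) * Nat.gcd (l ^ k) (eisensteinNumerator p) ≤
      Nat.card (fixI p (l ^ k) A) := by
  set n := eisensteinNumerator p
  haveI : NeZero (l ^ k) := ⟨pow_ne_zero _ hl.out.ne_zero⟩
  haveI := finite_fixI (p := p) (A := A) (l ^ k)
  by_cases hn : l ∣ n
  swap
  · have hco : (l ^ k).Coprime (6 * n * p) := by
      refine Nat.Coprime.pow_left _ (Nat.Coprime.mul_right (Nat.Coprime.mul_right ?_
        (hl.out.coprime_iff_not_dvd.2 hn)) ((Nat.coprime_primes hl.out hp.out).2 hlp))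
      refine hl.out.coprime_iff_not_dvd.2 fun h => ?_
      have := Nat.le_of_dvd (by norm_num) h
      interval_cases l <;> simp_all (config := {decide := true})
    rw [Nat.Coprime.gcd_eq_one (Nat.Coprime.pow_left _ (hl.out.coprime_iff_not_dvd.2 hn)), mul_one,
      ← card_fixI, FA.ToricJZero.Summary.fixed_card hco hA]
  rcases Nat.eq_zero_or_pos k with rfl | hk
  · rw [pow_zero, one_pow, Nat.gcd_one_left, mul_one]
    haveI := finite_fixI (p := p) (A := A) 1
    exact Nat.card_pos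
  obtain ⟨alg⟩ := exists_algebra_qbar
  letI := alg
  haveI : NeZero p := ⟨hp.out.ne_zero⟩
  obtain ⟨c, hord, hrat, hT⟩ :=
    exists_cusp_toric_mul (five_le_of_dvd h5 hn) p (one_mul p).symm hA
  obtain ⟨T, hT1, -, hTcard, hTc⟩ := hT l hl.out h5 hlp k
  replace hord : addOrderOf c = n := hord
  have hn0 : n ≠ 0 := fun h => not_dvd_numerator (p := p) (by
    show p ∣ n
    rw [h]; exact dvd_zero p)
  obtain ⟨m, hmk, hm⟩ := (Nat.dvd_prime_pow hl.out).1 (Nat.gcd_dvd_left (l ^ k) n)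
  rw [hm]
  have hmn : l ^ m ∣ n := hm ▸ Nat.gcd_dvd_right _ _
  set x := (n / l ^ m) • c with hx
  have hxord : addOrderOf x = l ^ m := by
    rw [hx, addOrderOf_nsmul' c (fun h => by
      have := Nat.div_mul_cancel hmn
      rw [h, zero_mul] at this
      exact hn0 this.symm), hord,
      Nat.gcd_eq_right (Nat.div_dvd_of_dvd hmn), Nat.div_div_self hmn hn0]
  haveI : Finite (AddSubgroup.zmultiples x) := by
    refine Nat.finite_of_card_ne_zero ?_
    rw [Nat.card_zmultiples, hxord]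
    exact pow_ne_zero _ hl.out.ne_zero
  have hxF : x ∈ fixI p (l ^ k) A := mem_fixI.2 ⟨addOrderOf_dvd_iff_nsmul_eq_zero.1
    (hxord ▸ pow_dvd_pow l hmk), fun τ _ => by rw [hx, smul_nsmul_comm, hrat]⟩
  let f : AddSubgroup.zmultiples x × T → fixI p (l ^ k) A := fun u =>
    ⟨u.1.1 + u.2.1, add_mem ((AddSubgroup.zmultiples_le.2 hxF) u.1.2)
      (mem_fixI.2 (hT1 _ u.2.2))⟩
  have hdisj : ∀ i : ℕ, i • x ∈ T → i • x = 0 := fun i hi => by
    by_contra hne
    obtain ⟨a, -, ha⟩ := (Nat.dvd_prime_pow hl.out).1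
      (hxord ▸ addOrderOf_dvd_of_nsmul_eq_zero (show addOrderOf x • (i • x) = 0 by
        rw [smul_comm, addOrderOf_nsmul_eq_zero, smul_zero]) : addOrderOf (i • x) ∣ l ^ m)
    have ha0 : a ≠ 0 := fun h0 => hne (by
      rw [h0, pow_zero, AddMonoid.addOrderOf_eq_one_iff] at ha; exact ha)
    obtain ⟨b, rfl⟩ := Nat.exists_eq_succ_of_ne_zero ha0
    set y := l ^ b • (i • x) with hy
    have hyT : y ∈ T := AddSubgroup.nsmul_mem _ hi _
    have hly : l • y = 0 := by
      rw [hy, ← mul_nsmul, ← pow_succ, ← ha, addOrderOf_nsmul_eq_zero]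
    have hy0 : y ≠ 0 := fun h => by
      have h1 := addOrderOf_dvd_of_nsmul_eq_zero h
      rw [ha] at h1
      exact absurd (Nat.le_of_dvd (pow_pos hl.out.pos b) h1) (not_le.2
        (Nat.pow_lt_pow_succ hl.out.one_lt))
    obtain ⟨t, ht⟩ : ∃ t : ℕ, y = t • c := ⟨n / l ^ m * i * l ^ b, by
      rw [hy, hx, ← mul_nsmul, ← mul_nsmul, mul_assoc]⟩
    have hdvd : n / l ∣ t := by
      have h1 : n ∣ t * l := by
        rw [← hord]
        exact addOrderOf_dvd_of_nsmul_eq_zero (by rw [mul_nsmul, ← ht, hly])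
      exact Nat.dvd_of_mul_dvd_mul_right hl.out.pos (by rwa [Nat.div_mul_cancel hn])
    obtain ⟨j, hj⟩ := hdvd
    have hlj : ¬ l ∣ j := fun ⟨d, hd⟩ => hy0 (by
      rw [ht, hj, hd, ← mul_assoc, Nat.div_mul_cancel hn, mul_nsmul, ← hord,
        addOrderOf_nsmul_eq_zero, nsmul_zero])
    obtain ⟨e, he⟩ : ∃ e, j * e ≡ 1 [MOD l] := by
      obtain ⟨e, -, he⟩ := Nat.exists_mul_mod_eq_one_of_coprime
        ((hl.out.coprime_iff_not_dvd.2 hlj).symm) hl.out.one_lt
      exact ⟨e, by rw [Nat.ModEq, he, Nat.one_mod_eq_one.2 hl.out.ne_one]⟩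
    have hnl : l • ((n / l) • c) = 0 := by
      rw [← mul_nsmul, Nat.div_mul_cancel hn, ← hord, addOrderOf_nsmul_eq_zero]
    refine hTc hn hk ?_
    rw [show (n / l) • c = e • y by
      rw [ht, hj, ← mul_nsmul, mul_assoc, mul_nsmul, nsmul_congr hnl he, one_nsmul]]
    exact AddSubgroup.nsmul_mem _ hyT _
  have hf : Function.Injective f := fun u v h => by
    have h1 : u.1.1 + u.2.1 = v.1.1 + v.2.1 := congrArg Subtype.val h
    have h2 : u.1.1 - v.1.1 = v.2.1 - u.2.1 := by rw [sub_eq_sub_iff_add_eq_add, h1, add_comm]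
    obtain ⟨i, hi⟩ : ∃ i : ℕ, i • x = u.1.1 - v.1.1 := by
      have hmem : u.1.1 - v.1.1 ∈ AddSubgroup.zmultiples x := sub_mem u.1.2 v.1.2
      exact AddSubmonoid.mem_multiples_iff _ _ |>.1
        ((IsOfFinAddOrder.mem_multiples_iff_mem_zmultiples (addOrderOf_pos_iff.1
          (hxord ▸ pow_pos hl.out.pos m))).2 hmem)
    have h3 := hdisj i (by rw [hi, h2]; exact sub_mem v.2.2 u.2.2)
    rw [hi, sub_eq_zero] at h3
    exact Prod.ext (Subtype.ext h3) (Subtype.ext (add_left_cancel (h3 ▸ h1)))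
  refine le_trans ?_ (Nat.card_le_card_of_injective f hf)
  rw [Nat.card_prod, Nat.card_zmultiples, hxord, mul_comm]
  exact Nat.mul_le_mul_left _ hTcard

end PrimePower

/-- The count is multiplicative. -/
theorem card_fixI_mul {a b : ℕ} (hab : a.Coprime b) :
    Nat.card (fixI p (a * b) A) = Nat.card (fixI p a A) * Nat.card (fixI p b A) := by
  obtain ⟨e, hea, heb⟩ := Nat.chineseRemainder hab 1 0
  obtain ⟨f, hfa, hfb⟩ := Nat.chineseRemainder hab 0 1
  have hef : e + f ≡ 1 [MOD a * b] :=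
    (Nat.modEq_and_modEq_iff_modEq_mul hab).1
      ⟨by simpa using hea.add hfa, by simpa using heb.add hfb⟩
  have hka : ∀ x : JZero p, (a * b) • x = 0 → a • (e • x) = 0 := fun x hx => by
    obtain ⟨c, rfl⟩ := Nat.modEq_zero_iff_dvd.1 heb
    rw [← mul_nsmul', ← mul_assoc, mul_nsmul, hx, smul_zero]
  have hkb : ∀ x : JZero p, (a * b) • x = 0 → b • (f • x) = 0 := fun x hx => by
    obtain ⟨c, rfl⟩ := Nat.modEq_zero_iff_dvd.1 hfa
    rw [← mul_nsmul', ← mul_assoc, mul_comm b a, mul_nsmul, hx, smul_zero]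
  rw [← Nat.card_prod]
  exact Nat.card_congr
    { toFun := fun x => (⟨e • x.1, mem_fixI.2 ⟨hka _ (mem_fixI.1 x.2).1, fun τ hτ => by
          rw [smul_nsmul_comm, (mem_fixI.1 x.2).2 τ hτ]⟩⟩,
        ⟨f • x.1, mem_fixI.2 ⟨hkb _ (mem_fixI.1 x.2).1, fun τ hτ => by
          rw [smul_nsmul_comm, (mem_fixI.1 x.2).2 τ hτ]⟩⟩)
      invFun := fun u => ⟨u.1.1 + u.2.1, mem_fixI.2 ⟨by
          rw [nsmul_add, mul_nsmul u.1.1 a b, (mem_fixI.1 u.1.2).1, smul_zero,
            mul_nsmul' u.2.1 a b, (mem_fixI.1 u.2.2).1, smul_zero, add_zero],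
        fun τ hτ => by rw [smul_add, (mem_fixI.1 u.1.2).2 τ hτ, (mem_fixI.1 u.2.2).2 τ hτ]⟩⟩
      left_inv := fun x => Subtype.ext (by
        show e • x.1 + f • x.1 = x.1
        rw [← add_nsmul, nsmul_congr (mem_fixI.1 x.2).1 hef, one_nsmul])
      right_inv := fun u => Prod.ext
        (Subtype.ext (by
          show e • (u.1.1 + u.2.1) = u.1.1
          rw [nsmul_add, nsmul_congr (mem_fixI.1 u.1.2).1 hea, nsmul_congr (mem_fixI.1 u.2.2).1 heb,
            one_nsmul, zero_nsmul, add_zero]))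
        (Subtype.ext (by
          show f • (u.1.1 + u.2.1) = u.2.1
          rw [nsmul_add, nsmul_congr (mem_fixI.1 u.1.2).1 hfa, nsmul_congr (mem_fixI.1 u.2.2).1 hfb,
            one_nsmul, zero_nsmul, zero_add])) }

/-- **The counts at every order prime to `6 p`.** -/
theorem card_fixI_bounds (hA : A.LiesOverPrime p) (M : ℕ) :
    M.Coprime (6 * p) →
      M ^ Module.finrank ℂ (CuspForm (Gamma0 p) 2) * Nat.gcd M (eisensteinNumerator p) ≤
        Nat.card (fixI p M A) ∧
      (M ∣ eisensteinNumerator p →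
        Nat.card (fixI p M A) = M ^ (Module.finrank ℂ (CuspForm (Gamma0 p) 2) + 1)) := by
  induction M using Nat.recOnPosPrimePosCoprime with
  | prime_pow l k hl hk =>
    intro hco
    haveI : Fact l.Prime := ⟨hl⟩
    have hnd : ¬ l ∣ 6 * p := hl.coprime_iff_not_dvd.1 ((Nat.coprime_pow_left_iff hk _ _).1 hco)
    have hlp : l ≠ p := fun h => hnd (by rw [h]; exact dvd_mul_left p _)
    have h6 : ¬ l ∣ 6 := fun h => hnd (h.trans (dvd_mul_right 6 p))
    have h5 : 5 ≤ l := by
      by_contra h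
      have h2 := hl.two_le
      interval_cases l <;> revert h6 hl <;> decide
    refine ⟨le_card_fixI h5 hlp hA k, fun hdvd => ?_⟩
    have hln : l ∣ eisensteinNumerator p := (dvd_pow_self l hk.ne').trans hdvd
    refine le_antisymm ((card_fixI_le h5 hlp hA k).trans_eq (by rw [if_pos hln])) ?_
    have := le_card_fixI h5 hlp hA k
    rwa [Nat.gcd_eq_left hdvd, ← pow_succ] at this
  | zero =>
    intro hco
    rw [Nat.coprime_zero_left] at hco
    omega
  | one =>
    intro _
    have h : Nat.card (fixI p 1 A) = 1 := by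
      rw [show fixI p 1 A = ⊥ from (eq_bot_iff).2 fun x hx => by
        simpa [AddSubgroup.mem_bot] using (mem_fixI.1 hx).1, AddSubgroup.card_bot]
    simp [h]
  | coprime a b _ _ hab iha ihb =>
    intro hco
    obtain ⟨ha, ha'⟩ := iha (Nat.Coprime.coprime_mul_right hco)
    obtain ⟨hb, hb'⟩ := ihb (Nat.Coprime.coprime_mul_left hco)
    rw [card_fixI_mul hab]
    refine ⟨?_, fun hdvd => by rw [ha' ((dvd_mul_right a b).trans hdvd),
      hb' ((dvd_mul_left b a).trans hdvd), mul_pow]⟩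
    rw [mul_pow, Nat.gcd_comm, Nat.Coprime.gcd_mul _ hab, Nat.gcd_comm, Nat.gcd_comm _ b,
      mul_mul_mul_comm]
    exact Nat.mul_le_mul ha hb

end FA.JZeroInertia
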