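import Fermat.Agent.Tau.ModularFormsModP
import Fermat.Agent.Partition.JCoefficients
import Fermat.Agent.ModField.Semistable.Mono.Eta.Quot
import Fermat.Prelude.Def_ModularCurve_X0ModL

/-!
# `Δ^(-(p-1)/l)` modulo `p` is no rational function of `j`

It would make two forms of weights differing by `12 (p - 1) / l` congruent modulo `p`.
-/

set_option autoImplicit false
set_option linter.style.haveILetI false
set_option linter.unusedSectionVars false
set_option synthInstance.maxHeartbeats 400000
set_option maxHeartbeats 1000000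

noncomputable section

open MvPolynomial FA.Tau FA.Eis FA.SwinnertonDyer ModularCurve
open scoped LaurentSeries

namespace FA.JZeroInertia

variable {p : ℕ} [hp : Fact p.Prime]

/-- `E₄³` over a ring. -/
def eCube (R : Type) [CommRing R] : PowerSeries R := (eFourInt ^ 3).map (Int.castRingHom R)

/-- `Δ` over a ring. -/
def deltaSer (R : Type) [CommRing R] : PowerSeries R := deltaInt.map (Int.castRingHom R)

theorem constantCoeff_eCube (R : Type) [CommRing R] :
    PowerSeries.constantCoeff (eCube R) = 1 := by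
  rw [eCube, ← FA.Partition.eisenstein4_eq, ← PowerSeries.coeff_zero_eq_constantCoeff_apply,
    PowerSeries.coeff_map, PowerSeries.coeff_zero_eq_constantCoeff_apply, map_pow,
    constantCoeff_eisenstein4, one_pow, map_one]

theorem constantCoeff_deltaSer (R : Type) [CommRing R] :
    PowerSeries.constantCoeff (deltaSer R) = 0 := by
  rw [deltaSer, deltaInt, map_mul, map_mul, PowerSeries.map_X, PowerSeries.constantCoeff_X, zero_mul]

theorem deltaSer_ne_zero (R : Type) [CommRing R] [Nontrivial R] : deltaSer R ≠ 0 := fun h => by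
  have h1 := congrArg (PowerSeries.coeff 1) h
  rw [deltaSer, deltaInt, map_mul, PowerSeries.map_X, PowerSeries.coeff_succ_X_mul,
    PowerSeries.coeff_map, PowerSeries.coeff_zero_eq_constantCoeff_apply,
    constantCoeff_dedekindEtaUnit, map_one, map_zero] at h1
  exact one_ne_zero h1

/-- `j Δ = E₄³`. -/
theorem jqModC_mul_delta (R : Type) [CommRing R] :
    jqModC R * HahnSeries.ofPowerSeries ℤ R (deltaSer R) =
      HahnSeries.ofPowerSeries ℤ R (eCube R) := by
  rw [deltaSer, deltaInt, map_mul, map_mul, PowerSeries.map_X, HahnSeries.ofPowerSeries_X, jqModC,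
    mul_mul_mul_comm, HahnSeries.single_mul_single, mul_one, show (-1 : ℤ) + 1 = 0 by norm_num,
    ← map_mul, ← map_mul, eCube, ← FA.Partition.eisenstein4_eq,
    show jNum * dedekindEtaUnit = eisenstein4 ^ 3 by
      rw [jNum, mul_assoc, mul_comm dedekindEtaUnitInv, dedekindEtaUnit_mul_inv, mul_one]]
  exact one_mul _

/-- Expanding by `p` is the `p`-th power. -/
theorem map_expand_prime {k : Type} [CommRing k] [CharP k p] (f : PowerSeries ℤ) :
    (PowerSeries.expand p hp.out.ne_zero f).map (Int.castRingHom k) =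
      f.map (Int.castRingHom k) ^ p := by
  have h := MvPowerSeries.map_frobenius_expand (σ := Unit) (R := ZMod p) p hp.out.ne_zero
    (f := f.map (Int.castRingHom (ZMod p)))
  rw [ZMod.frobenius_zmod, MvPowerSeries.map_id] at h
  have h1 : (PowerSeries.expand p hp.out.ne_zero f).map (Int.castRingHom (ZMod p)) =
      f.map (Int.castRingHom (ZMod p)) ^ p := by
    rw [PowerSeries.map_expand]
    exact h
  have h2 := congrArg (PowerSeries.map (ZMod.castHom (dvd_refl p) k)) h1
  rwa [map_pow, ← RingHom.comp_apply, ← PowerSeries.map_comp, ← RingHom.comp_apply,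
    ← PowerSeries.map_comp, RingHom.ext_int ((ZMod.castHom (dvd_refl p) k).comp
      (Int.castRingHom (ZMod p))) (Int.castRingHom k)] at h2

/-- `Δ(z) / Δ(pz)` is `Δ^(1-p)` modulo `p`. -/
theorem etaSer_mul_delta (k : Type) [Field k] [CharP k p] [NeZero p] :
    FA.ModField.EtaQ.etaSer 12 1 p 1 k * HahnSeries.ofPowerSeries ℤ k (deltaSer k) ^ (p - 1) =
      1 := by
  have hp1 : 1 ≤ p := hp.out.one_le
  have hone : ∀ f : PowerSeries ℤ, PowerSeries.expand 1 one_ne_zero f = f := fun f =>
    PowerSeries.expand_one_apply f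
  rw [deltaSer, deltaInt, map_mul, PowerSeries.map_X, map_mul, mul_pow,
    HahnSeries.ofPowerSeries_X, HahnSeries.single_pow, one_pow, FA.ModField.EtaQ.etaSer,
    FA.ModField.EtaQ.etaTail, hone, map_mul,
    show etaProd ^ (2 * (12 - 12)) * dedekindEtaUnitInv = dedekindEtaUnitInv by norm_num,
    map_expand_prime, show etaProd ^ (2 * 12) = dedekindEtaUnit from rfl, mul_mul_mul_comm,
    HahnSeries.single_mul_single, one_mul,
    show (((1 : ℕ) : ℤ) - (p : ℤ)) / ((1 : ℕ) : ℤ) + (p - 1) • (1 : ℤ) = 0 by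
      rw [Nat.cast_one, Int.ediv_one, nsmul_eq_mul, mul_one, Nat.cast_sub hp1, Nat.cast_one]
      ring]
  rw [show (HahnSeries.single (0 : ℤ) (1 : k)) = 1 from rfl, one_mul,
    ← map_pow (HahnSeries.ofPowerSeries ℤ k), ← map_mul (HahnSeries.ofPowerSeries ℤ k),
    mul_right_comm, ← pow_succ', Nat.sub_add_cancel hp1, ← mul_pow,
    ← map_mul (PowerSeries.map (Int.castRingHom k)), dedekindEtaUnit_mul_inv, map_one, one_pow,
    map_one]

/-- A polynomial in `E₄³` and `Δ` of weight `12 N`. -/
def gSer (R : Type) [CommRing R] (N : ℕ) (c : ℕ → R) : PowerSeries R :=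
  ∑ i ∈ Finset.range (N + 1), PowerSeries.C (c i) * eCube R ^ i * deltaSer R ^ (N - i)

theorem gSer_extend (R : Type) [CommRing R] {n N : ℕ} (h : n ≤ N) (c : ℕ → R)
    (hc : ∀ i, n < i → c i = 0) : gSer R N c = deltaSer R ^ (N - n) * gSer R n c := by
  rw [gSer, gSer, Finset.mul_sum, ← Finset.sum_subset (Finset.range_mono (Nat.succ_le_succ h))
    fun i _ hi => by
      rw [hc i (by rw [Finset.mem_range] at hi; omega), map_zero, zero_mul, zero_mul]]
  refine Finset.sum_congr rfl fun i hi => ?_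
  rw [Finset.mem_range] at hi
  rw [show N - i = (N - n) + (n - i) by omega, pow_add]
  ring

theorem constantCoeff_gSer (R : Type) [CommRing R] (n : ℕ) (c : ℕ → R) :
    PowerSeries.constantCoeff (gSer R n c) = c n := by
  rw [gSer, map_sum, Finset.sum_eq_single n]
  · rw [map_mul, map_mul, map_pow, map_pow, constantCoeff_eCube, Nat.sub_self, pow_zero, one_pow,
      PowerSeries.constantCoeff_C, mul_one, mul_one]
  · intro i hi hne
    rw [Finset.mem_range] at hi
    rw [map_mul, map_pow _ (deltaSer R), constantCoeff_deltaSer, zero_pow (by omega), mul_zero]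
  · exact fun h => absurd (Finset.mem_range.2 (Nat.lt_succ_self n)) h

theorem gSer_ne_zero (R : Type) [CommRing R] [IsDomain R] {n N : ℕ} (h : n ≤ N) (c : ℕ → R)
    (hn : c n ≠ 0) (hc : ∀ i, n < i → c i = 0) : gSer R N c ≠ 0 := by
  rw [gSer_extend R h c hc]
  refine mul_ne_zero (pow_ne_zero _ (deltaSer_ne_zero R)) fun h0 => hn ?_
  rw [← constantCoeff_gSer R n c, h0, map_zero]

/-- The value at `j` of a polynomial, times a power of `Δ`. -/
theorem aeval_mul_delta (k : Type) [Field k] {N : ℕ} (P : Polynomial k) (h : P.natDegree ≤ N) :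
    Polynomial.aeval (jqModC k) P * HahnSeries.ofPowerSeries ℤ k (deltaSer k) ^ N =
      HahnSeries.ofPowerSeries ℤ k (gSer k N P.coeff) := by
  rw [Polynomial.aeval_eq_sum_range' (Nat.lt_succ_of_le h), Finset.sum_mul, gSer, map_sum]
  refine Finset.sum_congr rfl fun i hi => ?_
  rw [Finset.mem_range] at hi
  rw [map_mul, map_mul, map_pow, map_pow, ← jqModC_mul_delta, mul_pow, HahnSeries.ofPowerSeries_C,
    Algebra.smul_def, show algebraMap k k⸨X⸩ (P.coeff i) = HahnSeries.C (P.coeff i) from
      algebraMap_laurentSeries_eq_single k _, show N = i + (N - i) by omega, pow_add,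
    Nat.add_sub_cancel_left]
  ring

theorem isob_eCube : Isob ((X 0 : MvPolynomial (Fin 2) (ZMod p)) ^ 3) 12 :=
  (isWeightedHomogeneous_X _ wts 0).pow 3

theorem isob_delta : Isob
    ((X 0 ^ 3 - X 1 ^ 2) * C (1728 : ZMod p)⁻¹ : MvPolynomial (Fin 2) (ZMod p)) 12 := by
  have h := ((isob_eCube (p := p)).sub ((isWeightedHomogeneous_X _ wts 1).pow 2)).mul
    (isWeightedHomogeneous_C wts (1728 : ZMod p)⁻¹)
  exact h

/-- The series come from forms of weight `12 N`. -/
theorem exists_isob_gSer (h5 : 5 ≤ p) (N : ℕ) (c : ℕ → ZMod p) :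
    ∃ A : MvPolynomial (Fin 2) (ZMod p), Isob A (12 * N) ∧ phi p A = gSer (ZMod p) N c := by
  refine ⟨∑ i ∈ Finset.range (N + 1), C (c i) * ((X 0 ^ 3) ^ i *
    ((X 0 ^ 3 - X 1 ^ 2) * C (1728 : ZMod p)⁻¹) ^ (N - i)), ?_, ?_⟩
  · refine IsWeightedHomogeneous.sum _ _ _ fun i hi => ?_
    rw [Finset.mem_range] at hi
    have h := (isWeightedHomogeneous_C wts (c i)).mul
      (((isob_eCube (p := p)).pow i).mul ((isob_delta (p := p)).pow (N - i)))
    have e : 0 + (i • 12 + (N - i) • 12) = 12 * N := by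
      rw [zero_add, smul_eq_mul, smul_eq_mul, ← add_mul, Nat.add_sub_cancel' (Nat.lt_succ_iff.1 hi),
        mul_comm]
    exact e ▸ h
  · have hE : phi p (X 0 ^ 3) = eCube (ZMod p) := by
      rw [map_pow, phi, aeval_X, eCube, map_pow]
      rfl
    have hD : phi p ((X 0 ^ 3 - X 1 ^ 2) * C (1728 : ZMod p)⁻¹) = deltaSer (ZMod p) := by
      rw [map_mul, map_sub, map_pow, map_pow, phi, aeval_X, aeval_X, aeval_C]
      show (e4 p ^ 3 - e6 p ^ 2) * PowerSeries.C (1728 : ZMod p)⁻¹ = _
      rw [← delta_p, show (1728 : PowerSeries (ZMod p)) = PowerSeries.C 1728 from (map_ofNat _ 1728).symm,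
        mul_comm (PowerSeries.C 1728), mul_assoc, ← map_mul, mul_inv_cancel₀ (c1728_ne h5), map_one,
        mul_one, deltaSer]
    rw [map_sum, gSer]
    refine Finset.sum_congr rfl fun i _ => ?_
    rw [map_mul, map_mul, map_pow (phi p) (X 0 ^ 3), map_pow (phi p) (_ * C _), hE, hD, phi,
      aeval_C, mul_assoc]
    rfl

/-- **No rational function of `j` is `Δ^(-(p-1)/l)` modulo `p`.** -/
theorem no_delta_root (h5 : 5 ≤ p) {l k₀ : ℕ} (hl : l.Prime) (hl5 : 5 ≤ l) (hk : l * k₀ = p - 1)
    {k : Type} [Field k] [CharP k p] (P Q : Polynomial k) (hQ : Q ≠ 0) {d : k} (hd : d ≠ 0) :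
    Polynomial.aeval (jqModC k) P * HahnSeries.ofPowerSeries ℤ k (deltaSer k) ^ k₀ ≠
      algebraMap k k⸨X⸩ d * Polynomial.aeval (jqModC k) Q := by
  classical
  intro heq
  letI := ZMod.algebra k p
  set D := HahnSeries.ofPowerSeries ℤ k (deltaSer k)
  set N := max P.natDegree Q.natDegree
  set Q' := Polynomial.C d * Q
  have hdeg : Q'.natDegree = Q.natDegree := Polynomial.natDegree_C_mul hd
  have hPN : P.natDegree ≤ N + k₀ := le_trans (le_max_left _ _) (Nat.le_add_right _ _)
  have hQN : Q'.natDegree ≤ N := hdeg ▸ le_max_right _ _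
  have hser : gSer k (N + k₀) P.coeff = gSer k N Q'.coeff := by
    refine HahnSeries.ofPowerSeries_injective (Γ := ℤ) ?_
    rw [← aeval_mul_delta k P hPN, ← aeval_mul_delta k Q' hQN, map_mul, Polynomial.aeval_C,
      ← heq, pow_add]
    ring
  -- a functional to the prime field
  obtain ⟨ev, hev⟩ : ∃ ev : k →ₗ[ZMod p] ZMod p, ev Q'.leadingCoeff = 1 := by
    have hne : Q'.leadingCoeff ≠ 0 := by
      rw [Ne, Polynomial.leadingCoeff_eq_zero]
      exact mul_ne_zero (Polynomial.C_ne_zero.2 hd) hQ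
    obtain ⟨f, hf⟩ : ∃ f : Module.Dual (ZMod p) k, f Q'.leadingCoeff ≠ 0 := by
      by_contra hall
      push Not at hall
      exact hne ((Module.forall_dual_apply_eq_zero_iff (ZMod p) _).1 hall)
    exact ⟨(f Q'.leadingCoeff)⁻¹ • f, by rw [LinearMap.smul_apply, smul_eq_mul, inv_mul_cancel₀ hf]⟩
  have hmap : ∀ (M : ℕ) (c : ℕ → k) (n : ℕ),
      ev (PowerSeries.coeff n (gSer k M c)) =
        PowerSeries.coeff n (gSer (ZMod p) M fun i => ev (c i)) := by
    intro M c n
    rw [gSer, gSer, map_sum, map_sum, map_sum]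
    refine Finset.sum_congr rfl fun i _ => ?_
    have e : eCube k ^ i * deltaSer k ^ (M - i) =
        (eCube (ZMod p) ^ i * deltaSer (ZMod p) ^ (M - i)).map (algebraMap (ZMod p) k) := by
      rw [map_mul, map_pow, map_pow, eCube, deltaSer, eCube, deltaSer, ← RingHom.comp_apply
        (PowerSeries.map _), ← PowerSeries.map_comp, ← RingHom.comp_apply (PowerSeries.map _),
        ← PowerSeries.map_comp, RingHom.ext_int ((algebraMap (ZMod p) k).comp
          (Int.castRingHom (ZMod p))) (Int.castRingHom k)]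
    rw [mul_assoc, mul_assoc, PowerSeries.coeff_C_mul, PowerSeries.coeff_C_mul, e,
      PowerSeries.coeff_map, mul_comm (c i), ← Algebra.smul_def, map_smul, smul_eq_mul, mul_comm]
  have hzser : gSer (ZMod p) (N + k₀) (fun i => ev (P.coeff i)) =
      gSer (ZMod p) N (fun i => ev (Q'.coeff i)) := PowerSeries.ext fun n => by
    rw [← hmap, ← hmap, hser]
  have hne : gSer (ZMod p) N (fun i => ev (Q'.coeff i)) ≠ 0 :=
    gSer_ne_zero (ZMod p) hQN _ (by
      show ev Q'.leadingCoeff ≠ 0
      rw [hev]; exact one_ne_zero) fun i hi => by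
      rw [Polynomial.coeff_eq_zero_of_natDegree_lt hi, map_zero]
  obtain ⟨A, hA, hA'⟩ := exists_isob_gSer h5 (N + k₀) fun i => ev (P.coeff i)
  obtain ⟨B, hB, hB'⟩ := exists_isob_gSer h5 N fun i => ev (Q'.coeff i)
  have hmod := weight_congr h5 hB hA (by rw [hA', hB', hzser]) (by rwa [hB'])
  have hdvd : p - 1 ∣ 12 * k₀ := by
    have := (Nat.modEq_iff_dvd' (Nat.mul_le_mul_left 12 (Nat.le_add_right N k₀))).1 hmod
    rwa [← Nat.mul_sub, Nat.add_sub_cancel_left] at this
  have hk0 : 0 < k₀ := Nat.pos_of_ne_zero fun h => by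
    rw [h, mul_zero] at hk
    omega
  rw [← hk] at hdvd
  have h12 : l ∣ 12 := Nat.dvd_of_mul_dvd_mul_right hk0 hdvd
  have := Nat.le_of_dvd (by norm_num) h12
  interval_cases l <;> simp_all (config := {decide := true})

end FA.JZeroInertia
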