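import Fermat.Agent.JZeroInertia.Fixed
import Fermat.Agent.JZeroInertia.DeltaRoot
import Fermat.Agent.ModField.Semistable.Mono.Eta.Datum
import Fermat.Agent.CuspClass.Order

/-!
# The cuspidal class at the level, `l ∣ n`

The class of order `l` in the cuspidal group of `J₀(p)` is fixed by inertia at `p` and is not
toric: else `Δ^(-(p-1)/l)` modulo `p` would be a rational function of `j`. So the fixed classes
are the toric ones and this one, `l ^ (g + 1)` in number.
-/

set_option autoImplicit false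
set_option linter.style.haveILetI false
set_option linter.unusedSectionVars false
set_option synthInstance.maxHeartbeats 400000
set_option maxHeartbeats 1000000

noncomputable section

namespace FA.JZeroInertia

open ModularCurve AlgebraicCurve FA.Curve FA.CurveRed FA.JTorsion FA.Level FA.LocalDef FA.ModField
open scoped LaurentSeries

local notation "Qb" => AlgebraicClosure ℚ

section Field

variable {p : ℕ} [hp : Fact p.Prime] [NeZero p] {k : Type} [Field k] [IsAlgClosed k] [CharP k p]

/-- The reduction of `Δ(z) / Δ(pz)` is no constant times an `l`-th power in `k(j)`. -/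
theorem etaSer_ne_pow (h5 : 5 ≤ p) {l k₀ : ℕ} (hl : l.Prime) (hl5 : 5 ≤ l) (hk : l * k₀ = p - 1)
    (a : k) (h : modularFunctionFieldFullC k 1) :
    FA.ModField.EtaQ.etaSer 12 1 p 1 k ≠ algebraMap k k⸨X⸩ a * (h : k⸨X⸩) ^ l := by
  intro heq
  set D := HahnSeries.ofPowerSeries ℤ k (deltaSer k)
  set x := (h : k⸨X⸩) * D ^ k₀ with hxdef
  have h1 : algebraMap k k⸨X⸩ a * x ^ l = 1 := by
    rw [hxdef, mul_pow, ← mul_assoc, ← heq, ← pow_mul, mul_comm k₀, hk]
    exact etaSer_mul_delta k
  have ha : a ≠ 0 := fun e => by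
    rw [e, map_zero, zero_mul] at h1
    exact zero_ne_one h1
  have hxl : x ^ l = algebraMap k k⸨X⸩ a⁻¹ := by
    rw [map_inv₀]
    exact eq_inv_of_mul_eq_one_right h1
  have hint : IsIntegral k x := IsIntegral.of_pow hl.pos (by rw [hxl]; exact isIntegral_algebraMap)
  obtain ⟨d, hd⟩ := minpoly.mem_range_of_degree_eq_one k x
    (IsAlgClosed.degree_eq_one_of_irreducible k (minpoly.irreducible hint))
  have hd0 : d ≠ 0 := fun e => by
    rw [← hd, e, map_zero, zero_pow hl.ne_zero, mul_zero] at h1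
    exact zero_ne_one h1
  have hmem : (h : k⸨X⸩) ∈ IntermediateField.adjoin k {jqModC k} := by
    have hle : modularFunctionFieldFullC k 1 ≤ IntermediateField.adjoin k {jqModC k} := by
      rw [modularFunctionFieldFullC, IntermediateField.adjoin_le_iff]
      rintro _ ⟨d, hne, hd, rfl⟩
      obtain rfl := Nat.eq_one_of_dvd_one hd
      rw [qExpand_one_apply]
      exact IntermediateField.subset_adjoin k _ rfl
    exact hle h.2
  obtain ⟨P, Q, hPQ⟩ := (IntermediateField.mem_adjoin_simple_iff k _).1 hmem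
  have hQ : Polynomial.aeval (jqModC k) Q ≠ 0 := fun e => by
    rw [hxdef, hPQ, e, div_zero, zero_mul, zero_pow hl.ne_zero, mul_zero] at h1
    exact zero_ne_one h1
  refine no_delta_root h5 hl hl5 hk P Q (fun e => hQ (by rw [e, map_zero])) hd0 ?_
  rw [hd, hxdef, hPQ, div_mul_eq_mul_div, div_mul_cancel₀ _ hQ]

end Field

variable [Algebra Qb ℂ]

variable (M q : ℕ) [NeZero M] [hq : Fact q.Prime] [hq0 : NeZero q]
variable (A : ValuationSubring Qb) [IsAlgClosed (IsLocalRing.ResidueField A)]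
  [CharP (IsLocalRing.ResidueField A) q] (hA : A.LiesOverPrime q) (hqM : ¬ q ∣ M)
  (harch : ∀ c : Qb, c ≠ 0 → ∃ m : ℕ, A.valuation ((q : Qb) ^ m) < A.valuation c)

local notation "kA" => IsLocalRing.ResidueField A
local notation "πA" => IsLocalRing.residue A

variable (U : (theFibre M q A hqM harch).UnitDatum (q : Qb))
  (hU : ∀ S ∈ inertAuts M q A, S • U.u = U.u)
variable (p : ℕ) [hp : Fact p.Prime] [NeZero p] (hqp : q ≠ p) (hM : M = 1)

include hA hqp hU hM in
/-- Fixed classes without orders at the branches are toric. -/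
theorem mem_toricSub_of_flat (hΔ : ¬ p ∣ U.Δ) {s : GalQ} (hs : IsTameGen p A s)
    {z : ModN (M * q) (∅ : Set ℕ) p} (hz : galSub (M * q) p s z = 0)
    (hbr : brOrd M q A hqM harch p z = 0) : z ∈ toricSub M q A hqM harch p := by
  obtain ⟨⟨x, hx⟩, y, hy⟩ := exists_low_of_flat M q A hA hqM harch U hU p hqp hΔ hs hz hbr
  obtain ⟨v, rfl⟩ := torsN_surjective M p x
  obtain ⟨v', rfl⟩ := torsN_surjective M p y
  rw [modN_level_one M hM p v, map_zero, map_zero] at hx
  rw [modN_level_one M hM p v', map_zero, map_zero] at hy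
  exact mem_toricSub M q A hqM harch p hx.symm hy.symm

include hA hqp hU hM in
/-- **With a fixed class which is not toric.** -/
theorem fixed_of_not_toric (hΔ : ¬ p ∣ U.Δ) {s : GalQ} (hs : IsTameGen p A s)
    {c : ModN (M * q) (∅ : Set ℕ) p} (hc : galSub (M * q) p s c = 0)
    (hcT : c ∉ toricSub M q A hqM harch p) :
    (galSub (M * q) p s).ker = toricSub M q A hqM harch p ⊔ AddSubgroup.zmultiples c ∧
      Nat.card (galSub (M * q) p s).ker =
        p ^ (Module.finrank ℂ (CuspForm (CongruenceSubgroup.Gamma0 (M * q)) 2) + 1) ∧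
      Nat.card (toricSub M q A hqM harch p) =
        p ^ Module.finrank ℂ (CuspForm (CongruenceSubgroup.Gamma0 (M * q)) 2) ∧
      Nat.card (galSub (M * q) p s).range * p =
        p ^ Module.finrank ℂ (CuspForm (CongruenceSubgroup.Gamma0 (M * q)) 2) := by
  classical
  obtain ⟨hfinX, hcardX⟩ := card_modN (M * q) p
  haveI := hfinX
  obtain ⟨-, hcardP⟩ := card_toricSub M q A hA hqM harch p hqp
  set g := Module.finrank ℂ (CuspForm (CongruenceSubgroup.Gamma0 (M * q)) 2)
  set B := galSub (M * q) p s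
  set P := toricSub M q A hqM harch p
  have hp1 := hp.out.one_lt
  have hP : Nat.card P ≤ p ^ g := hcardP.trans (Nat.pow_le_pow_right hp.out.pos (by
    have := genus_count M q A hqM harch
    omega))
  have hPK : P ≤ B.ker := fun z hz => sub_eq_zero.2 (galMod_toricSub M q A hA hqM harch p hqp hs.1 hz)
  have hle : B.range ≤ P := galSub_range_le M q A hA hqM harch p hs.1
  -- the orders at the branches lie on a line
  let φ := (brOrd M q A hqM harch p).comp B.ker.subtype
  set v : (theFibre M q A hqM harch).Sg → ZMod p := fun t => (U.δ t : ZMod p) * (U.Δ : ZMod p)⁻¹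
  have hφ : φ.range ≤ AddSubgroup.zmultiples v := by
    rintro _ ⟨⟨z, hz⟩, rfl⟩
    obtain ⟨κ, hκ⟩ := brOrd_mem_span M q A hA hqM harch U hU p hqp hΔ hs (sub_eq_zero.1 hz)
    exact ⟨κ, hκ.symm⟩
  have hv : Nat.card (AddSubgroup.zmultiples v) ≤ p := by
    rw [Nat.card_zmultiples]
    exact Nat.le_of_dvd hp.out.pos (addOrderOf_dvd_of_nsmul_eq_zero (funext fun t => by simp))
  have hφker : Nat.card φ.ker ≤ Nat.card P :=
    Nat.card_le_card_of_injective (fun z => (⟨z.1.1,
      mem_toricSub_of_flat M q A hA hqM harch U hU p hqp hM hΔ hs z.1.2 z.2⟩ : P))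
      fun a b h => Subtype.ext (Subtype.ext (congrArg Subtype.val h :))
  have hK : Nat.card B.ker ≤ p * Nat.card P := by
    rw [AddSubgroup.card_eq_card_quotient_mul_card_addSubgroup φ.ker,
      Nat.card_congr (QuotientAddGroup.quotientKerEquivRange φ).toEquiv]
    exact Nat.mul_le_mul ((Nat.card_le_card_of_injective _
      (AddSubgroup.inclusion_injective hφ)).trans hv) hφker
  have hmul : Nat.card B.range * Nat.card B.ker = p ^ (2 * g) := by
    rw [← Nat.card_congr (QuotientAddGroup.quotientKerEquivRange B).toEquiv,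
      ← AddSubgroup.card_eq_card_quotient_mul_card_addSubgroup, hcardX]
  have hpow : ∀ H : AddSubgroup (ModN (M * q) (∅ : Set ℕ) p), ∃ i, Nat.card H = p ^ i := fun H => by
    obtain ⟨i, -, hi⟩ := (Nat.dvd_prime_pow hp.out).1 (hcardX ▸ H.card_addSubgroup_dvd_card)
    exact ⟨i, hi⟩
  obtain ⟨i, hi⟩ := hpow P
  obtain ⟨a, ha⟩ := hpow B.ker
  obtain ⟨b, hb⟩ := hpow B.range
  obtain ⟨j, hj⟩ := hpow (P ⊔ AddSubgroup.zmultiples c)
  have hsup : P ⊔ AddSubgroup.zmultiples c ≤ B.ker :=
    sup_le hPK (AddSubgroup.zmultiples_le.2 hc)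
  have hlt : Nat.card P < Nat.card (P ⊔ AddSubgroup.zmultiples c : AddSubgroup _) := by
    refine lt_of_le_of_ne (Nat.card_le_card_of_injective _
      (AddSubgroup.inclusion_injective le_sup_left)) fun e => hcT ?_
    rw [AddSubgroup.eq_of_le_of_card_ge le_sup_left e.ge]
    exact le_sup_right (a := P) (AddSubgroup.mem_zmultiples c)
  have hja : j ≤ a := (Nat.pow_le_pow_iff_right hp1).1 (hj ▸ ha ▸
    Nat.card_le_card_of_injective _ (AddSubgroup.inclusion_injective hsup))
  have hbi : b ≤ i := (Nat.pow_le_pow_iff_right hp1).1 (hb ▸ hi ▸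
    Nat.card_le_card_of_injective _ (AddSubgroup.inclusion_injective hle))
  have hij : i < j := (Nat.pow_lt_pow_iff_right hp1).1 (hi ▸ hj ▸ hlt)
  have hai : a ≤ i + 1 := (Nat.pow_le_pow_iff_right hp1).1 (by
    rw [← ha, pow_succ', ← hi]; exact hK)
  have hig : i ≤ g := (Nat.pow_le_pow_iff_right hp1).1 (hi ▸ hP)
  have hab : b + a = 2 * g := Nat.pow_right_injective hp.out.two_le
    (by show p ^ (b + a) = p ^ (2 * g); rw [pow_add, ← hb, ← ha, hmul])
  have e1 : i = g := by omega
  have e2 : a = g + 1 := by omega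
  have e3 : b + 1 = g := by omega
  refine ⟨(AddSubgroup.eq_of_le_of_card_ge hsup ?_).symm, by rw [ha, e2], by rw [hi, e1],
    by rw [hb, ← pow_succ, e3]⟩
  rw [ha, hj]
  exact Nat.pow_le_pow_right hp.out.pos (by omega)

end FA.JZeroInertia

namespace FA.JZeroInertia

open ModularCurve AlgebraicCurve FA.Curve FA.CurveRed FA.JTorsion FA.Level FA.LocalDef FA.ModField

local notation "Qb" => AlgebraicClosure ℚ

variable [Algebra Qb ℂ] (q : ℕ) [hq : Fact q.Prime] [hq0 : NeZero q]
variable (A : ValuationSubring Qb) [IsAlgClosed (IsLocalRing.ResidueField A)]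
  [CharP (IsLocalRing.ResidueField A) q] (hA : A.LiesOverPrime q) (hqM : ¬ q ∣ 1)
  (harch : ∀ c : Qb, c ≠ 0 → ∃ m : ℕ, A.valuation ((q : Qb) ^ m) < A.valuation c)
variable (l : ℕ) [hl : Fact l.Prime] [NeZero l]

local notation "πA" => IsLocalRing.residue A

include hA in
/-- **The cuspidal class of order `l` is rational and not toric.** -/
theorem exists_cusp_not_toric (h5 : 5 ≤ l) (hn : l ∣ eisensteinNumerator q) :
    ∃ c : ModN (1 * q) (∅ : Set ℕ) l,
      (∀ σ : GalQ, galMod (1 * q) (∅ : Set ℕ) l σ c = c) ∧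
        c ∉ toricSub 1 q A hqM harch l := by
  have hdvd : l ∣ q - 1 := hn.trans (eisensteinNumerator_dvd q)
  obtain ⟨k₀, hk⟩ := hdvd
  have hq5 : 5 ≤ q := by
    have h2 := hq.out.two_le
    have := Nat.le_of_dvd (by omega) (Dvd.intro k₀ hk.symm)
    omega
  have hF := isFunctionField_level Qb (1 * q)
  have hadm := FA.CuspClass.adm_unit q (w := 12) (m := 1) rfl (Or.inl rfl) (one_dvd _)
  set u := EtaQ.etaElt Qb hadm
  have hu : u ≠ 0 := EtaQ.etaElt_ne_zero hadm
  set D : Divisor.degZero (K := Qb) (F := levelField (1 * q) Qb) :=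
    k₀ • FA.CuspClass.cuspDiv q
  have hD : ∀ P, (l : ℤ) * (D : Divisor Qb (levelField (1 * q) Qb)) P = P.ord u := fun P => by
    rw [FA.CuspClass.ord_unit_eq q hadm (k := q - 1) (one_mul _), hk,
      AddSubmonoidClass.coe_nsmul, Finsupp.smul_apply, nsmul_eq_mul]
    push_cast
    ring
  have hx : l • (Pic0.mk D : JZero (1 * q)) = 0 := by
    show l • Pic0.mk (k₀ • FA.CuspClass.cuspDiv q) = 0
    rw [show Pic0.mk (k₀ • FA.CuspClass.cuspDiv q) = k₀ • FA.CuspClass.cuspCls q from
      QuotientAddGroup.mk_nsmul _ _ _, smul_smul, ← hk]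
    exact FA.CuspClass.nsmul_cuspCls_eq_zero q u hu
      fun v => FA.CuspClass.ord_unit_eq q hadm (k := q - 1) (one_mul _) v
  obtain ⟨c, hc⟩ := FA.EisReducible.exists_toTors_eq_of_nsmul (1 * q) l _ hx
  refine ⟨c, fun σ => toTors_injective (1 * q) (∅ : Set ℕ) l ?_, fun hT => ?_⟩
  · rw [toTors_galMod, hc, show (Pic0.mk D : JZero (1 * q)) = k₀ • FA.CuspClass.cuspCls q from
      QuotientAddGroup.mk_nsmul _ _ _]
    exact ((DistribSMul.toAddMonoidHom (JZero (1 * q)) σ).map_nsmul k₀ _).trans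
      (by rw [DistribSMul.toAddMonoidHom_apply, FA.CuspClass.gal_cuspCls])
  obtain ⟨r, hr, hred⟩ := X0.cInf_series 1 q A πA IsLocalRing.residue_surjective residueAt_eq_zero
    hqM harch (EtaQ.etaSer 12 1 q 1 A) (f := u) (EtaQ.coeffMap_etaSer 12 1 q 1 _)
  rw [EtaQ.coeffMap_etaSer] at hr
  have hr0 : r ≠ 0 := fun h0 => EtaQ.etaSer_ne_zero 12 1 q 1 (IsLocalRing.ResidueField A) (by
    rw [← hr, h0]; rfl)
  have h0 : redTorInf 1 q A πA IsLocalRing.residue_surjective residueAt_eq_zero hqM harch l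
      (torsN (1 * q) l c) = redCls l r := by
    rw [redTorInf, redTor_mk l hF _ (torsN (1 * q) l c) (D := D) (g := u)
      (by rw [coe_torsN, hc]) hu hD, redFn_red l hred hr0]
  have h1 : redCls (k := IsLocalRing.ResidueField A) l r = 0 := h0.symm.trans hT.1
  obtain ⟨a, h, -, he⟩ := (redCls_eq_zero_iff l hr0).1 h1
  refine etaSer_ne_pow hq5 hl.out h5 hk.symm a h ?_
  rw [← hr, he]
  rfl

end FA.JZeroInertia
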