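import Fermat.Agent.JZeroInertia.ToricCount
import Fermat.Agent.JZeroInertia.Cuspidal

/-!
# The cuspidal class of order `l` is not toric at any power of `l`

At level `q` the toric classes killed by `l ^ k` are fixed by inertia, contain the displaced ones,
are at least `l ^ (k g)` in number and do not contain the multiple of order `l` of the class of
`(0) - (∞)`.
-/

set_option autoImplicit false
set_option linter.style.haveILetI false
set_option linter.unusedSectionVars false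
set_option synthInstance.maxHeartbeats 400000
set_option maxHeartbeats 1000000

noncomputable section

namespace FA.JZeroInertia

open ModularCurve AlgebraicCurve FA.Curve FA.CurveRed FA.JTorsion FA.Level FA.LocalDef FA.ModField
open scoped LaurentSeries

local notation "Qb" => AlgebraicClosure ℚ

/-- A root of a constant over an algebraically closed field is a constant. -/
theorem mem_range_of_pow_eq {k L : Type} [Field k] [IsAlgClosed k] [Field L] [Algebra k L]
    {x : L} {N : ℕ} (hN : 0 < N) {a : k} (h : x ^ N = algebraMap k L a) :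
    ∃ d : k, algebraMap k L d = x :=
  have hint : IsIntegral k x := IsIntegral.of_pow hN (by rw [h]; exact isIntegral_algebraMap)
  minpoly.mem_range_of_degree_eq_one k x
    (IsAlgClosed.degree_eq_one_of_irreducible k (minpoly.irreducible hint))

variable [Algebra Qb ℂ] (q : ℕ) [hq : Fact q.Prime] [hq0 : NeZero q]
variable (A : ValuationSubring Qb) [IsAlgClosed (IsLocalRing.ResidueField A)]
  [CharP (IsLocalRing.ResidueField A) q] (hA : A.LiesOverPrime q) (hqM : ¬ q ∣ 1)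
  (harch : ∀ c : Qb, c ≠ 0 → ∃ m : ℕ, A.valuation ((q : Qb) ^ m) < A.valuation c)
variable (l : ℕ) [hl : Fact l.Prime] [NeZero l]

local notation "πA" => IsLocalRing.residue A

include hA in
/-- **Not toric at any power.** -/
theorem cusp_not_mem_toricN (h5 : 5 ≤ l) {k₀ : ℕ} (hk : l * k₀ = q - 1) (j : ℕ)
    {z : ModN (1 * q) (∅ : Set ℕ) (l ^ (j + 1))}
    (hz : toTors (1 * q) (∅ : Set ℕ) (l ^ (j + 1)) z = k₀ • FA.CuspClass.cuspCls q) :
    z ∉ toricN 1 q A hqM harch l (j + 1) := by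
  intro hT
  have hq5 : 5 ≤ q := by
    have h2 := hq.out.two_le
    have := Nat.le_of_dvd (by omega) (Dvd.intro k₀ hk)
    omega
  have hF := isFunctionField_level Qb (1 * q)
  have hadm := FA.CuspClass.adm_unit q (w := 12) (m := 1) rfl (Or.inl rfl) (one_dvd _)
  set u := EtaQ.etaElt Qb hadm
  have hu : u ≠ 0 := EtaQ.etaElt_ne_zero hadm
  set D : Divisor.degZero (K := Qb) (F := levelField (1 * q) Qb) :=
    k₀ • FA.CuspClass.cuspDiv q
  set N := l ^ j
  have hN : 0 < N := pow_pos hl.out.pos j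
  have hD : ∀ P, ((l ^ (j + 1) : ℕ) : ℤ) * (D : Divisor Qb (levelField (1 * q) Qb)) P =
      P.ord (u ^ N) := fun P => by
    rw [place_ord_pow, FA.CuspClass.ord_unit_eq q hadm (k := q - 1) (one_mul _), ← hk,
      AddSubmonoidClass.coe_nsmul, Finsupp.smul_apply, nsmul_eq_mul]
    push_cast
    rw [pow_succ]
    push_cast [N]
    ring
  have hcls : (torsCls 1 q l (j + 1) z : Pic0 Qb (levelField (1 * q) Qb)) = Pic0.mk D := by
    rw [coe_torsCls, hz]
    exact (QuotientAddGroup.mk_nsmul _ _ _).symm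
  obtain ⟨r, hr, hred⟩ := X0.cInf_series 1 q A πA IsLocalRing.residue_surjective residueAt_eq_zero
    hqM harch (EtaQ.etaSer 12 1 q 1 A) (f := u) (EtaQ.coeffMap_etaSer 12 1 q 1 _)
  rw [EtaQ.coeffMap_etaSer] at hr
  have hr0 : r ≠ 0 := fun h0 => EtaQ.etaSer_ne_zero 12 1 q 1 (IsLocalRing.ResidueField A) (by
    rw [← hr, h0]; rfl)
  have h0 : redTorInf 1 q A πA IsLocalRing.residue_surjective residueAt_eq_zero hqM harch
      (l ^ (j + 1)) (torsCls 1 q l (j + 1) z) = redCls (l ^ (j + 1)) (r ^ N) := by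
    rw [redTorInf, redTor_mk (l ^ (j + 1)) hF _ (torsCls 1 q l (j + 1) z) (D := D) (g := u ^ N)
      hcls.symm (pow_ne_zero N hu) hD, redFn_red (l ^ (j + 1)) (hred.pow N) (pow_ne_zero N hr0)]
  have h1 : redCls (k := IsLocalRing.ResidueField A) (l ^ (j + 1)) (r ^ N) = 0 := h0.symm.trans hT.1
  obtain ⟨a, h, ha, he⟩ := (redCls_eq_zero_iff (l ^ (j + 1)) (pow_ne_zero N hr0)).1 h1
  have hh : (h : (IsLocalRing.ResidueField A)⸨X⸩) ≠ 0 := fun e => pow_ne_zero N hr0 (by
    rw [he, show h = 0 from Subtype.ext e, zero_pow (pow_ne_zero _ (NeZero.ne l)), mul_zero])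
  have he' := congrArg Subtype.val he
  push_cast at he'
  obtain ⟨d, hd⟩ := mem_range_of_pow_eq (k := IsLocalRing.ResidueField A) hN
    (x := (r : (IsLocalRing.ResidueField A)⸨X⸩) / (h : (IsLocalRing.ResidueField A)⸨X⸩) ^ l)
    (a := a) (by
      rw [div_pow, ← pow_mul, mul_comm l, ← pow_succ, div_eq_iff (pow_ne_zero _ hh), he'])
  refine etaSer_ne_pow hq5 hl.out h5 hk d h ?_
  rw [← hr, hd, div_mul_cancel₀ _ (pow_ne_zero l hh)]

end FA.JZeroInertia

namespace FA.JZeroInertia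

open ModularCurve FA.JTorsion FA.Mazur FA.ModField CongruenceSubgroup

local notation "Qb" => AlgebraicClosure ℚ
local notation "GQ" => AlgebraicClosure ℚ ≃ₐ[ℚ] AlgebraicClosure ℚ

/-- The toric classes killed by `l ^ k`, and the multiple of order `l` of the cuspidal class. -/
def IsToric (N n l k : ℕ) [NeZero N] (c : JZero N) (A : ValuationSubring Qb)
    (T : AddSubgroup (JZero N)) : Prop :=
  (∀ x ∈ T, l ^ k • x = 0 ∧ ∀ τ ∈ A.inertiaSubgroupIn ℚ, τ • x = x) ∧
  (∀ τ ∈ A.inertiaSubgroupIn ℚ, ∀ y : JZero N, l ^ k • y = 0 → τ • y - y ∈ T) ∧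
  (l ^ k) ^ Module.finrank ℂ (CuspForm (Gamma0 N) 2) ≤ Nat.card T ∧
  (l ∣ n → 0 < k → (n / l) • c ∉ T)

theorem exists_cusp_toric_mul [Algebra Qb ℂ] {p : ℕ} [hp : Fact p.Prime] (hp5 : 5 ≤ p) (N : ℕ)
    [NeZero N] (hN : N = 1 * p) {A : ValuationSubring Qb} (hA : A.LiesOverPrime p) :
    ∃ c : JZero N, addOrderOf c = eisensteinNumerator p ∧ (∀ σ : GQ, σ • c = c) ∧
      ∀ l : ℕ, l.Prime → 5 ≤ l → l ≠ p → ∀ k : ℕ,
        ∃ T, IsToric N (eisensteinNumerator p) l k c A T := by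
  subst hN
  haveI : NeZero p := ⟨hp.out.ne_zero⟩
  refine ⟨FA.CuspClass.cuspCls p, FA.CuspClass.addOrderOf_cuspCls p hp5,
    FA.CuspClass.gal_cuspCls p, fun l hl h5 hlp k => ?_⟩
  haveI : Fact l.Prime := ⟨hl⟩
  haveI : NeZero l := ⟨hl.ne_zero⟩
  haveI : NeZero (l ^ k) := ⟨pow_ne_zero _ hl.ne_zero⟩
  haveI : Algebra.IsAlgebraic ℚ Qb := AlgebraicClosure.isAlgebraic ℚ
  haveI : IsAlgClosed (IsLocalRing.ResidueField A) := FA.Frob.residueField_isAlgClosed A
  haveI : CharP (IsLocalRing.ResidueField A) p := residueAt_charP hA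
  have hqM : ¬ p ∣ 1 := hp.out.not_dvd_one
  have harch : ∀ c : Qb, c ≠ 0 → ∃ m : ℕ, A.valuation ((p : Qb) ^ m) < A.valuation c :=
    fun c hc => exists_pow_lt_valuation hp.out hA c hc
  have hqp : p ≠ l := Ne.symm hlp
  obtain ⟨w, m, r, hr0, hr, h, h', hw, -⟩ :=
    exists_adm (M := 1) hp.out hl hqp (Or.inl h5)
  haveI : NeZero r := ⟨hr0⟩
  obtain ⟨U, -, -⟩ := exists_unitDatum 1 p A hqM harch hr h h' hw
  set Φ := toTors (1 * p) (∅ : Set ℕ) (l ^ k)
  have hΦ : Function.Injective Φ := toTors_injective (1 * p) (∅ : Set ℕ) (l ^ k)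
  refine ⟨(toricN 1 p A hqM harch l k).map Φ, fun x hx => ?_, fun τ hτ y hy => ?_, ?_,
    fun hln hk hmem => ?_⟩
  · obtain ⟨z, hz, rfl⟩ := hx
    exact ⟨nsmul_toTors (1 * p) (∅ : Set ℕ) (l ^ k) z, fun τ hτ => by
      rw [← toTors_galMod, galMod_toricN 1 p A hA hqM harch l hqp hτ hz]⟩
  · obtain ⟨z, rfl⟩ := FA.EisReducible.exists_toTors_eq_of_nsmul (1 * p) (l ^ k) y hy
    exact ⟨_, galSub_mem_toricN 1 p A hA hqM harch l hτ z, by rw [map_sub, toTors_galMod]⟩
  · rw [← Nat.card_congr (AddSubgroup.equivMapOfInjective _ Φ hΦ).toEquiv]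
    exact le_card_toricN 1 p A hA hqM harch l hqp rfl U k
  · obtain ⟨j, rfl⟩ : ∃ j, k = j + 1 := ⟨k - 1, by omega⟩
    have hd : eisensteinNumerator p * Nat.gcd (p - 1) 12 = p - 1 :=
      Nat.div_mul_cancel (Nat.gcd_dvd_left _ _)
    have hk0 : l * (Nat.gcd (p - 1) 12 * (eisensteinNumerator p / l)) = p - 1 := by
      rw [mul_comm (Nat.gcd (p - 1) 12), ← mul_assoc, Nat.mul_div_cancel' hln, hd]
    have hmem' := AddSubgroup.nsmul_mem _ hmem (Nat.gcd (p - 1) 12)
    rw [← mul_nsmul'] at hmem'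
    obtain ⟨z, hz, hz'⟩ := hmem'
    exact cusp_not_mem_toricN p A hA hqM harch l h5 hk0 j hz' hz

end FA.JZeroInertia
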