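import Fermat.Agent.JZeroInertia.Toric

/-!
# Frobenius at `p` on the torsion of `J₀(p)` prime to `p`

On the classes killed by `M`, `p ∤ M`, a Frobenius element `σ` is `U_p` up to classes fixed by
inertia, and `σ τ = τ ^ p σ` for `τ` in inertia. So on the displaced classes `σ = p U_p`.
-/

set_option autoImplicit false
set_option linter.style.haveILetI false
set_option linter.unusedSectionVars false
set_option synthInstance.maxHeartbeats 400000
set_option maxHeartbeats 1000000

noncomputable section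

namespace FA.JZeroInertia

open ModularCurve AlgebraicCurve FA.Curve FA.CurveRed FA.JTorsion FA.Level FA.LocalDef FA.ModField

local notation "Qb" => AlgebraicClosure ℚ

section Core

variable [Algebra Qb ℂ] (M q : ℕ) [NeZero M] [hq : Fact q.Prime] [hq0 : NeZero q]
variable (A : ValuationSubring Qb) [IsAlgClosed (IsLocalRing.ResidueField A)]
  [CharP (IsLocalRing.ResidueField A) q] (hA : A.LiesOverPrime q) (hqM : ¬ q ∣ M)
  (harch : ∀ c : Qb, c ≠ 0 → ∃ m : ℕ, A.valuation ((q : Qb) ^ m) < A.valuation c)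
variable (l : ℕ) [hl : Fact l.Prime] [NeZero l] (hqp : q ≠ l) (hM : M = 1)

local notation "kA" => IsLocalRing.ResidueField A
local notation "πA" => IsLocalRing.residue A

include hA hqM harch hqp hM in
/-- `σ - U_q` has inertia-fixed values at every power of `l`. -/
theorem frobenius_sub_fixed_core {σ : GalQ} (hσ : A.IsFrobeniusAt σ q) (k : ℕ) {τ : GalQ}
    (hτ : τ ∈ A.inertiaSubgroupIn ℚ) (z : ModN (M * q) (∅ : Set ℕ) (l ^ k)) :
    galMod (M * q) (∅ : Set ℕ) (l ^ k) τ
        (galMod (M * q) (∅ : Set ℕ) (l ^ k) σ z - uQ M q • z) =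
      galMod (M * q) (∅ : Set ℕ) (l ^ k) σ z - uQ M q • z := by
  set rI := redTorInf M q A πA IsLocalRing.residue_surjective residueAt_eq_zero hqM harch (l ^ k)
  set rZ := redTorZero M q A πA IsLocalRing.residue_surjective residueAt_eq_zero hqM harch (l ^ k)
  have hkl : ∀ (n : ℕ) (z : ModN (M * q) (∅ : Set ℕ) (l ^ n)),
      pushLvl M q (toTors (M * q) (∅ : Set ℕ) (l ^ n) ((1 : HFull (M * q)) • z)) = 0 := fun n z =>
    pushLvl_toTors M q hM (l ^ n) _
  have hInf : ∀ v, rI (torsCls M q l k v) = - rZ (torsCls M q l k (uQ M q • v)) := fun v => by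
    have h := redTorInf_torsCls_of_kill M q A πA IsLocalRing.residue_surjective residueAt_eq_zero
      hqM harch l hkl k v
    rwa [one_smul] at h
  have h0 : ∀ v, rZ (torsCls M q l k (galMod (M * q) (∅ : Set ℕ) (l ^ k) σ v)) =
      rZ (torsCls M q l k (uQ M q • v)) := fun v => by
    rw [torsCls_galMod]
    exact (redTorZero_hecke_eq_gal M q A πA IsLocalRing.residue_surjective residueAt_eq_zero
      hqM harch (l ^ k) (inducesOn_frobenius hσ) _ _ (toTors_uQ M q l k v)).symm
  have h1 : rI (torsCls M q l k (galMod (M * q) (∅ : Set ℕ) (l ^ k) σ z)) =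
      rI (torsCls M q l k (uQ M q • z)) := by
    rw [hInf, hInf, ← map_smul, h0]
  have hn : ((l ^ k : ℕ) : kA) ≠ 0 := fun h => hqp ((Nat.prime_dvd_prime_iff_eq hq.out hl.out).1
    (hq.out.dvd_of_dvd_pow ((CharP.cast_eq_zero_iff kA q _).1 h)))
  obtain ⟨S, hSs, hθk, -, he⟩ :=
    (fibreData M q A πA IsLocalRing.residue_surjective residueAt_eq_zero hqM harch).symm_inertia τ
      (inducesOn_inertia hτ)
  refine toTors_injective (M * q) (∅ : Set ℕ) (l ^ k) ?_
  have h := S.smul_eq_self (isFunctionField_level Qb (M * q)) (fun _ => isFunctionField_fullC kA M)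
    hθk he (pow_ne_zero k (NeZero.ne l)) (valuation_natCast_of_red A πA residueAt_eq_zero hn)
    (x := torsCls M q l k (galMod (M * q) (∅ : Set ℕ) (l ^ k) σ z - uQ M q • z))
    ((SemiFibre.mem_toricKer _).2 (Fin.forall_fin_two.2
      ⟨map_sub_zero_of_eq (G := ModN (M * q) (∅ : Set ℕ) (l ^ k))
        (H := RedTarget kA (modularFunctionFieldFullC kA M) (l ^ k))
        (rI.comp (torsCls M q l k)) h1,
       map_sub_zero_of_eq (G := ModN (M * q) (∅ : Set ℕ) (l ^ k))
        (H := RedTarget kA (modularFunctionFieldFullC kA M) (l ^ k))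
        (rZ.comp (torsCls M q l k)) (h0 z)⟩))
  rw [hSs, ← torsCls_galMod] at h
  exact congrArg Subtype.val h

end Core

variable {p : ℕ} [hp : Fact p.Prime] {A : ValuationSubring Qb}

/-- `U_q` on `J₀(N)`. -/
def upJ (N q : ℕ) [NeZero N] [NeZero q] : JZero N →+ JZero N := heckeLvl N q

theorem heckeLvl_frobenius_aux [Algebra Qb ℂ] {l : ℕ} [hl : Fact l.Prime] (hlp : l ≠ p)
    (hA : A.LiesOverPrime p) {σ : GalQ} (hσ : A.IsFrobeniusAt σ p) {τ : GalQ}
    (hτ : τ ∈ A.inertiaSubgroupIn ℚ) (k : ℕ) (N : ℕ) [NeZero N] [NeZero p] (hN : N = 1 * p)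
    (y : JZero N) (hy : l ^ k • y = 0) :
    τ • (σ • y - upJ N p y) = σ • y - upJ N p y := by
  subst hN
  haveI : NeZero l := ⟨hl.out.ne_zero⟩
  haveI : Algebra.IsAlgebraic ℚ Qb := AlgebraicClosure.isAlgebraic ℚ
  haveI : IsAlgClosed (IsLocalRing.ResidueField A) := FA.Frob.residueField_isAlgClosed A
  haveI : CharP (IsLocalRing.ResidueField A) p := residueAt_charP hA
  obtain ⟨z, rfl⟩ := FA.EisReducible.exists_toTors_eq_of_nsmul (1 * p) (l ^ k) y hy
  have h := congrArg (toTors (1 * p) (∅ : Set ℕ) (l ^ k))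
    (frobenius_sub_fixed_core 1 p A hA hp.out.not_dvd_one
      (fun c hc => exists_pow_lt_valuation hp.out hA c hc) l (Ne.symm hlp) rfl hσ k hτ z)
  rw [toTors_galMod, map_sub, toTors_galMod, show toTors (1 * p) (∅ : Set ℕ) (l ^ k) (uQ 1 p • z) =
    upJ (1 * p) p (toTors (1 * p) (∅ : Set ℕ) (l ^ k) z) from
      toTors_U_smul (1 * p) (l ^ k) hp.out (dvd_mul_left p 1) (Set.notMem_empty _) z] at h
  exact h

/-- A property closed under sums holds on the torsion prime to `p` if it holds at prime powers. -/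
theorem of_prime_powers (Q : JZero p → Prop) (h0 : Q 0) (hadd : ∀ x y, Q x → Q y → Q (x + y))
    (hpp : ∀ l : ℕ, l.Prime → l ≠ p → ∀ (k : ℕ) (y : JZero p), l ^ k • y = 0 → Q y) (M : ℕ) :
    ¬ p ∣ M → ∀ y : JZero p, M • y = 0 → Q y := by
  induction M using Nat.recOnPosPrimePosCoprime with
  | prime_pow l k hl hk =>
    intro hpl
    exact hpp l hl (fun h => hpl (h ▸ dvd_pow_self l hk.ne')) k
  | zero => intro h; exact absurd (dvd_zero p) h
  | one =>
    intro _ y hy
    rw [one_nsmul] at hy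
    rw [hy]
    exact h0
  | coprime a b _ _ hab iha ihb =>
    intro hpab y hy
    obtain ⟨e, hea, heb⟩ := Nat.chineseRemainder hab 1 0
    obtain ⟨f, hfa, hfb⟩ := Nat.chineseRemainder hab 0 1
    have hef : e + f ≡ 1 [MOD a * b] :=
      (Nat.modEq_and_modEq_iff_modEq_mul hab).1
        ⟨by simpa using hea.add hfa, by simpa using heb.add hfb⟩
    obtain ⟨c, rfl⟩ := Nat.modEq_zero_iff_dvd.1 heb
    obtain ⟨d, rfl⟩ := Nat.modEq_zero_iff_dvd.1 hfa
    rw [show y = (b * c) • y + (a * d) • y by rw [← add_nsmul, nsmul_congr hy hef, one_nsmul]]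
    refine hadd _ _ (iha (fun h => hpab (h.trans (dvd_mul_right a b))) _ ?_)
      (ihb (fun h => hpab (h.trans (dvd_mul_left b a))) _ ?_)
    · rw [← mul_nsmul', ← mul_assoc, mul_nsmul, hy, smul_zero]
    · rw [← mul_nsmul', ← mul_assoc, mul_comm b a, mul_nsmul, hy, smul_zero]

variable [NeZero p]

/-- **`σ - U_p` has inertia-fixed values.** -/
theorem frobenius_sub_fixed (hA : A.LiesOverPrime p) {σ : GalQ} (hσ : A.IsFrobeniusAt σ p)
    {τ : GalQ} (hτ : τ ∈ A.inertiaSubgroupIn ℚ) {M : ℕ} (hM : ¬ p ∣ M) {y : JZero p}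
    (hy : M • y = 0) : τ • (σ • y - upJ p p y) = σ • y - upJ p p y := by
  obtain ⟨alg⟩ := exists_algebra_qbar
  letI := alg
  refine of_prime_powers (fun y => τ • (σ • y - upJ p p y) = σ • y - upJ p p y) ?_
    (fun x y hx hy => ?_) (fun l hl hlp k y hy => ?_) M hM y hy
  · rw [map_zero, smul_zero_jzero, sub_zero, smul_zero_jzero]
  · rw [map_add, smul_add, add_sub_add_comm, smul_add, hx, hy]
  · haveI : Fact l.Prime := ⟨hl⟩
    exact heckeLvl_frobenius_aux hlp hA hσ hτ k p (one_mul p).symm y hy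

/-- **The tame relation on the torsion prime to `p`.** -/
theorem frobenius_tame (hA : A.LiesOverPrime p) {σ : GalQ} (hσ : A.IsFrobeniusAt σ p)
    {τ : GalQ} (hτ : τ ∈ A.inertiaSubgroupIn ℚ) {M : ℕ} (hM : ¬ p ∣ M) {y : JZero p}
    (hy : M • y = 0) : σ • (τ • y) = τ ^ p • (σ • y) := by
  obtain ⟨alg⟩ := exists_algebra_qbar
  letI := alg
  refine of_prime_powers (fun y => σ • (τ • y) = τ ^ p • (σ • y)) ?_
    (fun x y hx hy => ?_) (fun l hl hlp k y hy => ?_) M hM y hy
  · rw [smul_zero_jzero, smul_zero_jzero, smul_zero_jzero]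
  · rw [smul_add, smul_add, smul_add, smul_add, hx, hy]
  · haveI : Fact l.Prime := ⟨hl⟩
    haveI : NeZero (l ^ k) := ⟨pow_ne_zero _ hl.ne_zero⟩
    have hpl : ¬ p ∣ l ^ k := fun h =>
      hlp ((Nat.prime_dvd_prime_iff_eq hp.out hl).1 (hp.out.dvd_of_dvd_pow h)).symm
    have htame := FA.RT.tame_relation (galMod p (∅ : Set ℕ) (l ^ k)) hl hp.out hlp hA
      (isOpen_ker_galMod p (l ^ k))
      (fun ρ hρ => ⟨k, pow_eq_one_of_sq (modN_nsmul p (l ^ k)) _ fun x =>
        toTors_injective p (∅ : Set ℕ) (l ^ k) (by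
          rw [map_add, map_nsmul, toTors_galMod, toTors_galMod]
          exact FA.Mazur.semistableTors_level p A hA ρ hρ (l ^ k) hpl _
            (nsmul_toTors p (∅ : Set ℕ) (l ^ k) x))⟩) hσ hτ
    obtain ⟨z, rfl⟩ := FA.EisReducible.exists_toTors_eq_of_nsmul p (l ^ k) y hy
    have h := congrArg (toTors p (∅ : Set ℕ) (l ^ k)) (LinearMap.congr_fun htame z)
    rw [← map_pow, Module.End.mul_apply, Module.End.mul_apply, toTors_galMod, toTors_galMod,
      toTors_galMod, toTors_galMod] at h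
    exact h

theorem heckeLvl_smul (σ : GalQ) (y : JZero p) :
    upJ p p (σ • y) = σ • upJ p p y := by
  obtain ⟨alg⟩ := exists_algebra_qbar
  letI := alg
  exact heckeLvl_galois_smul p p σ y

/-- `U_p` is an involution. -/
theorem heckeLvl_sq {M : ℕ} (hM : M ≠ 0) {y : JZero p} (hy : M • y = 0) :
    upJ p p (upJ p p y) = y := by
  obtain ⟨alg⟩ := exists_algebra_qbar
  letI := alg
  haveI : NeZero M := ⟨hM⟩
  obtain ⟨z, rfl⟩ := FA.EisReducible.exists_toTors_eq_of_nsmul p M y hy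
  have hU : CuspForm.heckeAlgebra.U (k := 2) hp.out dvd_rfl (Set.notMem_empty _) =
      FA.Mazur.tGen p ⟨p, hp.out⟩ :=
    (CuspForm.heckeEvalForms_heckeGen_of_dvd (q := ⟨p, hp.out⟩) dvd_rfl).symm
  show heckeLvl p p (heckeLvl p p (toTors p (∅ : Set ℕ) M z)) = _
  rw [← toTors_U_smul p M hp.out dvd_rfl (Set.notMem_empty _), ← toTors_U_smul p M hp.out dvd_rfl
    (Set.notMem_empty _), smul_smul, hU, FA.EisReducible.tGen_level_sq, one_smul]

/-- **`σ = p U_p` on the displaced classes.** -/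
theorem frobenius_displaced (hA : A.LiesOverPrime p) {σ : GalQ} (hσ : A.IsFrobeniusAt σ p)
    {s : GalQ} (hs : s ∈ A.inertiaSubgroupIn ℚ) {M : ℕ} (hM : ¬ p ∣ M) {y : JZero p}
    (hy : M • y = 0) : σ • (s • y - y) = p • upJ p p (s • y - y) := by
  have h1 := frobenius_sub_fixed hA hσ hs hM hy
  rw [smul_sub, sub_eq_sub_iff_sub_eq_sub] at h1
  rw [smul_sub, frobenius_tame hA hσ hs hM hy, inertia_pow hA hM hs (nsmul_smul_eq_zero hy σ),
    add_sub_cancel_left, map_sub, heckeLvl_smul, h1]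

end FA.JZeroInertia
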