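import Fermat.Agent.JZeroInertia.ExactShape
import Fermat.Agent.JZeroInertia.CuspCount
import Fermat.Agent.JZeroInertia.Frobenius

/-!
# The exact count of the classes fixed by inertia at every order prime to `6 p`

They are the toric ones plus the multiples of the cuspidal class, `M ^ g · gcd (M, n)` in number.
-/

set_option autoImplicit false
set_option linter.style.haveILetI false
set_option linter.unusedSectionVars false
set_option synthInstance.maxHeartbeats 400000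
set_option maxHeartbeats 1600000

noncomputable section

open ModularCurve FA.Mazur FA.JTorsion FA.ModField CongruenceSubgroup

local notation "Qb" => AlgebraicClosure ℚ
local notation "GQ" => AlgebraicClosure ℚ ≃ₐ[ℚ] AlgebraicClosure ℚ

namespace FA.JZeroInertia

variable {p : ℕ} [hp : Fact p.Prime] [NeZero p] {A : ValuationSubring Qb}

theorem five_le_prime {l M : ℕ} (hl : l.Prime) (hlM : l ∣ M) (hM : M.Coprime (6 * p)) :
    5 ≤ l ∧ l ≠ p := by
  have hnd : ¬ l ∣ 6 * p := fun h => hl.one_lt.ne' (Nat.eq_one_of_dvd_coprimes hM hlM h)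
  refine ⟨?_, fun h => hnd (by rw [h]; exact dvd_mul_left p _)⟩
  have h6 : ¬ l ∣ 6 := fun h => hnd (h.trans (dvd_mul_right 6 p))
  by_contra h
  have h2 := hl.two_le
  interval_cases l <;> revert h6 hl <;> decide

theorem upJ_galois (r : ℕ) [NeZero r] (σ : GQ) (y : JZero p) :
    upJ p r (σ • y) = σ • upJ p r y := by
  obtain ⟨alg⟩ := exists_algebra_qbar
  letI := alg
  exact heckeLvl_galois_smul p r σ y

/-- What is proved at the order `M` for the class `c`. -/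
def CuspToric (p M : ℕ) [Fact p.Prime] [NeZero p] (c : JZero p) (A : ValuationSubring Qb)
    (T : AddSubgroup (JZero p)) : Prop :=
  T ≤ fixI p M A ∧
  (∀ τ ∈ A.inertiaSubgroupIn ℚ, ∀ y : JZero p, M • y = 0 → τ • y - y ∈ T) ∧
  Nat.card T = M ^ Module.finrank ℂ (CuspForm (Gamma0 p) 2) ∧
  (∀ t : ℕ, t • c ∈ T → t • c = 0) ∧
  (∀ x ∈ fixI p M A, ∃ t : ℕ, x - t • c ∈ T) ∧
  (∀ x ∈ fixI p M A, upJ p p x - x ∈ T) ∧
  ∀ x ∈ fixI p M A, ∀ (r : ℕ) [NeZero r], r.Prime → r ≠ p → upJ p r x - (r + 1) • x ∈ T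

variable {c : JZero p}

theorem cusp_inter {l k n : ℕ} (hl : l.Prime) (hord : addOrderOf c = n)
    (T : AddSubgroup (JZero p)) (hT : ∀ x ∈ T, l ^ k • x = 0)
    (hc : l ∣ n → 0 < k → (n / l) • c ∉ T) {t : ℕ} (ht : t • c ∈ T) : t • c = 0 := by
  by_contra hne
  obtain ⟨a, hak, ha⟩ := (Nat.dvd_prime_pow hl).1
    (addOrderOf_dvd_of_nsmul_eq_zero (hT _ ht) : addOrderOf (t • c) ∣ l ^ k)
  have ha0 : a ≠ 0 := fun h0 => hne (by
    rw [h0, pow_zero, AddMonoid.addOrderOf_eq_one_iff] at ha; exact ha)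
  obtain ⟨b, rfl⟩ := Nat.exists_eq_succ_of_ne_zero ha0
  set y := l ^ b • (t • c) with hy
  have hly : l • y = 0 := by
    rw [hy, ← mul_nsmul, ← pow_succ, ← ha, addOrderOf_nsmul_eq_zero]
  have hy0 : y ≠ 0 := fun h => by
    have h1 := addOrderOf_dvd_of_nsmul_eq_zero h
    rw [ha] at h1
    exact absurd (Nat.le_of_dvd (pow_pos hl.pos b) h1) (not_le.2
      (Nat.pow_lt_pow_succ hl.one_lt))
  have hln : l ∣ n := by
    have h1 : addOrderOf (t • c) ∣ n := hord ▸ addOrderOf_dvd_of_nsmul_eq_zero (by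
      rw [smul_comm, addOrderOf_nsmul_eq_zero, nsmul_zero])
    rw [ha] at h1
    exact (dvd_pow_self l ha0).trans h1
  obtain ⟨u, hu⟩ : ∃ u : ℕ, y = u • c := ⟨t * l ^ b, by rw [hy, ← mul_nsmul]⟩
  obtain ⟨j, hj⟩ : n / l ∣ u := by
    have h1 : n ∣ u * l := by
      rw [← hord]
      exact addOrderOf_dvd_of_nsmul_eq_zero (by rw [mul_nsmul, ← hu, hly])
    exact Nat.dvd_of_mul_dvd_mul_right hl.pos (by rwa [Nat.div_mul_cancel hln])
  have hlj : ¬ l ∣ j := fun ⟨d, hd⟩ => hy0 (by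
    rw [hu, hj, hd, ← mul_assoc, Nat.div_mul_cancel hln, mul_nsmul, ← hord,
      addOrderOf_nsmul_eq_zero, nsmul_zero])
  obtain ⟨e, -, he⟩ := Nat.exists_mul_mod_eq_one_of_coprime
    ((hl.coprime_iff_not_dvd.2 hlj).symm) hl.one_lt
  have hnl : l • ((n / l) • c) = 0 := by
    rw [← mul_nsmul, Nat.div_mul_cancel hln, ← hord, addOrderOf_nsmul_eq_zero]
  refine hc hln (by omega) ?_
  rw [show (n / l) • c = e • y by
    rw [hu, hj, ← mul_nsmul, mul_assoc, mul_nsmul, nsmul_congr hnl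
      (show j * e ≡ 1 [MOD l] by rw [Nat.ModEq, he, Nat.one_mod_eq_one.2 hl.ne_one]), one_nsmul]]
  exact AddSubgroup.nsmul_mem _ (AddSubgroup.nsmul_mem _ ht _) _

theorem cuspToric_prime_pow [Algebra Qb ℂ] {l : ℕ} [hl : Fact l.Prime] (h5 : 5 ≤ l) (hlp : l ≠ p)
    (hA : A.LiesOverPrime p) (k : ℕ) [NeZero (l ^ k)]
    (hord : addOrderOf c = eisensteinNumerator p) (hrat : ∀ σ : GQ, σ • c = c)
    {T₀ : AddSubgroup (ModN p (∅ : Set ℕ) (l ^ k))} (hT : IsFullToric p l k A T₀)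
    (hc : l ∣ eisensteinNumerator p → 0 < k →
      ∀ z, toTors p (∅ : Set ℕ) (l ^ k) z = (eisensteinNumerator p / l) • c → z ∉ T₀) :
    CuspToric p (l ^ k) c A (T₀.map (toTors p (∅ : Set ℕ) (l ^ k))) ∧
      Nat.card (fixI p (l ^ k) A) = (l ^ k) ^ Module.finrank ℂ (CuspForm (Gamma0 p) 2) *
        Nat.gcd (l ^ k) (eisensteinNumerator p) := by
  classical
  set n := eisensteinNumerator p
  set Φ := toTors p (∅ : Set ℕ) (l ^ k)
  set T := T₀.map Φ
  set g := Module.finrank ℂ (CuspForm (Gamma0 p) 2)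
  have hΦ : Function.Injective Φ := toTors_injective p (∅ : Set ℕ) (l ^ k)
  haveI := finite_fixI (p := p) (A := A) (l ^ k)
  obtain ⟨hT1, hT2, hTcard, hTT, hTd⟩ := hT
  have hTfull : IsFullToric p l k A T₀ := ⟨hT1, hT2, hTcard, hTT, hTd⟩
  have hfix : ∀ z, (∀ τ ∈ A.inertiaSubgroupIn ℚ, galMod p (∅ : Set ℕ) (l ^ k) τ z = z) ↔
      Φ z ∈ fixI p (l ^ k) A := fun z => by
    rw [mem_fixI]
    refine ⟨fun h => ⟨nsmul_toTors p (∅ : Set ℕ) (l ^ k) z, fun τ hτ => by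
      rw [← toTors_galMod, h τ hτ]⟩, fun h τ hτ => hΦ (by rw [toTors_galMod, h.2 τ hτ])⟩
  have hsurj : ∀ x ∈ fixI p (l ^ k) A, ∃ z, Φ z = x ∧
      ∀ τ ∈ A.inertiaSubgroupIn ℚ, galMod p (∅ : Set ℕ) (l ^ k) τ z = z := fun x hx => by
    obtain ⟨z, hz⟩ := FA.EisReducible.exists_toTors_eq_of_nsmul p (l ^ k) x (mem_fixI.1 hx).1
    exact ⟨z, hz, (hfix z).2 (hz ▸ hx)⟩
  have hTF : T ≤ fixI p (l ^ k) A := by
    rintro _ ⟨z, hz, rfl⟩
    exact (hfix z).1 fun τ hτ => hT1 z hz τ hτ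
  have hTcard' : Nat.card T = (l ^ k) ^ g := by
    rw [← hTcard]
    exact (Nat.card_congr (AddSubgroup.equivMapOfInjective _ Φ hΦ).toEquiv).symm
  have hdisj : ∀ t : ℕ, t • c ∈ T → t • c = 0 := fun t ht =>
    cusp_inter hl.out hord T (fun x hx => (mem_fixI.1 (hTF hx)).1) (fun hln hk hmem => by
      obtain ⟨z, hz, hzc⟩ := hmem
      exact hc hln hk z hzc hz) ht
  -- the upper bound
  set d := Nat.gcd (l ^ k) n
  have hd0 : 0 < d := Nat.gcd_pos_of_pos_left _ (NeZero.pos _)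
  let G : AddSubgroup (ModN p (∅ : Set ℕ) (l ^ k)) := (fixI p (l ^ k) A).comap Φ
  have hdG : ∀ z ∈ G, d • z ∈ T₀ := fun z hz => by
    have h1 := numerator_mem h5 hlp hTfull (w := z) ((hfix z).2 hz)
    have h2 : (l ^ k) • z = 0 := modN_nsmul p (l ^ k) z
    rw [← natCast_zsmul, Nat.gcd_eq_gcd_ab, add_zsmul, mul_comm, mul_zsmul, mul_comm ((n : ℕ) : ℤ),
      mul_zsmul, natCast_zsmul, natCast_zsmul, h2, zsmul_zero, zero_add]
    exact AddSubgroup.zsmul_mem _ h1 _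
  have hGcard : Nat.card G = Nat.card (fixI p (l ^ k) A) := by
    let f : G → fixI p (l ^ k) A := fun z => ⟨Φ z.1, z.2⟩
    refine Nat.card_congr (Equiv.ofBijective f ⟨fun a b h => Subtype.ext
      (hΦ (congrArg Subtype.val h)), fun x => ?_⟩)
    obtain ⟨z, hz, -⟩ := hsurj x.1 x.2
    exact ⟨⟨z, show Φ z ∈ fixI p (l ^ k) A from hz ▸ x.2⟩, Subtype.ext hz⟩
  have hup : Nat.card (fixI p (l ^ k) A) ≤ (l ^ k) ^ g * d := by
    rw [← hGcard, mul_comm, ← hTcard]
    exact hTd d hd0 G (fun z hz => (hfix z).2 hz) hdG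
  have hcard : Nat.card (fixI p (l ^ k) A) = (l ^ k) ^ g * d :=
    le_antisymm hup (le_card_fixI h5 hlp hA k)
  refine ⟨⟨hTF, fun τ hτ y hy => ?_, hTcard', hdisj, fun x hx => ?_, fun x hx => ?_,
    fun x hx r _ hr hrp => ?_⟩, hcard⟩
  · obtain ⟨z, rfl⟩ := FA.EisReducible.exists_toTors_eq_of_nsmul p (l ^ k) y hy
    exact ⟨_, hT2 τ hτ z, by rw [map_sub, toTors_galMod]⟩
  · -- the fixed classes are the sum
    have hn0 : n ≠ 0 := fun h => not_dvd_numerator (p := p) (by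
      show p ∣ n
      rw [h]; exact dvd_zero p)
    have hdn : d ∣ n := Nat.gcd_dvd_right _ _
    set w := (n / d) • c with hw
    have hword : addOrderOf w = d := by
      rw [hw, addOrderOf_nsmul' c (fun h => by
        have := Nat.div_mul_cancel hdn
        rw [h, zero_mul] at this
        exact hn0 this.symm), hord, Nat.gcd_eq_right (Nat.div_dvd_of_dvd hdn),
        Nat.div_div_self hdn hn0]
    have hwF : w ∈ fixI p (l ^ k) A := mem_fixI.2 ⟨addOrderOf_dvd_iff_nsmul_eq_zero.1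
      (hword ▸ Nat.gcd_dvd_left _ _), fun τ _ => by rw [hw, smul_nsmul_comm, hrat]⟩
    haveI : Finite (AddSubgroup.zmultiples w) := Nat.finite_of_card_ne_zero (by
      rw [Nat.card_zmultiples, hword]; exact hd0.ne')
    haveI : Finite T := Finite.of_injective _ (AddSubgroup.inclusion_injective hTF)
    let f : AddSubgroup.zmultiples w × T → fixI p (l ^ k) A := fun u =>
      ⟨u.1.1 + u.2.1, add_mem ((AddSubgroup.zmultiples_le.2 hwF) u.1.2) (hTF u.2.2)⟩
    have hmem : ∀ u : AddSubgroup.zmultiples w, ∃ t : ℕ, u.1 = t • c := fun u => by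
      obtain ⟨i, hi⟩ := (AddSubmonoid.mem_multiples_iff _ _).1
        ((IsOfFinAddOrder.mem_multiples_iff_mem_zmultiples (addOrderOf_pos_iff.1
          (hword ▸ hd0))).2 u.2)
      exact ⟨n / d * i, by rw [← hi, hw, ← mul_nsmul]⟩
    have hf : Function.Injective f := fun u v h => by
      have h1 : u.1.1 + u.2.1 = v.1.1 + v.2.1 := congrArg Subtype.val h
      have h2 : u.1.1 - v.1.1 = v.2.1 - u.2.1 := by rw [sub_eq_sub_iff_add_eq_add, h1, add_comm]
      obtain ⟨t, ht⟩ := hmem (u.1 - v.1)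
      rw [AddSubgroupClass.coe_sub] at ht
      have h3 := hdisj t (by rw [← ht, h2]; exact sub_mem v.2.2 u.2.2)
      rw [← ht, sub_eq_zero] at h3
      exact Prod.ext (Subtype.ext h3) (Subtype.ext (add_left_cancel (h3 ▸ h1)))
    have hb : Function.Bijective f := (Nat.bijective_iff_injective_and_card f).2
      ⟨hf, by rw [Nat.card_prod, Nat.card_zmultiples, hword, hTcard', hcard, mul_comm]⟩
    obtain ⟨u, hu⟩ := hb.2 ⟨x, hx⟩
    obtain ⟨t, ht⟩ := hmem u.1
    refine ⟨t, ?_⟩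
    rw [← show u.1.1 + u.2.1 = x from congrArg Subtype.val hu, ← ht, add_sub_cancel_left]
    exact u.2.2
  · obtain ⟨z, rfl, hz⟩ := hsurj x hx
    refine ⟨_, level_sub_mem h5 hlp hTfull hz, ?_⟩
    have hU : CuspForm.heckeAlgebra.U (k := 2) hp.out dvd_rfl (Set.notMem_empty _) =
        FA.Mazur.tGen p ⟨p, hp.out⟩ :=
      (CuspForm.heckeEvalForms_heckeGen_of_dvd (q := ⟨p, hp.out⟩) dvd_rfl).symm
    rw [map_sub, ← hU, toTors_U_smul p (l ^ k) hp.out dvd_rfl (Set.notMem_empty _)]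
    rfl
  · obtain ⟨z, rfl, hz⟩ := hsurj x hx
    have hrN : ¬ r ∣ p := fun h => hrp ((Nat.prime_dvd_prime_iff_eq hr hp.out).1 h)
    refine ⟨_, hTT z hz r hr hrN, ?_⟩
    rw [map_sub, map_nsmul, toTors_T_smul p (l ^ k) hr hrN (Set.notMem_empty _)]
    rfl

/-- **The exact count.** -/
theorem card_fixI_eq (hA : A.LiesOverPrime p) (M : ℕ) :
    M.Coprime (6 * p) → Nat.card (fixI p M A) =
      M ^ Module.finrank ℂ (CuspForm (Gamma0 p) 2) * Nat.gcd M (eisensteinNumerator p) := by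
  induction M using Nat.recOnPosPrimePosCoprime with
  | prime_pow l k hl hk =>
    intro hco
    haveI : Fact l.Prime := ⟨hl⟩
    obtain ⟨h5, hlp⟩ := five_le_prime hl (dvd_pow_self l hk.ne') hco
    haveI : NeZero (l ^ k) := ⟨pow_ne_zero _ hl.ne_zero⟩
    obtain ⟨alg⟩ := exists_algebra_qbar
    letI := alg
    by_cases hn : l ∣ eisensteinNumerator p
    · obtain ⟨c, hord, hrat, hT⟩ :=
        exists_fullToric_mul (five_le_of_dvd h5 hn) p (one_mul p).symm hA
      obtain ⟨T, hT1, hT2⟩ := hT l h5 hl hlp k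
      exact (cuspToric_prime_pow h5 hlp hA k hord hrat hT1 hT2).2
    · have hco' : (l ^ k).Coprime (eisensteinNumerator p) :=
        Nat.Coprime.pow_left _ (hl.coprime_iff_not_dvd.2 hn)
      rw [hco'.gcd_eq_one, mul_one, ← card_fixI]
      refine FA.ToricJZero.Summary.fixed_card ?_ hA
      rw [mul_comm 6, mul_assoc]
      exact Nat.Coprime.mul_right hco' hco
  | zero =>
    intro hco
    rw [Nat.coprime_zero_left] at hco
    omega
  | one =>
    intro _
    have h : Nat.card (fixI p 1 A) = 1 := by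
      rw [show fixI p 1 A = ⊥ from (eq_bot_iff).2 fun x hx => by
        simpa [AddSubgroup.mem_bot] using (mem_fixI.1 hx).1, AddSubgroup.card_bot]
    simp [h]
  | coprime a b _ _ hab iha ihb =>
    intro hco
    rw [card_fixI_mul hab, iha (Nat.Coprime.coprime_mul_right hco),
      ihb (Nat.Coprime.coprime_mul_left hco), mul_pow, Nat.gcd_comm (a * b),
      Nat.Coprime.gcd_mul _ hab, Nat.gcd_comm _ a, Nat.gcd_comm _ b, mul_mul_mul_comm]

/-- **Toric and cuspidal classes at every order prime to `6 p`.** -/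
theorem exists_cuspToric (hp5 : 5 ≤ p) (hA : A.LiesOverPrime p) :
    ∃ c : JZero p, addOrderOf c = eisensteinNumerator p ∧ (∀ σ : GQ, σ • c = c) ∧
      ∀ M : ℕ, M.Coprime (6 * p) → ∃ T, CuspToric p M c A T := by
  obtain ⟨alg⟩ := exists_algebra_qbar
  letI := alg
  obtain ⟨c, hord, hrat, hT⟩ := exists_fullToric_mul hp5 p (one_mul p).symm hA
  refine ⟨c, hord, hrat, fun M => ?_⟩
  induction M using Nat.recOnPosPrimePosCoprime with
  | prime_pow l k hl hk =>
    intro hco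
    haveI : Fact l.Prime := ⟨hl⟩
    obtain ⟨h5, hlp⟩ := five_le_prime hl (dvd_pow_self l hk.ne') hco
    haveI : NeZero (l ^ k) := ⟨pow_ne_zero _ hl.ne_zero⟩
    obtain ⟨T, hT1, hT2⟩ := hT l h5 hl hlp k
    exact ⟨_, (cuspToric_prime_pow h5 hlp hA k hord hrat hT1 hT2).1⟩
  | zero =>
    intro hco
    rw [Nat.coprime_zero_left] at hco
    omega
  | one =>
    intro _
    refine ⟨⊥, bot_le, fun τ _ y hy => ?_, by simp, fun t ht => ht, fun x hx => ⟨0, ?_⟩,
      fun x hx => ?_, fun x hx r _ _ _ => ?_⟩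
    · rw [one_nsmul] at hy
      rw [hy, smul_zero_jzero, sub_zero]
      exact zero_mem _
    all_goals
      have h0 : x = 0 := (one_nsmul x).symm.trans (mem_fixI.1 hx).1
      simp [h0]
  | coprime a b _ _ hab iha ihb =>
    intro hco
    obtain ⟨Ta, hTaF, hTad, hTac, hTa0, hTax, hTaU, hTar⟩ :=
      iha (Nat.Coprime.coprime_mul_right hco)
    obtain ⟨Tb, hTbF, hTbd, hTbc, hTb0, hTbx, hTbU, hTbr⟩ :=
      ihb (Nat.Coprime.coprime_mul_left hco)
    obtain ⟨e, hea, heb⟩ := Nat.chineseRemainder hab 1 0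
    obtain ⟨f, hfa, hfb⟩ := Nat.chineseRemainder hab 0 1
    have hef : e + f ≡ 1 [MOD a * b] :=
      (Nat.modEq_and_modEq_iff_modEq_mul hab).1
        ⟨by simpa using hea.add hfa, by simpa using heb.add hfb⟩
    have hka : ∀ x : JZero p, (a * b) • x = 0 → a • (e • x) = 0 := fun x hx => by
      obtain ⟨d, rfl⟩ := Nat.modEq_zero_iff_dvd.1 heb
      rw [← mul_nsmul', ← mul_assoc, mul_nsmul, hx, nsmul_zero]
    have hkb : ∀ x : JZero p, (a * b) • x = 0 → b • (f • x) = 0 := fun x hx => by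
      obtain ⟨d, rfl⟩ := Nat.modEq_zero_iff_dvd.1 hfa
      rw [← mul_nsmul', ← mul_assoc, mul_comm b a, mul_nsmul, hx, nsmul_zero]
    have hFa : ∀ x ∈ fixI p (a * b) A, e • x ∈ fixI p a A := fun x hx =>
      mem_fixI.2 ⟨hka _ (mem_fixI.1 hx).1, fun τ hτ => by
        rw [smul_nsmul_comm, (mem_fixI.1 hx).2 τ hτ]⟩
    have hFb : ∀ x ∈ fixI p (a * b) A, f • x ∈ fixI p b A := fun x hx =>
      mem_fixI.2 ⟨hkb _ (mem_fixI.1 hx).1, fun τ hτ => by
        rw [smul_nsmul_comm, (mem_fixI.1 hx).2 τ hτ]⟩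
    have hsplit : ∀ x : JZero p, (a * b) • x = 0 → e • x + f • x = x := fun x hx => by
      rw [← add_nsmul, nsmul_congr hx hef, one_nsmul]
    have hup : ∀ u ∈ Ta, ∀ v ∈ Tb, u + v ∈ fixI p (a * b) A ∧ e • (u + v) = u ∧ f • (u + v) = v := by
      intro u hu v hv
      obtain ⟨hu0, huI⟩ := mem_fixI.1 (hTaF hu)
      obtain ⟨hv0, hvI⟩ := mem_fixI.1 (hTbF hv)
      refine ⟨mem_fixI.2 ⟨?_, fun τ hτ => by rw [smul_add, huI τ hτ, hvI τ hτ]⟩, ?_, ?_⟩
      · rw [nsmul_add, mul_nsmul u a b, hu0, nsmul_zero, mul_nsmul' v a b, hv0, nsmul_zero,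
          add_zero]
      · rw [nsmul_add, nsmul_congr hu0 hea, nsmul_congr hv0 heb, one_nsmul, zero_nsmul, add_zero]
      · rw [nsmul_add, nsmul_congr hu0 hfa, nsmul_congr hv0 hfb, one_nsmul, zero_nsmul, zero_add]
    let T : AddSubgroup (JZero p) := fixI p (a * b) A ⊓
      Ta.comap (nsmulAddMonoidHom (α := JZero p) e) ⊓ Tb.comap (nsmulAddMonoidHom (α := JZero p) f)
    have hmem : ∀ x, x ∈ T ↔ x ∈ fixI p (a * b) A ∧ e • x ∈ Ta ∧ f • x ∈ Tb := fun x =>
      ⟨fun h => ⟨h.1.1, h.1.2, h.2⟩, fun h => ⟨⟨h.1, h.2.1⟩, h.2.2⟩⟩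
    refine ⟨T, fun x hx => ((hmem x).1 hx).1, fun τ hτ y hy => (hmem _).2 ⟨?_, ?_, ?_⟩, ?_,
      fun t ht => ?_, fun x hx => ?_, fun x hx => (hmem _).2 ⟨?_, ?_, ?_⟩,
      fun x hx r _ hr hrp => (hmem _).2 ⟨?_, ?_, ?_⟩⟩
    · have h1 := hup _ (hTad τ hτ _ (hka y hy)) _ (hTbd τ hτ _ (hkb y hy))
      rw [← add_sub_add_comm, ← show τ • (e • y + f • y) = τ • e • y + τ • f • y from
        smul_add _ _ _, hsplit y hy] at h1
      exact h1.1
    · rw [nsmul_sub, ← smul_nsmul_comm]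
      exact hTad τ hτ _ (hka y hy)
    · rw [nsmul_sub, ← smul_nsmul_comm]
      exact hTbd τ hτ _ (hkb y hy)
    · rw [mul_pow, ← hTac, ← hTbc, ← Nat.card_prod]
      exact Nat.card_congr
        { toFun := fun x => (⟨e • x.1, ((hmem _).1 x.2).2.1⟩, ⟨f • x.1, ((hmem _).1 x.2).2.2⟩)
          invFun := fun u => ⟨u.1.1 + u.2.1, by
            obtain ⟨h1, h2, h3⟩ := hup _ u.1.2 _ u.2.2
            exact (hmem _).2 ⟨h1, h2.symm ▸ u.1.2, h3.symm ▸ u.2.2⟩⟩
          left_inv := fun x => Subtype.ext (hsplit _ (mem_fixI.1 ((hmem _).1 x.2).1).1)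
          right_inv := fun u => by
            obtain ⟨-, h2, h3⟩ := hup _ u.1.2 _ u.2.2
            exact Prod.ext (Subtype.ext h2) (Subtype.ext h3) }
    · obtain ⟨h1, h2, h3⟩ := (hmem _).1 ht
      rw [← mul_nsmul'] at h2 h3
      have e1 := hTa0 _ h2
      have e2 := hTb0 _ h3
      rw [← hsplit _ (mem_fixI.1 h1).1, ← mul_nsmul', ← mul_nsmul', e1, e2, add_zero]
    · obtain ⟨i, hi⟩ := hTax _ (hFa x hx)
      obtain ⟨j, hj⟩ := hTbx _ (hFb x hx)
      obtain ⟨h1, h2, h3⟩ := hup _ hi _ hj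
      rw [← add_sub_add_comm, hsplit x (mem_fixI.1 hx).1, ← add_nsmul] at h1 h2 h3
      exact ⟨i + j, (hmem _).2 ⟨h1, h2.symm ▸ hi, h3.symm ▸ hj⟩⟩
    · refine sub_mem (mem_fixI.2 ⟨?_, fun τ hτ => ?_⟩) hx
      · rw [← map_nsmul, (mem_fixI.1 hx).1, map_zero]
      · rw [← upJ_galois, (mem_fixI.1 hx).2 τ hτ]
    · rw [nsmul_sub, ← map_nsmul]
      exact hTaU _ (hFa x hx)
    · rw [nsmul_sub, ← map_nsmul]
      exact hTbU _ (hFb x hx)
    · refine sub_mem (mem_fixI.2 ⟨?_, fun τ hτ => ?_⟩) (AddSubgroup.nsmul_mem _ hx _)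
      · rw [← map_nsmul, (mem_fixI.1 hx).1, map_zero]
      · rw [← upJ_galois, (mem_fixI.1 hx).2 τ hτ]
    · rw [nsmul_sub, ← map_nsmul, smul_comm e (r + 1) x]
      exact hTar _ (hFa x hx) r hr hrp
    · rw [nsmul_sub, ← map_nsmul, smul_comm f (r + 1) x]
      exact hTbr _ (hFb x hx) r hr hrp

/-- **One generator of the image of inertia.** -/
theorem exists_inertia_gen (hA : A.LiesOverPrime p) (M : ℕ) :
    M.Coprime (6 * p) → ∃ s ∈ A.inertiaSubgroupIn ℚ, ∀ τ ∈ A.inertiaSubgroupIn ℚ,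
      ∃ i : ℕ, ∀ y : JZero p, M • y = 0 → τ • y = s ^ i • y := by
  obtain ⟨alg⟩ := exists_algebra_qbar
  letI := alg
  induction M using Nat.recOnPosPrimePosCoprime with
  | prime_pow l k hl hk =>
    intro hco
    haveI : Fact l.Prime := ⟨hl⟩
    obtain ⟨-, hlp⟩ := five_le_prime hl (dvd_pow_self l hk.ne') hco
    obtain ⟨s, hsI, hgen⟩ := FA.RT.exists_tame_gen hl hp.out hlp hA
    exact ⟨s, hsI, fun τ hτ => prime_power_cyclic hlp k hA ⟨hsI, hgen⟩ hτ⟩
  | zero =>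
    intro hco
    rw [Nat.coprime_zero_left] at hco
    omega
  | one =>
    intro _
    refine ⟨1, one_mem _, fun τ _ => ⟨0, fun y hy => ?_⟩⟩
    rw [one_nsmul] at hy
    rw [hy, smul_zero_jzero, smul_zero_jzero]
  | coprime a b _ _ hab iha ihb =>
    intro hco
    have hpab : ¬ p ∣ a * b := hp.out.coprime_iff_not_dvd.1
      ((Nat.Coprime.coprime_dvd_right (dvd_mul_left p 6) hco).symm)
    have ha : ¬ p ∣ a := fun h => hpab (h.trans (dvd_mul_right a b))
    have hb : ¬ p ∣ b := fun h => hpab (h.trans (dvd_mul_left b a))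
    obtain ⟨sa, hsa, Ha⟩ := iha (Nat.Coprime.coprime_mul_right hco)
    obtain ⟨sb, hsb, Hb⟩ := ihb (Nat.Coprime.coprime_mul_left hco)
    obtain ⟨e, hea, heb⟩ := Nat.chineseRemainder hab 1 0
    obtain ⟨f, hfa, hfb⟩ := Nat.chineseRemainder hab 0 1
    have hef : e + f ≡ 1 [MOD a * b] :=
      (Nat.modEq_and_modEq_iff_modEq_mul hab).1
        ⟨by simpa using hea.add hfa, by simpa using heb.add hfb⟩
    set s := sa ^ e * sb ^ f with hsdef
    have hs : s ∈ A.inertiaSubgroupIn ℚ := mul_mem (pow_mem hsa e) (pow_mem hsb f)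
    have ea : ∀ y : JZero p, a • y = 0 → s • y = sa • y := fun y hy => by
      rw [hsdef, mul_smul, inertia_pow_eq_self hA ha hsb hy (Nat.modEq_zero_iff_dvd.1 hfa),
        inertia_pow_eq_smul hA ha hsa hy hea]
    have eb : ∀ y : JZero p, b • y = 0 → s • y = sb • y := fun y hy => by
      rw [hsdef, mul_smul, inertia_pow_eq_smul hA hb hsb hy hfb,
        inertia_pow_eq_self hA hb hsa (nsmul_smul_eq_zero hy sb) (Nat.modEq_zero_iff_dvd.1 heb)]
    refine ⟨s, hs, fun τ hτ => ?_⟩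
    obtain ⟨ia, hia⟩ := Ha τ hτ
    obtain ⟨ib, hib⟩ := Hb τ hτ
    obtain ⟨i, hiA, hiB⟩ := Nat.chineseRemainder hab ia ib
    refine ⟨i, fun y hy => ?_⟩
    have e1 : ∀ u : JZero p, a • u = 0 → τ • u = s ^ i • u := fun u hu => by
      rw [hia u hu, inertia_pow hA ha hsa hu, inertia_pow hA ha hs hu, ea u hu,
        nsmul_congr (show a • (sa • u - u) = 0 by
          rw [nsmul_sub, nsmul_smul_eq_zero hu, hu, sub_zero]) hiA]
    have e2 : ∀ u : JZero p, b • u = 0 → τ • u = s ^ i • u := fun u hu => by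
      rw [hib u hu, inertia_pow hA hb hsb hu, inertia_pow hA hb hs hu, eb u hu,
        nsmul_congr (show b • (sb • u - u) = 0 by
          rw [nsmul_sub, nsmul_smul_eq_zero hu, hu, sub_zero]) hiB]
    have hka : a • (e • y) = 0 := by
      obtain ⟨d, rfl⟩ := Nat.modEq_zero_iff_dvd.1 heb
      rw [← mul_nsmul', ← mul_assoc, mul_nsmul, hy, nsmul_zero]
    have hkb : b • (f • y) = 0 := by
      obtain ⟨d, rfl⟩ := Nat.modEq_zero_iff_dvd.1 hfa
      rw [← mul_nsmul', ← mul_assoc, mul_comm b a, mul_nsmul, hy, nsmul_zero]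
    rw [show y = e • y + f • y by rw [← add_nsmul, nsmul_congr hy hef, one_nsmul], smul_add,
      smul_add, e1 _ hka, e2 _ hkb]

end FA.JZeroInertia
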