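import Fermat.Agent.JZeroInertia.ExactCount

/-!
# The structure of inertia on the torsion prime to `6 p`, the divisors of `n` allowed

The toric classes form a free module of rank `g` over `ℤ / M`; the exact order of the image of
inertia; and the fixed classes modulo the displaced ones are Eisenstein.
-/

set_option autoImplicit false
set_option linter.style.haveILetI false
set_option linter.unusedSectionVars false
set_option synthInstance.maxHeartbeats 400000
set_option maxHeartbeats 1600000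

noncomputable section

open ModularCurve FA.Mazur FA.JTorsion FA.ModField CongruenceSubgroup

local notation "Qb" => AlgebraicClosure ℚ
local notation "GQ" => AlgebraicClosure ℚ ≃ₐ[ℚ] AlgebraicClosure ℚ

namespace FA.JZeroInertia

variable {p : ℕ} [hp : Fact p.Prime] [NeZero p] {A : ValuationSubring Qb} {c : JZero p}

theorem ne_zero_of_coprime_six_mul {M : ℕ} (hM : M.Coprime (6 * p)) : M ≠ 0 := fun h0 => by
  rw [h0, Nat.coprime_zero_left] at hM
  omega

theorem not_dvd_of_coprime_six_mul {M : ℕ} (hM : M.Coprime (6 * p)) : ¬ p ∣ M :=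
  hp.out.coprime_iff_not_dvd.1 (Nat.Coprime.coprime_dvd_right (dvd_mul_left p 6) hM).symm

theorem numerator_ne_zero : eisensteinNumerator p ≠ 0 := fun h =>
  not_dvd_numerator (p := p) (by rw [h]; exact dvd_zero p)

/-- **The toric classes form a free module.** -/
theorem card_toric_tors (hA : A.LiesOverPrime p) {M : ℕ} (hM : M.Coprime (6 * p))
    (hord : addOrderOf c = eisensteinNumerator p) (hrat : ∀ σ : GQ, σ • c = c)
    {T : AddSubgroup (JZero p)} (hT : CuspToric p M c A T) {e : ℕ} (he : e ∣ M) :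
    Nat.card (T ⊓ torsSub p e : AddSubgroup (JZero p)) =
      e ^ Module.finrank ℂ (CuspForm (Gamma0 p) 2) := by
  obtain ⟨hTF, -, hTcard, hT0, -⟩ := hT
  set g := Module.finrank ℂ (CuspForm (Gamma0 p) 2)
  have hM0 : M ≠ 0 := ne_zero_of_coprime_six_mul hM
  have hle : ∀ e : ℕ, e ∣ M → Nat.card (T ⊓ torsSub p e : AddSubgroup (JZero p)) ≤ e ^ g := by
    intro e he
    have he0 : e ≠ 0 := fun h0 => hM0 (zero_dvd_iff.1 (h0 ▸ he))
    haveI : NeZero e := ⟨he0⟩
    haveI := finite_fixI (p := p) (A := A) e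
    have heco : e.Coprime (6 * p) := hM.coprime_dvd_left he
    set n := eisensteinNumerator p
    set d := Nat.gcd e n
    have hd0 : 0 < d := Nat.gcd_pos_of_pos_left _ (Nat.pos_of_ne_zero he0)
    have hdn : d ∣ n := Nat.gcd_dvd_right _ _
    set w := (n / d) • c with hw
    have hword : addOrderOf w = d := by
      rw [hw, addOrderOf_nsmul' c (fun h => by
        have := Nat.div_mul_cancel hdn
        rw [h, zero_mul] at this
        exact numerator_ne_zero (p := p) this.symm), hord,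
        Nat.gcd_eq_right (Nat.div_dvd_of_dvd hdn), Nat.div_div_self hdn numerator_ne_zero]
    have hwF : w ∈ fixI p e A := mem_fixI.2 ⟨addOrderOf_dvd_iff_nsmul_eq_zero.1
      (hword ▸ Nat.gcd_dvd_left _ _), fun τ _ => by rw [hw, smul_nsmul_comm, hrat]⟩
    have hS : ∀ x ∈ T ⊓ torsSub p e, x ∈ fixI p e A := fun x hx =>
      mem_fixI.2 ⟨hx.2, (mem_fixI.1 (hTF hx.1)).2⟩
    haveI : Finite (AddSubgroup.zmultiples w) := Nat.finite_of_card_ne_zero (by
      rw [Nat.card_zmultiples, hword]; exact hd0.ne')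
    let f : AddSubgroup.zmultiples w × (T ⊓ torsSub p e : AddSubgroup (JZero p)) → fixI p e A :=
      fun u => ⟨u.1.1 + u.2.1, add_mem ((AddSubgroup.zmultiples_le.2 hwF) u.1.2) (hS _ u.2.2)⟩
    have hf : Function.Injective f := fun u v h => by
      have h1 : u.1.1 + u.2.1 = v.1.1 + v.2.1 := congrArg Subtype.val h
      have h2 : u.1.1 - v.1.1 = v.2.1 - u.2.1 := by rw [sub_eq_sub_iff_add_eq_add, h1, add_comm]
      obtain ⟨i, hi⟩ : ∃ i : ℕ, i • w = u.1.1 - v.1.1 :=
        (AddSubmonoid.mem_multiples_iff _ _).1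
          ((IsOfFinAddOrder.mem_multiples_iff_mem_zmultiples (addOrderOf_pos_iff.1
            (hword ▸ hd0))).2 (sub_mem u.1.2 v.1.2))
      have h3 : u.1.1 - v.1.1 = 0 := by
        rw [← hi, hw, ← mul_nsmul]
        refine hT0 _ ?_
        rw [mul_nsmul, ← hw, hi, h2]
        exact sub_mem v.2.2.1 u.2.2.1
      rw [sub_eq_zero] at h3
      exact Prod.ext (Subtype.ext h3) (Subtype.ext (add_left_cancel (h3 ▸ h1)))
    have h := Nat.card_le_card_of_injective f hf
    rw [Nat.card_prod, Nat.card_zmultiples, hword, card_fixI_eq hA e heco, mul_comm d] at h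
    exact Nat.le_of_mul_le_mul_right h hd0
  refine le_antisymm (hle e he) ?_
  obtain ⟨e', rfl⟩ := he
  haveI : NeZero (e * e') := ⟨hM0⟩
  haveI := finite_fixI (p := p) (A := A) (e * e')
  haveI : Finite T := Finite.of_injective _ (AddSubgroup.inclusion_injective hTF)
  haveI : Finite (T ⊓ torsSub p e' : AddSubgroup (JZero p)) :=
    Finite.of_injective _ (AddSubgroup.inclusion_injective (inf_le_left : T ⊓ torsSub p e' ≤ T))
  let φ : T →+ (T ⊓ torsSub p e' : AddSubgroup (JZero p)) :=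
    AddMonoidHom.mk' (fun x => ⟨e • x.1, AddSubgroup.nsmul_mem _ x.2 _, by
      show e' • (e • x.1) = 0
      rw [← mul_nsmul', mul_comm, (mem_fixI.1 (hTF x.2)).1]⟩) fun a b =>
        Subtype.ext (nsmul_add _ _ _)
  haveI : Finite (T ⊓ torsSub p e : AddSubgroup (JZero p)) :=
    Finite.of_injective _ (AddSubgroup.inclusion_injective (inf_le_left : T ⊓ torsSub p e ≤ T))
  have hker : Nat.card φ.ker ≤ Nat.card (T ⊓ torsSub p e : AddSubgroup (JZero p)) :=
    Nat.card_le_card_of_injective (fun x => (⟨x.1.1, x.1.2,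
      congrArg Subtype.val (x.2 : φ x.1 = 0)⟩ : (T ⊓ torsSub p e : AddSubgroup (JZero p))))
      fun a b h => Subtype.ext (Subtype.ext (congrArg Subtype.val h :))
  have hsplit := AddSubgroup.card_eq_card_quotient_mul_card_addSubgroup φ.ker
  rw [Nat.card_congr (QuotientAddGroup.quotientKerEquivRange φ).toEquiv, hTcard, mul_pow] at hsplit
  have h := hsplit.le.trans (Nat.mul_le_mul ((Nat.card_le_card_of_injective _
    Subtype.val_injective).trans (hle e' (dvd_mul_left _ _))) hker)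
  rw [mul_comm (e' ^ g)] at h
  exact Nat.le_of_mul_le_mul_right h (pow_pos (Nat.pos_of_ne_zero (right_ne_zero_of_mul hM0)) g)

/-- A toric class killed by `a` is `b` times a toric class when `a b = M`. -/
theorem exists_nsmul_eq_of_toric (hA : A.LiesOverPrime p) {a b : ℕ}
    (hM : (a * b).Coprime (6 * p)) (hord : addOrderOf c = eisensteinNumerator p)
    (hrat : ∀ σ : GQ, σ • c = c) {T : AddSubgroup (JZero p)} (hT : CuspToric p (a * b) c A T)
    {x : JZero p} (hx : x ∈ T) (hax : a • x = 0) : ∃ z ∈ T, b • z = x := by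
  classical
  have ca := card_toric_tors hA hM hord hrat hT (dvd_mul_right a b)
  have cb := card_toric_tors hA hM hord hrat hT (dvd_mul_left b a)
  obtain ⟨hTF, -, hTcard, -⟩ := hT
  have hM0 : a * b ≠ 0 := ne_zero_of_coprime_six_mul hM
  haveI : NeZero (a * b) := ⟨hM0⟩
  haveI := finite_fixI (p := p) (A := A) (a * b)
  haveI : Finite T := Finite.of_injective _ (AddSubgroup.inclusion_injective hTF)
  haveI : Finite (T ⊓ torsSub p a : AddSubgroup (JZero p)) :=
    Finite.of_injective _ (AddSubgroup.inclusion_injective (inf_le_left : T ⊓ torsSub p a ≤ T))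
  let φ : T →+ (T ⊓ torsSub p a : AddSubgroup (JZero p)) :=
    AddMonoidHom.mk' (fun x => ⟨b • x.1, AddSubgroup.nsmul_mem _ x.2 _, by
      show a • (b • x.1) = 0
      rw [← mul_nsmul', (mem_fixI.1 (hTF x.2)).1]⟩) fun u v =>
        Subtype.ext (nsmul_add _ _ _)
  have hker : Nat.card φ.ker = Nat.card (T ⊓ torsSub p b : AddSubgroup (JZero p)) :=
    Nat.card_congr
      { toFun := fun y => ⟨y.1.1, y.1.2, congrArg Subtype.val (y.2 : φ y.1 = 0)⟩
        invFun := fun y => ⟨⟨y.1, y.2.1⟩, Subtype.ext y.2.2⟩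
        left_inv := fun _ => rfl
        right_inv := fun _ => rfl }
  have hsplit := AddSubgroup.card_eq_card_quotient_mul_card_addSubgroup φ.ker
  rw [Nat.card_congr (QuotientAddGroup.quotientKerEquivRange φ).toEquiv, hTcard, hker, cb, mul_pow]
    at hsplit
  have hr : Nat.card φ.range = Nat.card (T ⊓ torsSub p a : AddSubgroup (JZero p)) := by
    rw [ca]
    exact (Nat.eq_of_mul_eq_mul_right (pow_pos (Nat.pos_of_ne_zero (right_ne_zero_of_mul hM0)) _)
      hsplit).symm
  obtain ⟨z, hz⟩ : (⟨x, hx, hax⟩ : (T ⊓ torsSub p a : AddSubgroup (JZero p))) ∈ φ.range := by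
    rw [AddSubgroup.eq_top_of_card_eq φ.range hr]
    exact AddSubgroup.mem_top _
  exact ⟨z.1, z.2, congrArg Subtype.val hz⟩

/-- `gcd (M, n)` times a toric class is displaced. -/
theorem exists_displaced_eq_gcd_nsmul (hA : A.LiesOverPrime p) {M : ℕ} (hM : M.Coprime (6 * p))
    {T : AddSubgroup (JZero p)} (hT : CuspToric p M c A T) {s : GQ}
    (hs : s ∈ A.inertiaSubgroupIn ℚ)
    (hgen : ∀ τ ∈ A.inertiaSubgroupIn ℚ, ∃ i : ℕ, ∀ y : JZero p, M • y = 0 → τ • y = s ^ i • y)
    {x : JZero p} (hx : x ∈ T) :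
    ∃ y : JZero p, M • y = 0 ∧ Nat.gcd M (eisensteinNumerator p) • x = s • y - y := by
  classical
  obtain ⟨hTF, hTd, hTcard, -⟩ := hT
  obtain ⟨alg⟩ := exists_algebra_qbar
  letI := alg
  have hM0 : M ≠ 0 := ne_zero_of_coprime_six_mul hM
  haveI : NeZero M := ⟨hM0⟩
  haveI := finite_fixI (p := p) (A := A) M
  haveI : Finite T := Finite.of_injective _ (AddSubgroup.inclusion_injective hTF)
  obtain ⟨hfinT, hcardT⟩ := card_torsSub (p := p) M
  haveI := hfinT
  set g := Module.finrank ℂ (CuspForm (Gamma0 p) 2)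
  let D : torsSub p M →+ T := AddMonoidHom.mk'
    (fun y => ⟨s • y.1 - y.1, hTd s hs y.1 (mem_torsSub.1 y.2)⟩) fun a b => Subtype.ext (by
      show s • (a.1 + b.1) - (a.1 + b.1) = s • a.1 - a.1 + (s • b.1 - b.1)
      rw [smul_add]; abel)
  have hfix : ∀ y : JZero p, M • y = 0 → s • y = y → y ∈ fixI p M A := fun y hy h => by
    refine mem_fixI.2 ⟨hy, fun τ hτ => ?_⟩
    obtain ⟨i, hi⟩ := hgen τ hτ
    rw [hi y hy]
    clear hi
    induction i with
    | zero => rw [pow_zero, one_smul]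
    | succ i ih => rw [pow_succ, mul_smul, h, ih]
  have hker : Nat.card D.ker = Nat.card (fixI p M A) :=
    Nat.card_congr
      { toFun := fun y => ⟨y.1.1, hfix _ (mem_torsSub.1 y.1.2)
          (sub_eq_zero.1 (congrArg Subtype.val (y.2 : D y.1 = 0)))⟩
        invFun := fun x => ⟨⟨x.1, (mem_fixI.1 x.2).1⟩,
          Subtype.ext (sub_eq_zero.2 ((mem_fixI.1 x.2).2 s hs))⟩
        left_inv := fun _ => rfl
        right_inv := fun _ => rfl }
  have hsplit := AddSubgroup.card_eq_card_quotient_mul_card_addSubgroup D.ker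
  rw [Nat.card_congr (QuotientAddGroup.quotientKerEquivRange D).toEquiv, hker, hcardT,
    card_fixI_eq hA M hM, two_mul, pow_add] at hsplit
  have hidx : D.range.index = Nat.gcd M (eisensteinNumerator p) := by
    have h1 := D.range.index_mul_card
    rw [hTcard] at h1
    refine Nat.eq_of_mul_eq_mul_right Nat.card_pos (h1.trans ?_)
    refine Nat.eq_of_mul_eq_mul_left (pow_pos (Nat.pos_of_ne_zero hM0) g) ?_
    rw [hsplit]; ring
  obtain ⟨y, hy⟩ := AddSubgroup.nsmul_index_mem (H := D.range) (⟨x, hx⟩ : T)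
  exact ⟨y.1, mem_torsSub.1 y.2, by rw [← hidx]; exact (congrArg Subtype.val hy).symm⟩

theorem gcd_pow_succ_dvd {M n : ℕ} (hn : n ≠ 0) : Nat.gcd (M ^ (n + 1)) n ∣ M ^ n := by
  rcases eq_or_ne M 0 with rfl | hM
  · simp [zero_pow hn]
  rw [← Nat.factorization_le_iff_dvd
    (Nat.gcd_ne_zero_right hn) (pow_ne_zero _ hM), Finsupp.le_def]
  intro l
  rw [Nat.factorization_gcd (pow_ne_zero _ hM) hn, Nat.factorization_pow, Nat.factorization_pow]
  simp only [Finsupp.inf_apply, Finsupp.smul_apply, smul_eq_mul]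
  rcases Nat.eq_zero_or_pos (M.factorization l) with h | h
  · simp [h]
  · exact (min_le_right _ _).trans
      ((Nat.factorization_lt l hn).le.trans (Nat.le_mul_of_pos_right n h))

/-- **The fixed classes modulo the displaced ones are killed by the square of an operator which
moves the fixed classes into the toric ones.** -/
theorem exists_sq_displaced (hA : A.LiesOverPrime p) {M : ℕ} (hM : M.Coprime (6 * p))
    (hord : addOrderOf c = eisensteinNumerator p) (hrat : ∀ σ : GQ, σ • c = c)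
    {T : AddSubgroup (JZero p)}
    (hT : CuspToric p (M ^ (eisensteinNumerator p + 1)) c A T) {s : GQ}
    (hs : s ∈ A.inertiaSubgroupIn ℚ)
    (hgen : ∀ τ ∈ A.inertiaSubgroupIn ℚ, ∃ i : ℕ, ∀ y : JZero p,
      M ^ (eisensteinNumerator p + 1) • y = 0 → τ • y = s ^ i • y)
    (t : JZero p →+ JZero p) (htσ : ∀ y : JZero p, t (s • y) = s • t y)
    (htT : ∀ x ∈ fixI p (M ^ (eisensteinNumerator p + 1)) A, t x ∈ T)
    {x : JZero p} (hx : x ∈ fixI p M A) : ∃ y : JZero p, M • y = 0 ∧ t (t x) = s • y - y := by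
  set n := eisensteinNumerator p with hn
  have hK : (M * M ^ n).Coprime (6 * p) := by
    rw [← pow_succ']; exact Nat.Coprime.pow_left _ hM
  have hK' : (M ^ n * M).Coprime (6 * p) := by rwa [mul_comm]
  have hxK : x ∈ fixI p (M ^ (n + 1)) A := mem_fixI.2 ⟨by
    rw [pow_succ', mul_nsmul, (mem_fixI.1 hx).1, nsmul_zero], (mem_fixI.1 hx).2⟩
  have hT' : CuspToric p (M * M ^ n) c A T := by rwa [← pow_succ']
  have hT'' : CuspToric p (M ^ n * M) c A T := by rwa [← pow_succ]
  have h1 : M • t x = 0 := by rw [← map_nsmul, (mem_fixI.1 hx).1, map_zero]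
  obtain ⟨z, hz, hzx⟩ := exists_nsmul_eq_of_toric hA hK hord hrat hT' (htT x hxK) h1
  obtain ⟨e, he⟩ := gcd_pow_succ_dvd (M := M) (numerator_ne_zero (p := p))
  obtain ⟨y, hy, hzy⟩ := exists_displaced_eq_gcd_nsmul hA (Nat.Coprime.pow_left _ hM) hT hs hgen
    (AddSubgroup.nsmul_mem _ hz e)
  have htx : t x = s • y - y := by
    rw [← hzy, ← mul_nsmul', ← hn, ← he, hzx]
  -- `M y` is fixed
  have hMy : M • y ∈ fixI p (M ^ (n + 1)) A := by
    refine mem_fixI.2 ⟨by rw [smul_comm, hy, nsmul_zero], fun τ hτ => ?_⟩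
    obtain ⟨i, hi⟩ := hgen τ hτ
    have hsy : s • (M • y) = M • y := by
      rw [← sub_eq_zero, smul_nsmul_comm, ← nsmul_sub, ← htx, h1]
    rw [hi _ (by rw [smul_comm, hy, nsmul_zero])]
    clear hi
    induction i with
    | zero => rw [pow_zero, one_smul]
    | succ i ih => rw [pow_succ, mul_smul, hsy, ih]
  have h2 : M ^ n • t (M • y) = 0 := by
    rw [← map_nsmul, ← mul_nsmul', ← pow_succ, hy, map_zero]
  obtain ⟨u, hu, huy⟩ := exists_nsmul_eq_of_toric hA hK' hord hrat hT'' (htT _ hMy) h2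
  refine ⟨t y - u, ?_, ?_⟩
  · rw [nsmul_sub, huy, map_nsmul, sub_self]
  · rw [smul_sub, (mem_fixI.1 (hT.1 hu)).2 s hs, sub_sub_sub_cancel_right, htx, map_sub, htσ]

/-- The image of inertia is trivial on the classes killed by `m` exactly when `m ^ g = gcd (m, n)`. -/
theorem fixes_all_iff (hA : A.LiesOverPrime p) {m : ℕ} (hm : m.Coprime (6 * p)) :
    (∀ τ ∈ A.inertiaSubgroupIn ℚ, ∀ y : JZero p, m • y = 0 → τ • y = y) ↔
      m ^ Module.finrank ℂ (CuspForm (Gamma0 p) 2) = Nat.gcd m (eisensteinNumerator p) := by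
  obtain ⟨alg⟩ := exists_algebra_qbar
  letI := alg
  have hm0 : m ≠ 0 := ne_zero_of_coprime_six_mul hm
  haveI : NeZero m := ⟨hm0⟩
  obtain ⟨hfinT, hcardT⟩ := card_torsSub (p := p) m
  haveI := hfinT
  set g := Module.finrank ℂ (CuspForm (Gamma0 p) 2)
  have hle : fixI p m A ≤ torsSub p m := fun x hx => (mem_fixI.1 hx).1
  rw [← Nat.mul_left_cancel_iff (pow_pos (Nat.pos_of_ne_zero hm0) g), ← card_fixI_eq hA m hm,
    ← pow_add, ← two_mul, ← hcardT, eq_comm]
  refine ⟨fun h => ?_, fun h τ hτ y hy => ?_⟩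
  · rw [le_antisymm hle fun x hx => mem_fixI.2 ⟨mem_torsSub.1 hx, fun τ hτ =>
      h τ hτ x (mem_torsSub.1 hx)⟩]
  · have heq : fixI p m A = torsSub p m := AddSubgroup.eq_of_le_of_card_ge hle h.ge
    exact (mem_fixI.1 (heq ▸ mem_torsSub.2 hy : y ∈ fixI p m A)).2 τ hτ

/-- **The powers of a generator acting trivially.** -/
theorem pow_fixes_all_iff (hA : A.LiesOverPrime p) {M : ℕ} (hM : M.Coprime (6 * p)) {s : GQ}
    (hs : s ∈ A.inertiaSubgroupIn ℚ)
    (hgen : ∀ τ ∈ A.inertiaSubgroupIn ℚ, ∃ i : ℕ, ∀ y : JZero p, M • y = 0 → τ • y = s ^ i • y)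
    (j : ℕ) :
    (∀ y : JZero p, M • y = 0 → s ^ j • y = y) ↔
      (M / Nat.gcd M j) ^ Module.finrank ℂ (CuspForm (Gamma0 p) 2) =
        Nat.gcd (M / Nat.gcd M j) (eisensteinNumerator p) := by
  obtain ⟨alg⟩ := exists_algebra_qbar
  letI := alg
  have hM0 : M ≠ 0 := ne_zero_of_coprime_six_mul hM
  have hpM := not_dvd_of_coprime_six_mul hM
  set e := Nat.gcd M j with he
  set g := Module.finrank ℂ (CuspForm (Gamma0 p) 2)
  obtain ⟨m, hm⟩ := Nat.gcd_dvd_left M j
  rw [← he] at hm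
  have he0 : 0 < e := Nat.gcd_pos_of_pos_left _ (Nat.pos_of_ne_zero hM0)
  rw [show M / e = m by rw [hm, Nat.mul_div_cancel_left _ he0],
    ← fixes_all_iff hA (hM.coprime_dvd_left (hm ▸ dvd_mul_left m e))]
  haveI : NeZero M := ⟨hM0⟩
  haveI : NeZero e := ⟨he0.ne'⟩
  haveI : NeZero m := ⟨fun h => hM0 (by rw [hm, h, mul_zero])⟩
  obtain ⟨hfinM, hcM⟩ := card_torsSub (p := p) M
  obtain ⟨hfinE, hcE⟩ := card_torsSub (p := p) e
  obtain ⟨hfinm, hcm⟩ := card_torsSub (p := p) m
  haveI := hfinM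
  haveI := hfinm
  -- every class killed by `m` is `e` times one killed by `M`
  have hMm : M ^ (2 * g) = m ^ (2 * g) * e ^ (2 * g) := by rw [hm, mul_pow, mul_comm]
  have hdiv : ∀ w : JZero p, m • w = 0 → ∃ y : JZero p, M • y = 0 ∧ w = e • y := fun w hw => by
    let φ : torsSub p M →+ torsSub p m := AddMonoidHom.mk' (fun y => ⟨e • y.1, by
      show m • (e • y.1) = 0
      rw [← mul_nsmul', mul_comm, ← hm, mem_torsSub.1 y.2]⟩) fun a b =>
        Subtype.ext (nsmul_add _ _ _)
    have hker : Nat.card φ.ker = Nat.card (torsSub p e) :=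
      Nat.card_congr
        { toFun := fun y => ⟨y.1.1, congrArg Subtype.val (y.2 : φ y.1 = 0)⟩
          invFun := fun y => ⟨⟨y.1, by
            show M • y.1 = 0
            rw [hm, mul_nsmul, mem_torsSub.1 y.2, nsmul_zero]⟩, Subtype.ext y.2⟩
          left_inv := fun _ => rfl
          right_inv := fun _ => rfl }
    have hsplit := AddSubgroup.card_eq_card_quotient_mul_card_addSubgroup φ.ker
    rw [Nat.card_congr (QuotientAddGroup.quotientKerEquivRange φ).toEquiv, hker, hcM, hcE] at hsplit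
    replace hsplit := hMm.symm.trans hsplit
    obtain ⟨y, hy⟩ : (⟨w, hw⟩ : torsSub p m) ∈ φ.range := by
      rw [AddSubgroup.eq_top_of_card_eq φ.range (by
        rw [hcm]; exact (Nat.eq_of_mul_eq_mul_right (pow_pos he0 _) hsplit).symm)]
      exact AddSubgroup.mem_top _
    exact ⟨y.1, mem_torsSub.1 y.2, (congrArg Subtype.val hy).symm⟩
  refine ⟨fun h τ hτ w hw => ?_, fun h y hy => ?_⟩
  · obtain ⟨y, hy, rfl⟩ := hdiv w hw
    have hB : M • (s • y - y) = 0 := by rw [nsmul_sub, nsmul_smul_eq_zero hy, hy, sub_zero]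
    have h1 : e • (s • y - y) = 0 := by
      refine addOrderOf_dvd_iff_nsmul_eq_zero.1 (Nat.dvd_gcd (addOrderOf_dvd_of_nsmul_eq_zero hB)
        (addOrderOf_dvd_of_nsmul_eq_zero ?_))
      rw [← add_right_inj y, ← inertia_pow hA hpM hs hy, h y hy, add_zero]
    obtain ⟨i, hi⟩ := hgen τ hτ
    rw [hi _ (by rw [smul_comm, hy, nsmul_zero]), inertia_pow hA hpM hs
      (by rw [smul_comm, hy, nsmul_zero]), smul_nsmul_comm, ← nsmul_sub, h1, nsmul_zero, add_zero]
  · obtain ⟨f, hf⟩ := Nat.gcd_dvd_right M j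
    rw [← he] at hf
    have h1 : e • (s • y - y) = 0 := by
      rw [nsmul_sub, ← smul_nsmul_comm, h s hs _ (by rw [← mul_nsmul', mul_comm, ← hm, hy]),
        sub_self]
    rw [inertia_pow hA hpM hs hy, hf, mul_nsmul, h1, nsmul_zero, add_zero]

end FA.JZeroInertia
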