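import Fermat.Agent.JZeroInertia.KappaPower
import Fermat.Agent.JZeroInertia.CuspPower
import Fermat.Agent.CuspClass.EisensteinKill

/-!
# The fixed classes modulo the toric ones are killed by the numerator

The operators `T_r - r - 1` and `U_p - 1` move the classes killed by `l ^ k` which inertia fixes
into the toric ones, so `n` does; and these classes are at most `d` times the toric ones if `d`
moves them there.
-/

set_option autoImplicit false
set_option linter.style.haveILetI false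
set_option linter.unusedSectionVars false
set_option synthInstance.maxHeartbeats 400000
set_option maxHeartbeats 1600000

noncomputable section

open ModularCurve FA.JTorsion FA.Mazur FA.Eis FA.ModField CuspForm CongruenceSubgroup

local notation "Qb" => AlgebraicClosure ℚ
local notation "GQ" => AlgebraicClosure ℚ ≃ₐ[ℚ] AlgebraicClosure ℚ

namespace FA.JZeroInertia

/-- The toric classes killed by `l ^ k` at the level `N`. -/
def IsFullToric [Algebra Qb ℂ] (N l k : ℕ) [NeZero N] [NeZero (l ^ k)] (A : ValuationSubring Qb)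
    (T : AddSubgroup (ModN N (∅ : Set ℕ) (l ^ k))) : Prop :=
  (∀ z ∈ T, ∀ τ ∈ A.inertiaSubgroupIn ℚ, galMod N (∅ : Set ℕ) (l ^ k) τ z = z) ∧
  (∀ τ ∈ A.inertiaSubgroupIn ℚ, ∀ z, galMod N (∅ : Set ℕ) (l ^ k) τ z - z ∈ T) ∧
  Nat.card T = (l ^ k) ^ Module.finrank ℂ (CuspForm (Gamma0 N) 2) ∧
  (∀ z, (∀ τ ∈ A.inertiaSubgroupIn ℚ, galMod N (∅ : Set ℕ) (l ^ k) τ z = z) →
    ∀ (ℓ : ℕ) (hℓ : ℓ.Prime) (hℓN : ¬ ℓ ∣ N),
      CuspForm.heckeAlgebra.T (k := 2) hℓ hℓN (Set.notMem_empty ℓ) • z - (ℓ + 1) • z ∈ T) ∧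
  ∀ d : ℕ, 0 < d → ∀ G : AddSubgroup (ModN N (∅ : Set ℕ) (l ^ k)),
    (∀ z ∈ G, ∀ τ ∈ A.inertiaSubgroupIn ℚ, galMod N (∅ : Set ℕ) (l ^ k) τ z = z) →
    (∀ z ∈ G, d • z ∈ T) → Nat.card G ≤ d * Nat.card T

theorem exists_fullToric_mul [Algebra Qb ℂ] {p : ℕ} [hp : Fact p.Prime] (hp5 : 5 ≤ p) (N : ℕ)
    [NeZero N] (hN : N = 1 * p) {A : ValuationSubring Qb} (hA : A.LiesOverPrime p) :
    ∃ c : JZero N, addOrderOf c = eisensteinNumerator p ∧ (∀ σ : GQ, σ • c = c) ∧
      ∀ l : ℕ, 5 ≤ l → l.Prime → l ≠ p → ∀ (k : ℕ) [NeZero (l ^ k)],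
        ∃ T, IsFullToric N l k A T ∧ (l ∣ eisensteinNumerator p → 0 < k →
          ∀ z, toTors N (∅ : Set ℕ) (l ^ k) z = (eisensteinNumerator p / l) • c → z ∉ T) := by
  subst hN
  haveI : NeZero p := ⟨hp.out.ne_zero⟩
  refine ⟨FA.CuspClass.cuspCls p, FA.CuspClass.addOrderOf_cuspCls p hp5,
    FA.CuspClass.gal_cuspCls p, fun l h5 hl hlp k _ => ?_⟩
  haveI : Fact l.Prime := ⟨hl⟩
  haveI : NeZero l := ⟨hl.ne_zero⟩
  haveI : Algebra.IsAlgebraic ℚ Qb := AlgebraicClosure.isAlgebraic ℚ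
  haveI : IsAlgClosed (IsLocalRing.ResidueField A) := FA.Frob.residueField_isAlgClosed A
  haveI : CharP (IsLocalRing.ResidueField A) p := residueAt_charP hA
  have hqM : ¬ p ∣ 1 := hp.out.not_dvd_one
  have harch : ∀ c : Qb, c ≠ 0 → ∃ m : ℕ, A.valuation ((p : Qb) ^ m) < A.valuation c :=
    fun c hc => exists_pow_lt_valuation hp.out hA c hc
  have hqp : p ≠ l := Ne.symm hlp
  obtain ⟨w, m, r, hr0, hr, h, h', hw, hpw⟩ :=
    exists_adm (M := 1) hp.out hl hqp (Or.inl h5)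
  haveI : NeZero r := ⟨hr0⟩
  obtain ⟨U, hΔ, hu⟩ := exists_unitDatum 1 p A hqM harch hr h h' hw
  have hU : ∀ S ∈ inertAuts 1 p A, S • U.u = U.u := by
    rintro T ⟨σ, -, rfl⟩
    rw [hu]
    exact galAut_etaElt 1 p h σ
  have hΔ' : ¬ l ∣ U.Δ := hΔ ▸ hpw
  refine ⟨toricN 1 p A hqM harch l k,
    ⟨fun z hz τ hτ => galMod_toricN 1 p A hA hqM harch l hqp hτ hz,
      fun τ hτ z => galSub_mem_toricN 1 p A hA hqM harch l hτ z,
      le_antisymm (card_toricN_le 1 p A hA hqM harch l hqp k)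
        (le_card_toricN 1 p A hA hqM harch l hqp rfl U k),
      fun z hz ℓ hℓ hℓN => mem_toricN_of_brN 1 p A hA hqM harch l hqp rfl U fun s => ?_,
      fun d hd G hG hdG => card_le_mul_toricN 1 p A hA hqM harch l hqp rfl U hU hΔ' hd G hG hdG⟩,
    fun hln hk z hz hmem => ?_⟩
  · rw [map_sub, map_nsmul, brN_T 1 p A hA hqM harch l hqp U hU hΔ' hz hℓ hℓN, sub_self]
    rfl
  · obtain ⟨j, rfl⟩ : ∃ j, k = j + 1 := ⟨k - 1, by omega⟩
    have hd : eisensteinNumerator p * Nat.gcd (p - 1) 12 = p - 1 :=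
      Nat.div_mul_cancel (Nat.gcd_dvd_left _ _)
    have hk0 : l * (Nat.gcd (p - 1) 12 * (eisensteinNumerator p / l)) = p - 1 := by
      rw [mul_comm (Nat.gcd (p - 1) 12), ← mul_assoc, Nat.mul_div_cancel' hln, hd]
    refine cusp_not_mem_toricN p A hA hqM harch l h5 hk0 j
      (z := Nat.gcd (p - 1) 12 • z) ?_ (AddSubgroup.nsmul_mem _ hmem _)
    rw [map_nsmul, hz, ← mul_nsmul']

section Eisenstein

variable [Algebra Qb ℂ] {p : ℕ} [hp : Fact p.Prime] [NeZero p] {l k : ℕ} [hl : Fact l.Prime]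
  [NeZero (l ^ k)] {A : ValuationSubring Qb} {T : AddSubgroup (ModN p (∅ : Set ℕ) (l ^ k))}
  (h5 : 5 ≤ l) (hlp : l ≠ p) (hT : IsFullToric p l k A T)

include hT

/-- The ideal of the operators moving fixed classes into `T` after `u`. -/
theorem exists_ideal (u : TAlg p) : ∃ J : Ideal (TAlg p), ∀ t, t ∈ J ↔
    ∀ w, (∀ τ ∈ A.inertiaSubgroupIn ℚ, galMod p (∅ : Set ℕ) (l ^ k) τ w = w) →
      t • u • w ∈ T :=
  ⟨{ carrier := {t | ∀ w, (∀ τ ∈ A.inertiaSubgroupIn ℚ, galMod p (∅ : Set ℕ) (l ^ k) τ w = w) →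
        t • u • w ∈ T}
     add_mem' := fun {a b} ha hb w hw => by rw [add_smul]; exact add_mem (ha w hw) (hb w hw)
     zero_mem' := fun w _ => by rw [zero_smul]; exact zero_mem _
     smul_mem' := fun c t ht w hw => by
      rw [show c • t = t * c from mul_comm c t, mul_smul, smul_comm c u]
      exact ht _ fun τ hτ => by rw [map_smul, hw τ hτ] }, fun _ => Iff.rfl⟩

theorem tGen_sub_mem (r : Nat.Primes) (hr : (r : ℕ) ≠ p) {w : ModN p (∅ : Set ℕ) (l ^ k)}
    (hw : ∀ τ ∈ A.inertiaSubgroupIn ℚ, galMod p (∅ : Set ℕ) (l ^ k) τ w = w) :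
    tGen p r • w - ((r : ℕ) + 1) • w ∈ T := by
  have hrN : ¬ (r : ℕ) ∣ p := fun h => hr ((Nat.prime_dvd_prime_iff_eq r.2 hp.out).1 h)
  rw [show tGen p r = CuspForm.heckeAlgebra.T (k := 2) r.2 hrN (Set.notMem_empty _) from
    CuspForm.heckeEvalForms_heckeGen_of_not_dvd (ℓ := r) hrN]
  exact hT.2.2.2.1 w hw r r.2 hrN

include h5 hlp in
/-- **`U_p - 1` moves the fixed classes into `T`.** -/
theorem level_sub_mem {w : ModN p (∅ : Set ℕ) (l ^ k)}
    (hw : ∀ τ ∈ A.inertiaSubgroupIn ℚ, galMod p (∅ : Set ℕ) (l ^ k) τ w = w) :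
    tGen p ⟨p, hp.out⟩ • w - w ∈ T := by
  classical
  set U := tGen p ⟨p, hp.out⟩
  obtain ⟨J, hJ⟩ := exists_ideal hT (U - 1)
  suffices h1 : (1 : TAlg p) ∈ J by
    have := (hJ 1).1 h1 w hw
    rwa [one_smul, sub_smul, one_smul] at this
  by_contra h1
  obtain ⟨m, hm, hJm⟩ := Ideal.exists_le_maximal J ((Ideal.ne_top_iff_one J).2 h1)
  letI := Ideal.Quotient.field m
  set θ : TAlg p →+* TAlg p ⧸ m := Ideal.Quotient.mk m
  have hkill : ∀ t : TAlg p, t ∈ J → θ t = 0 := fun t ht =>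
    Ideal.Quotient.eq_zero_iff_mem.2 (hJm ht)
  have hl0 : ((l : ℕ) : TAlg p ⧸ m) = 0 := by
    have h : (((l ^ k : ℕ) : TAlg p)) ∈ J := (hJ _).2 fun v hv => by
      rw [Nat.cast_smul_eq_nsmul, modN_nsmul]
      exact zero_mem _
    have h' := hkill _ h
    rw [Nat.cast_pow, map_pow, map_natCast] at h'
    exact eq_zero_of_pow_eq_zero h'
  haveI : CharP (TAlg p ⧸ m) l := (CharP.charP_iff_prime_eq_zero hl.out).2 hl0
  have hneg : θ U + 1 = 0 := by
    rw [← map_one θ, ← map_add]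
    refine hkill _ ((hJ _).2 fun v _ => ?_)
    rw [smul_smul, show (U + 1) * (U - 1) = U * U - 1 by ring, FA.EisReducible.tGen_level_sq,
      sub_self, zero_smul]
    exact zero_mem _
  have heis : ∀ r : Nat.Primes, (r : ℕ) ≠ p →
      θ (tGen p r) = 1 + ((r : ℕ) : TAlg p ⧸ m) := fun r hr => by
    have h : tGen p r - (((r : ℕ) + 1 : ℕ) : TAlg p) ∈ J := (hJ _).2 fun v hv => by
      rw [sub_smul, Nat.cast_smul_eq_nsmul]
      exact tGen_sub_mem hT r hr fun τ hτ => by rw [map_smul, hv τ hτ]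
    have h' := hkill _ h
    rwa [map_sub, map_natCast, sub_eq_zero, Nat.cast_add, Nat.cast_one, add_comm] at h'
  have hone : θ U = 1 := FA.EisReducible.value_at_level_eq_one h5 hlp θ heis
  rw [hone, one_add_one_eq_two] at hneg
  have h2 : l ∣ 2 := (CharP.cast_eq_zero_iff (TAlg p ⧸ m) l 2).1 (by exact_mod_cast hneg)
  have := Nat.le_of_dvd two_pos h2
  omega

include h5 hlp in
/-- **The numerator moves the fixed classes into `T`.** -/
theorem numerator_mem {w : ModN p (∅ : Set ℕ) (l ^ k)}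
    (hw : ∀ τ ∈ A.inertiaSubgroupIn ℚ, galMod p (∅ : Set ℕ) (l ^ k) τ w = w) :
    eisensteinNumerator p • w ∈ T := by
  obtain ⟨J, hJ⟩ := exists_ideal hT 1
  have hgen : ∀ r : Nat.Primes, tGen p r - ((eisensteinSystem p r : ℤ) : TAlg p) ∈ J := fun r =>
    (hJ _).2 fun v hv => by
      rw [one_smul, sub_smul, eisensteinSystem_eq]
      split_ifs with h
      · rw [Int.cast_one, one_smul, show r = ⟨p, hp.out⟩ from Subtype.ext h]
        exact level_sub_mem h5 hlp hT hv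
      · push_cast
        rw [show (1 : TAlg p) + ((r : ℕ) : TAlg p) = (((r : ℕ) + 1 : ℕ) : TAlg p) by
          push_cast; ring, Nat.cast_smul_eq_nsmul]
        exact tGen_sub_mem hT r h hv
  have heval : ∀ x : HeckeAlg,
      heckeEvalForms p 2 x - ((MvPolynomial.aeval (eisensteinSystem p) x : ℤ) : TAlg p) ∈ J := by
    intro x
    induction x using MvPolynomial.induction_on with
    | C r => simp
    | add x y hx hy =>
      simp only [map_add, Int.cast_add]
      rw [add_sub_add_comm]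
      exact add_mem hx hy
    | mul_X x r hx =>
      simp only [map_mul, MvPolynomial.aeval_X, Int.cast_mul]
      rw [show heckeEvalForms p 2 (MvPolynomial.X r) = tGen p r from rfl]
      have hsplit : ∀ a b c d : TAlg p, a * b - c * d = (a - c) * b + c * (b - d) := fun a b c d => by
        ring
      rw [hsplit]
      exact add_mem (J.mul_mem_right _ hx) (J.mul_mem_left _ (hgen r))
  obtain ⟨e⟩ := FA.EisensteinPrime.quotient_equiv (p := p)
  have hmem : (eisensteinNumerator p : ↥(heckeLatticeAlgebra p ∅)) ∈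
      Ideal.map (latEval p) (eisensteinIdeal p) := by
    rw [← Ideal.Quotient.eq_zero_iff_mem]
    apply e.injective
    simp
  obtain ⟨x, hx, hxn⟩ := (Ideal.mem_map_iff_of_surjective _ latEval_surjective).mp hmem
  have hxT : heckeEvalForms p 2 x = (eisensteinNumerator p : TAlg p) :=
    (latticeRestrictHom_bijective p ∅ (FA.Period.hasIntegralStructure p 2)).1
      (hxn.trans (map_natCast _ _).symm)
  have h0 := heval x
  rw [hxT, (mem_eigenIdeal_iff _ x).mp hx, Int.cast_zero, sub_zero] at h0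
  have := (hJ _).1 h0 w hw
  rwa [one_smul, Nat.cast_smul_eq_nsmul] at this

end Eisenstein

end FA.JZeroInertia
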