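import Fermat.Agent.ModField.Semistable.Mono.Count
import Fermat.Agent.ModField.Semistable.FrobRelation
import Fermat.Agent.EisReducible.TorsionLattice
import Fermat.Agent.Ribet.Serre
import Fermat.Agent.RT.Tame

/-!
# The classes fixed by inertia on the torsion of order `p` of a Jacobian of prime level

At the level `M q` with `M = 1` and no system of characteristic `p` with the values `ℓ + 1`: the
classes of order `p` fixed by inertia at `q` are the toric ones, they are the image of `s - 1` for
a tame generator `s`, they are `p ^ g` in number, and a Frobenius element acts on them as `q U_q`.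
-/

set_option autoImplicit false
set_option linter.style.haveILetI false
set_option linter.unusedSectionVars false
set_option synthInstance.maxHeartbeats 400000
set_option maxHeartbeats 800000

noncomputable section

namespace FA.JZeroInertia

open ModularCurve AlgebraicCurve FA.Curve FA.CurveRed FA.JTorsion FA.Level FA.LocalDef FA.ModField

local notation "Qb" => AlgebraicClosure ℚ

/-- There are no cusp forms of weight two and level one. -/
theorem finrank_level_one :
    Module.finrank ℂ (CuspForm (CongruenceSubgroup.Gamma0 1) 2) = 0 := by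
  haveI : Subsingleton (CuspForm (CongruenceSubgroup.Gamma0 1) 2) :=
    ⟨fun f g => (FA.Ribet.cuspForm_eq_zero_of_genusFormula
      (FA.Ribet.genusFormula_eq_zero (m := 10) (Or.inr rfl) (one_dvd _)) f).trans
      (FA.Ribet.cuspForm_eq_zero_of_genusFormula
      (FA.Ribet.genusFormula_eq_zero (m := 10) (Or.inr rfl) (one_dvd _)) g).symm⟩
  exact Module.finrank_zero_of_subsingleton

variable [Algebra Qb ℂ]

/-- The lattice of level one is zero modulo every number. -/
theorem modN_level_one (M : ℕ) [NeZero M] (hM : M = 1) (n : ℕ) [NeZero n]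
    (z : ModN M (∅ : Set ℕ) n) : z = 0 := by
  subst hM
  obtain ⟨hfin, hcard⟩ := card_modN 1 n
  rw [finrank_level_one, mul_zero, pow_zero] at hcard
  haveI := (Nat.card_eq_one_iff_unique.1 hcard).1
  exact Subsingleton.elim _ _

variable (M q : ℕ) [NeZero M] [hq : Fact q.Prime] [hq0 : NeZero q]
variable (A : ValuationSubring Qb) [IsAlgClosed (IsLocalRing.ResidueField A)]
  [CharP (IsLocalRing.ResidueField A) q] (hA : A.LiesOverPrime q) (hqM : ¬ q ∣ M)
  (harch : ∀ c : Qb, c ≠ 0 → ∃ m : ℕ, A.valuation ((q : Qb) ^ m) < A.valuation c)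

local notation "kA" => IsLocalRing.ResidueField A
local notation "πA" => IsLocalRing.residue A
local notation "rInf" => redTorInf M q A πA IsLocalRing.residue_surjective residueAt_eq_zero hqM harch
local notation "rZero" => redTorZero M q A πA IsLocalRing.residue_surjective residueAt_eq_zero hqM harch
local notation "rLow" => redTorLow M q A πA IsLocalRing.residue_surjective residueAt_eq_zero hqM

variable (U : (theFibre M q A hqM harch).UnitDatum (q : Qb))
  (hU : ∀ S ∈ inertAuts M q A, S • U.u = U.u)
variable (p : ℕ) [hp : Fact p.Prime] [NeZero p] (hqp : q ≠ p) (hM : M = 1)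
  (hEis : ∀ (k : Type) [Field k] [CharP k p] (θ : HFull (M * q) →+* k),
    ∃ (ℓ : ℕ) (hℓ : ℓ.Prime) (hℓN : ¬ ℓ ∣ M * q),
      θ (CuspForm.heckeAlgebra.T (k := 2) hℓ hℓN (Set.notMem_empty ℓ)) ≠ ((ℓ + 1 : ℕ) : k))

/-- `σ - 1` commutes with the operators. -/
theorem galSub_smul (σ : GalQ) (t : HFull (M * q)) (z : ModN (M * q) (∅ : Set ℕ) p) :
    galSub (M * q) p σ (t • z) = t • galSub (M * q) p σ z := by
  rw [galSub_apply, galSub_apply, map_smul, smul_sub]

include hA hqp hU hEis in
/-- No orders at the branches. -/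
theorem brOrd_eq_zero (hΔ : ¬ p ∣ U.Δ) {s : GalQ} (hs : IsTameGen p A s)
    {z : ModN (M * q) (∅ : Set ℕ) p} (hz : galSub (M * q) p s z = 0) :
    brOrd M q A hqM harch p z = 0 := by
  classical
  by_contra hne
  obtain ⟨J, hJ⟩ : ∃ J : Ideal (HFull (M * q)), ∀ t, t ∈ J ↔
      ∀ w, galSub (M * q) p s w = 0 → brOrd M q A hqM harch p (t • w) = 0 :=
    ⟨{ carrier := {t | ∀ w, galSub (M * q) p s w = 0 → brOrd M q A hqM harch p (t • w) = 0}
       add_mem' := fun {a b} ha hb w hw => by rw [add_smul, map_add, ha w hw, hb w hw, add_zero]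
       zero_mem' := fun w _ => by rw [zero_smul, map_zero]
       smul_mem' := fun c t ht w hw => by
        rw [show c • t = t * c from mul_comm c t, mul_smul]
        exact ht _ (by rw [galSub_smul, hw, smul_zero]) }, fun _ => Iff.rfl⟩
  have hJtop : J ≠ ⊤ := fun h => hne (by
    have := (hJ 1).1 (h ▸ Submodule.mem_top) z hz
    rwa [one_smul] at this)
  obtain ⟨m, hm, hle⟩ := Ideal.exists_le_maximal J hJtop
  letI := Ideal.Quotient.field m
  haveI : CharP (HFull (M * q) ⧸ m) p := (CharP.charP_iff_prime_eq_zero hp.out).2 (by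
    rw [← map_natCast (Ideal.Quotient.mk m), Ideal.Quotient.eq_zero_iff_mem]
    exact hle ((hJ _).2 fun w _ => by rw [Nat.cast_smul_eq_nsmul, modN_nsmul, map_zero]))
  obtain ⟨ℓ, hℓ, hℓN, h⟩ := hEis _ (Ideal.Quotient.mk m)
  refine h ?_
  rw [← map_natCast (Ideal.Quotient.mk m), Ideal.Quotient.eq]
  refine hle ((hJ _).2 fun w hw => ?_)
  rw [sub_smul, map_sub, brOrd_T M q A hA hqM harch U hU p hqp hΔ hs (sub_eq_zero.1 hw) hℓ hℓN,
    Nat.cast_smul_eq_nsmul, map_nsmul, sub_self]

include hA hqp hU hM hEis in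
/-- The fixed classes are toric. -/
theorem mem_toricSub_of_fixed (hΔ : ¬ p ∣ U.Δ) {s : GalQ} (hs : IsTameGen p A s)
    {z : ModN (M * q) (∅ : Set ℕ) p} (hz : galSub (M * q) p s z = 0) :
    z ∈ toricSub M q A hqM harch p := by
  obtain ⟨⟨x, hx⟩, y, hy⟩ := exists_low_of_flat M q A hA hqM harch U hU p hqp hΔ hs hz
    (brOrd_eq_zero M q A hA hqM harch U hU p hqp hEis hΔ hs hz)
  obtain ⟨v, rfl⟩ := torsN_surjective M p x
  obtain ⟨v', rfl⟩ := torsN_surjective M p y
  rw [modN_level_one M hM p v, map_zero, map_zero] at hx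
  rw [modN_level_one M hM p v', map_zero, map_zero] at hy
  exact mem_toricSub M q A hqM harch p hx.symm hy.symm

include hA hqp in
/-- Inertia fixes the toric classes. -/
theorem galMod_toricSub {σ : GalQ} (hσ : σ ∈ A.inertiaSubgroupIn ℚ)
    {z : ModN (M * q) (∅ : Set ℕ) p} (hz : z ∈ toricSub M q A hqM harch p) :
    galMod (M * q) (∅ : Set ℕ) p σ z = z := by
  obtain ⟨S, hSs, hθk, -, he⟩ :=
    (fibreData M q A πA IsLocalRing.residue_surjective residueAt_eq_zero hqM harch).symm_inertia σ
      (inducesOn_inertia hσ)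
  refine torsN_injective (M * q) p ?_
  rw [torsN_galMod, ← hSs]
  refine S.smul_eq_self (isFunctionField_level Qb (M * q)) (fun _ => isFunctionField_fullC kA M)
    hθk he (NeZero.ne p)
    (valuation_natCast_of_red A πA residueAt_eq_zero (natCast_kA_ne_zero q A hA p hqp))
    ((SemiFibre.mem_toricKer _).2 (Fin.forall_fin_two.2 ⟨hz.1, hz.2⟩))

include hA hqp hU hM hEis in
/-- **The fixed classes**: the toric ones, the image of `s - 1`, `p ^ g` in number. -/
theorem ker_eq_range (hΔ : ¬ p ∣ U.Δ) {s : GalQ} (hs : IsTameGen p A s) :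
    (galSub (M * q) p s).ker = toricSub M q A hqM harch p ∧
      (galSub (M * q) p s).range = toricSub M q A hqM harch p ∧
      Nat.card (toricSub M q A hqM harch p) =
        p ^ Module.finrank ℂ (CuspForm (CongruenceSubgroup.Gamma0 (M * q)) 2) := by
  obtain ⟨hfinX, hcardX⟩ := card_modN (M * q) p
  haveI := hfinX
  obtain ⟨-, hcardP⟩ := card_toricSub M q A hA hqM harch p hqp
  set g := Module.finrank ℂ (CuspForm (CongruenceSubgroup.Gamma0 (M * q)) 2)
  set B := galSub (M * q) p s
  set P := toricSub M q A hqM harch p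
  have hP : Nat.card P ≤ p ^ g := hcardP.trans (Nat.pow_le_pow_right hp.out.pos (by
    have := genus_count M q A hqM harch
    omega))
  have hker : B.ker = P := le_antisymm
    (fun z hz => mem_toricSub_of_fixed M q A hA hqM harch U hU p hqp hM hEis hΔ hs hz)
    (fun z hz => sub_eq_zero.2 (galMod_toricSub M q A hA hqM harch p hqp hs.1 hz))
  have hle : B.range ≤ P := galSub_range_le M q A hA hqM harch p hs.1
  have hmul : Nat.card B.range * Nat.card P = p ^ g * p ^ g := by
    rw [← hker, ← Nat.card_congr (QuotientAddGroup.quotientKerEquivRange B).toEquiv,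
      ← AddSubgroup.card_eq_card_quotient_mul_card_addSubgroup, hcardX, ← pow_add, two_mul]
  have h1 : p ^ g ≤ Nat.card B.range := Nat.le_of_mul_le_mul_right
    (hmul.symm.le.trans (Nat.mul_le_mul_left _ hP)) (pow_pos hp.out.pos g)
  exact ⟨hker, AddSubgroup.eq_of_le_of_card_ge hle (hP.trans h1),
    le_antisymm hP (h1.trans (Nat.card_le_card_of_injective _
      (AddSubgroup.inclusion_injective hle)))⟩

include hM in
/-- The pushforward to level one is zero on torsion. -/
theorem pushLvl_toTors (n : ℕ) [NeZero n] (z : ModN (M * q) (∅ : Set ℕ) n) :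
    pushLvl M q (toTors (M * q) (∅ : Set ℕ) n z) = 0 := by
  obtain ⟨w, hw⟩ := FA.EisReducible.exists_toTors_eq_of_nsmul M n
    (pushLvl M q (toTors (M * q) (∅ : Set ℕ) n z))
    (by rw [← map_nsmul, nsmul_toTors, map_zero])
  rw [← hw, modN_level_one M hM n w, map_zero]

include hA hM in
/-- The component of `∞` sees the one of `0` after `U_q`. -/
theorem redTorInf_eq (z : ModN (M * q) (∅ : Set ℕ) p) :
    rInf p (torsN (M * q) p z) = - rZero p (torsN (M * q) p (uQ M q • z)) := by
  have hU' : toTors (M * q) (∅ : Set ℕ) p (uQ M q • z) =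
      heckeOperatorAlong Qb (M * q) q (toTors (M * q) (∅ : Set ℕ) p z) :=
    toTors_U_smul (M * q) p hq.out (dvd_mul_left q M) (Set.notMem_empty _) z
  have hw : wAut M q Qb hqM • torsN (M * q) p z = - torsN (M * q) p (uQ M q • z) := by
    refine eq_neg_of_add_eq_zero_right (Subtype.ext ?_)
    obtain ⟨D, hD⟩ := Pic0.mk_surjective
      ((torsN (M * q) p z : Pic0.torsion Qb (levelField (M * q) Qb) p) :
        Pic0 Qb (levelField (M * q) Qb))
    have h := heckeOperatorAlong_add_wAut M q Qb hqM (NeZero.ne p) (torsN (M * q) p z) hD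
      (pushDown_principal M q (by
        rw [hD, coe_torsN]
        exact pushLvl_toTors M q hM p z))
    rw [coe_torsN, ← hU'] at h
    exact h
  have h := redTorZero_eq_wAut M q Qb hqM A πA IsLocalRing.residue_surjective residueAt_eq_zero
    harch p (wAut M q Qb hqM • torsN (M * q) p z)
  have e : wAut M q Qb hqM • wAut M q Qb hqM • torsN (M * q) p z = torsN (M * q) p z :=
    Subtype.ext (by
      rw [SemilinearAut.coe_torsion_smul, SemilinearAut.coe_torsion_smul, wAut_smul_smul])
  rw [e, hw, map_neg] at h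
  exact h.symm

include hA hM in
/-- A Frobenius element is `U_q` up to toric classes. -/
theorem frobenius_sub_mem {σ : GalQ} (hσ : A.IsFrobeniusAt σ q)
    (w : ModN (M * q) (∅ : Set ℕ) p) :
    galMod (M * q) (∅ : Set ℕ) p σ w - uQ M q • w ∈ toricSub M q A hqM harch p := by
  have h0 : ∀ v : ModN (M * q) (∅ : Set ℕ) p,
      rZero p (torsN (M * q) p (galMod (M * q) (∅ : Set ℕ) p σ v)) =
        rZero p (torsN (M * q) p (uQ M q • v)) := fun v => by
    rw [torsN_galMod]
    exact (redTorZero_hecke_eq_gal M q A πA IsLocalRing.residue_surjective residueAt_eq_zero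
      hqM harch p (inducesOn_frobenius hσ) (torsN (M * q) p v) (torsN (M * q) p (uQ M q • v))
      (toTors_U_smul (M * q) p hq.out (dvd_mul_left q M) (Set.notMem_empty _) v)).symm
  have h1 : rInf p (torsN (M * q) p (galMod (M * q) (∅ : Set ℕ) p σ w)) =
      rInf p (torsN (M * q) p (uQ M q • w)) := by
    rw [redTorInf_eq M q A hA hqM harch p hM, redTorInf_eq M q A hA hqM harch p hM, ← map_smul,
      h0]
  refine ⟨?_, ?_⟩
  · exact map_sub_zero_of_eq (G := ModN (M * q) (∅ : Set ℕ) p)
      (H := RedTarget kA (modularFunctionFieldFullC (IsLocalRing.ResidueField A) M) p)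
      ((rInf p).comp (torsN (M * q) p)) h1
  · exact map_sub_zero_of_eq (G := ModN (M * q) (∅ : Set ℕ) p)
      (H := RedTarget kA (modularFunctionFieldFullC (IsLocalRing.ResidueField A) M) p)
      ((rZero p).comp (torsN (M * q) p)) (h0 w)

include hA hqp hU hM hEis in
/-- **A Frobenius element is `q U_q` on the fixed classes.** -/
theorem frobenius_fixed (hΔ : ¬ p ∣ U.Δ) {s : GalQ} (hs : IsTameGen p A s) {σ : GalQ}
    (hσ : A.IsFrobeniusAt σ q) {z : ModN (M * q) (∅ : Set ℕ) p}
    (hz : galSub (M * q) p s z = 0) :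
    galMod (M * q) (∅ : Set ℕ) p σ z = q • (uQ M q • z) := by
  obtain ⟨hker, hrange, -⟩ := ker_eq_range M q A hA hqM harch U hU p hqp hM hEis hΔ hs
  obtain ⟨w, rfl⟩ : z ∈ (galSub (M * q) p s).range := by rw [hrange, ← hker]; exact hz
  set γ := galMod (M * q) (∅ : Set ℕ) p
  set B := galSub (M * q) p s
  have hBB : ∀ x, B (B x) = 0 := fun x => by
    have : B x ∈ B.ker := by rw [hker, ← hrange]; exact ⟨x, rfl⟩
    exact this
  have hpow : ∀ (n : ℕ) x, (γ s ^ n) x = x + n • B x := fun n => by
    induction n with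
    | zero => intro x; simp
    | succ n ih =>
      intro x
      have h1 : γ s x = x + B x := by rw [galSub_apply]; abel
      have h2 : γ s (B x) = B x := sub_eq_zero.1 (hBB x)
      rw [pow_succ', Module.End.mul_apply, ih, map_add, map_nsmul, h2, h1, succ_nsmul]
      abel
  have htame := FA.RT.tame_relation γ hp.out hq.out (Ne.symm hqp) hA
    (isOpen_ker_galMod (M * q) p)
    (fun τ hτ => ⟨1, by
      rw [pow_one]
      exact pow_eq_one_of_sq (modN_nsmul (M * q) p) _ (galMod_sq M q p hqp hqM hA hτ)⟩) hσ hs.1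
  have h3 := LinearMap.congr_fun htame w
  rw [Module.End.mul_apply, Module.End.mul_apply, hpow] at h3
  have h4 : B (γ σ w) = uQ M q • B w := by
    rw [← galSub_smul, ← sub_eq_zero, ← map_sub]
    show γ σ w - uQ M q • w ∈ B.ker
    rw [hker]
    exact frobenius_sub_mem M q A hA hqM harch p hM hσ w
  rw [galSub_apply, map_sub, h3, add_sub_cancel_left, h4, galSub_apply]

end FA.JZeroInertia
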