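import Fermat.Agent.JZeroInertia.ExactOrder
import Fermat.Agent.Root.SummaryFrobeniusJZero

/-!
# Frobenius at `p` on the fixed classes of order prime to `6 p`

A fixed class is a multiple of the cuspidal class plus a toric one killed by the same order; the
toric one is displaced at a higher order, where Frobenius is `p U_p`, and on the cuspidal one
`U_p = 1` and `p = 1`.
-/

set_option autoImplicit false
set_option linter.style.haveILetI false
set_option linter.unusedSectionVars false
set_option synthInstance.maxHeartbeats 400000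
set_option maxHeartbeats 1600000

noncomputable section

open ModularCurve FA.Mazur FA.JTorsion FA.ModField CongruenceSubgroup

local notation "Qb" => AlgebraicClosure ℚ
local notation "GQ" => AlgebraicClosure ℚ ≃ₐ[ℚ] AlgebraicClosure ℚ

namespace FA.JZeroInertia

variable {p : ℕ} [hp : Fact p.Prime] [NeZero p] {A : ValuationSubring Qb} {c : JZero p}

/-- A toric class of the order `M ^ (n + 1)` killed by `M` is displaced at that order. -/
theorem toric_killed_displaced (hA : A.LiesOverPrime p) {M : ℕ} (hM : M.Coprime (6 * p))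
    (hord : addOrderOf c = eisensteinNumerator p) (hrat : ∀ σ : GQ, σ • c = c)
    {T : AddSubgroup (JZero p)}
    (hT : CuspToric p (M ^ (eisensteinNumerator p + 1)) c A T) {s : GQ}
    (hs : s ∈ A.inertiaSubgroupIn ℚ)
    (hgen : ∀ τ ∈ A.inertiaSubgroupIn ℚ, ∃ i : ℕ, ∀ y : JZero p,
      M ^ (eisensteinNumerator p + 1) • y = 0 → τ • y = s ^ i • y)
    {x : JZero p} (hx : x ∈ T) (hMx : M • x = 0) :
    ∃ y : JZero p, M ^ (eisensteinNumerator p + 1) • y = 0 ∧ x = s • y - y := by
  set n := eisensteinNumerator p with hn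
  have hK : (M * M ^ n).Coprime (6 * p) := by
    rw [← pow_succ']; exact Nat.Coprime.pow_left _ hM
  have hT' : CuspToric p (M * M ^ n) c A T := by rwa [← pow_succ']
  obtain ⟨z, hz, hzx⟩ := exists_nsmul_eq_of_toric hA hK hord hrat hT' hx hMx
  obtain ⟨e, he⟩ := gcd_pow_succ_dvd (M := M) (numerator_ne_zero (p := p))
  obtain ⟨y, hy, hzy⟩ := exists_displaced_eq_gcd_nsmul hA (Nat.Coprime.pow_left _ hM) hT hs hgen
    (AddSubgroup.nsmul_mem _ hz e)
  exact ⟨y, hy, by rw [← hzy, ← mul_nsmul', ← hn, ← he, hzx]⟩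

/-- A class killed by `n` is fixed by multiplication by `p`. -/
theorem nsmul_level_eq_self {x : JZero p} (hx : eisensteinNumerator p • x = 0) : p • x = x := by
  obtain ⟨e, he⟩ := numerator_dvd (p := p)
  calc p • x = (p - 1 + 1) • x := by rw [Nat.sub_add_cancel hp.out.one_le]
    _ = x := by rw [succ_nsmul, he, mul_nsmul, hx, nsmul_zero, zero_add]

/-- **`U_p = 1` on the multiples of the cuspidal class of order prime to `6 p`.** -/
theorem upJ_cusp_multiple (hA : A.LiesOverPrime p) {M : ℕ} (hM : M.Coprime (6 * p))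
    (hord : addOrderOf c = eisensteinNumerator p) (hrat : ∀ σ : GQ, σ • c = c)
    {T : AddSubgroup (JZero p)} (hT : CuspToric p (M ^ (eisensteinNumerator p + 1)) c A T) {t : ℕ}
    (ht : M • (t • c) = 0) : upJ p p (t • c) = t • c := by
  obtain ⟨s, hs, hgen⟩ := exists_inertia_gen hA (M ^ (eisensteinNumerator p + 1))
    (Nat.Coprime.pow_left _ hM)
  obtain ⟨σ, hσ⟩ := FA.Deform.exists_isFrobeniusAt hp.out hA
  have hK : M ^ (eisensteinNumerator p + 1) • (t • c) = 0 := by
    rw [pow_succ', mul_nsmul, ht, nsmul_zero]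
  have hrt : ∀ ρ : GQ, ρ • (t • c) = t • c := fun ρ => by rw [smul_nsmul_comm, hrat]
  have hM0 : M ≠ 0 := ne_zero_of_coprime_six_mul hM
  set u := upJ p p (t • c) - t • c with hu
  have huT : u ∈ T := hT.2.2.2.2.2.1 _ (mem_fixI.2 ⟨hK, fun τ _ => hrt τ⟩)
  have hMu : M • u = 0 := by rw [hu, nsmul_sub, ← map_nsmul, ht, map_zero, sub_zero]
  obtain ⟨y, hy, huy⟩ := toric_killed_displaced hA hM hord hrat hT hs hgen huT hMu
  have hσu : σ • u = u := by rw [hu, smul_sub, ← upJ_galois, hrt]
  have hUu : upJ p p u = -u := by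
    rw [hu, map_sub, show upJ p p (upJ p p (t • c)) = t • c from heckeLvl_sq hM0 ht, neg_sub]
  have h1 : σ • u = p • upJ p p u := by
    rw [huy]
    exact frobenius_displaced hA hσ hs
      (not_dvd_of_coprime_six_mul (Nat.Coprime.pow_left _ hM)) hy
  have hnu : eisensteinNumerator p • u = 0 := by
    rw [hu, nsmul_sub, ← map_nsmul, smul_comm, ← hord, addOrderOf_nsmul_eq_zero, nsmul_zero,
      map_zero, sub_zero]
  rw [hσu, hUu, nsmul_level_eq_self (by rw [neg_nsmul, hnu, neg_zero])] at h1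
  have h2 : 2 • u = 0 := by rw [two_nsmul]; nth_rw 2 [h1]; rw [add_neg_cancel]
  have h2M : Nat.gcd 2 M = 1 :=
    (Nat.Coprime.coprime_dvd_right ((by norm_num : 2 ∣ 6).trans (dvd_mul_right 6 p)) hM).symm
  exact sub_eq_zero.1 (show u = 0 from AddMonoid.addOrderOf_eq_one_iff.1
    (Nat.eq_one_of_dvd_coprimes h2M (addOrderOf_dvd_of_nsmul_eq_zero h2)
      (addOrderOf_dvd_of_nsmul_eq_zero hMu)))

theorem frobenius_fixed_all (hA : A.LiesOverPrime p) {σ : GQ} (hσ : A.IsFrobeniusAt σ p) {M : ℕ}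
    (hM : M.Coprime (6 * p)) {x : JZero p} (hx : x ∈ fixI p M A) :
    σ • x = p • upJ p p x := by
  obtain ⟨hMx, hfix⟩ := mem_fixI.1 hx
  rcases lt_or_ge p 5 with hp4 | hp5
  · refine FA.FrobeniusJZero.Summary.frobenius_on_fixed ?_ hA hσ x hMx hfix
    have hn : eisensteinNumerator p = 1 := by
      have h2 := hp.out.two_le
      interval_cases p
      · decide
      · decide
      · exact absurd hp.out (by decide)
    rw [hn, mul_one]
    exact hM
  obtain ⟨c, hord, hrat, h⟩ := exists_cuspToric hp5 hA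
  have hK := Nat.Coprime.pow_left (eisensteinNumerator p + 1) hM
  obtain ⟨T, hT⟩ := h _ hK
  obtain ⟨s, hs, hgen⟩ := exists_inertia_gen hA _ hK
  have hxK : x ∈ fixI p (M ^ (eisensteinNumerator p + 1)) A :=
    mem_fixI.2 ⟨by rw [pow_succ', mul_nsmul, hMx, nsmul_zero], hfix⟩
  obtain ⟨t, ht⟩ := hT.2.2.2.2.1 x hxK
  have htM : M • (t • c) = 0 := by
    rw [← mul_nsmul']
    refine hT.2.2.2.1 _ ?_
    have h1 := AddSubgroup.nsmul_mem _ ht M
    rw [nsmul_sub, hMx, zero_sub, neg_mem_iff] at h1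
    rwa [mul_nsmul']
  have hMy : M • (x - t • c) = 0 := by rw [nsmul_sub, hMx, htM, sub_zero]
  obtain ⟨y, hy, hyx⟩ := toric_killed_displaced hA hM hord hrat hT hs hgen ht hMy
  rw [← sub_add_cancel x (t • c), smul_add, map_add, nsmul_add]
  congr 1
  · rw [hyx]
    exact frobenius_displaced hA hσ hs (not_dvd_of_coprime_six_mul hK) hy
  · rw [upJ_cusp_multiple hA hM hord hrat hT htM, smul_nsmul_comm, hrat, nsmul_level_eq_self (by
      rw [smul_comm, ← hord, addOrderOf_nsmul_eq_zero, nsmul_zero])]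

end FA.JZeroInertia
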