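import Fermat.Agent.JZeroInertia.ToricCount

/-!
# The orders at the crossings of a fixed class killed by `l ^ k`

They lie on one line and `T_ℓ` multiplies them by `ℓ + 1`, as modulo `l`. With this the classes of
a subgroup of fixed classes whose multiples by `d` are toric are at most `d` times the toric ones.
-/

set_option autoImplicit false
set_option linter.style.haveILetI false
set_option linter.unusedSectionVars false
set_option synthInstance.maxHeartbeats 400000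
set_option maxHeartbeats 1600000

noncomputable section

namespace FA.JZeroInertia

open ModularCurve AlgebraicCurve FA.Curve FA.CurveRed FA.JTorsion FA.Level FA.LocalDef FA.ModField

local notation "Qb" => AlgebraicClosure ℚ

variable [Algebra Qb ℂ] (M q : ℕ) [NeZero M] [hq : Fact q.Prime] [hq0 : NeZero q]
variable (A : ValuationSubring Qb) [IsAlgClosed (IsLocalRing.ResidueField A)]
  [CharP (IsLocalRing.ResidueField A) q] (hA : A.LiesOverPrime q) (hqM : ¬ q ∣ M)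
  (harch : ∀ c : Qb, c ≠ 0 → ∃ m : ℕ, A.valuation ((q : Qb) ^ m) < A.valuation c)
variable (l : ℕ) [hl : Fact l.Prime] [NeZero l] (hqp : q ≠ l) (hM : M = 1)

local notation "kA" => IsLocalRing.ResidueField A
local notation "πA" => IsLocalRing.residue A
local notation "Fl" => levelField (M * q) Qb
local notation "Fb" => modularFunctionFieldFullC (IsLocalRing.ResidueField A) M
local notation "rI" => redTorInf M q A πA IsLocalRing.residue_surjective residueAt_eq_zero hqM harch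

/-- `κ` gives the orders at the crossings of `∞` of a class killed by `l ^ k`. -/
def HasKappaN (U : (theFibre M q A hqM harch).UnitDatum (q : Qb)) (k : ℕ)
    (z : ModN (M * q) (∅ : Set ℕ) (l ^ k)) (κ : ℤ) : Prop :=
  ∀ s, (U.Δ : ZMod (l ^ k)) * brN M q A hqM harch l k z s = ((U.δ s : ℤ) * κ : ℤ)

include hA in
theorem hasKappaN_of_fixed (U : (theFibre M q A hqM harch).UnitDatum (q : Qb))
    (hU : ∀ S ∈ inertAuts M q A, S • U.u = U.u) {k : ℕ} {z : ModN (M * q) (∅ : Set ℕ) (l ^ k)}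
    {D : Divisor.degZero (K := Qb) (F := Fl)} {g : Fl}
    (hD : Pic0.mk D = (torsCls M q l k z : Pic0 Qb Fl)) (hg : g ≠ 0)
    (hgD : ∀ P, ((l ^ k : ℕ) : ℤ) * (D : Divisor Qb Fl) P = P.ord g)
    (hfix : ∀ S ∈ inertAuts M q A, S • g = g)
    {c : Fin 2 → Qb} {gg : Fin 2 → Fl} {r : Fin 2 → Fb}
    (hfg : ∀ i, g = algebraMap Qb Fl (c i) * gg i)
    (h0 : (cInf M q A πA IsLocalRing.residue_surjective residueAt_eq_zero hqM harch).Red
      (gg 0) (r 0))
    (h1 : (cZero M q A πA IsLocalRing.residue_surjective residueAt_eq_zero hqM harch).Red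
      (gg 1) (r 1))
    (hr0 : ∀ i, r i ≠ 0) {κ : ℤ}
    (hκ : A.valuation (c 1) = A.valuation (q : Qb) ^ κ * A.valuation (c 0)) :
    HasKappaN M q A hqM harch l U k z κ := by
  intro s
  have hc : ∀ i, c i ≠ 0 := fun i h => hg (by rw [hfg i, h, map_zero, zero_mul])
  have hr : ∀ i, ((X0.joint M q A πA IsLocalRing.residue_surjective residueAt_eq_zero hqM
      harch).C i).Red (gg i) (r i) := Fin.forall_fin_two.2 ⟨h0, h1⟩
  have hp0 : ((l ^ k : ℕ) : ℤ) ≠ 0 := Int.natCast_ne_zero.2 (pow_ne_zero _ hl.out.ne_zero)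
  have hDS : ∀ S ∈ inertAuts M q A, ∀ P,
      (D : Divisor Qb Fl) (S • P) = (D : Divisor Qb Fl) P := fun S hS P => by
    refine mul_left_cancel₀ hp0 ?_
    rw [hgD, hgD]
    conv_lhs => rw [← hfix S hS]
    exact SemilinearAut.ord_smul S P g
  obtain ⟨-, e2⟩ := FibreHyp.branch_ord_relation
    (X0.connected M q A πA IsLocalRing.residue_surjective residueAt_eq_zero hqM harch) U
    (inertAuts M q A) (fun S hS => induced_inert M q A hA hqM harch hS)
    (fun S hS => inertAuts_inv M q A hS)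
    (fun a ha hf => exists_zpow_of_fixed M q A hA ha hf)
    (Nat.cast_ne_zero.2 hq.out.ne_zero) hU (p := l ^ k) (D : Divisor Qb Fl) hDS hg
    (fun P => (hgD P).symm) hfg hr hr0 hκ s
  have a0 : rI (l ^ k) (torsCls M q l k z) = redCls (l ^ k) (r 0) := by
    rw [redTorInf, redTor_mk (l ^ k) _ _ _ hD hg hgD,
      redFn_eq (l ^ k) (hc 0) (hfg 0) h0 (hr0 0)]
  rw [← ZMod.intCast_zmod_eq_zero_iff_dvd] at e2
  rw [brN_apply, a0, ordMod_redCls _ _ (hr0 0)]
  push_cast at e2 ⊢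
  exact (sub_eq_zero.1 e2).symm

include hA hqp in
/-- **The orders of a fixed class and of its images.** -/
theorem exists_kappaN (U : (theFibre M q A hqM harch).UnitDatum (q : Qb))
    (hU : ∀ S ∈ inertAuts M q A, S • U.u = U.u) {k : ℕ} {z : ModN (M * q) (∅ : Set ℕ) (l ^ k)}
    (hz : ∀ σ ∈ A.inertiaSubgroupIn ℚ, galMod (M * q) (∅ : Set ℕ) (l ^ k) σ z = z) :
    ∃ κ : ℤ, HasKappaN M q A hqM harch l U k z κ ∧
      ∀ (ℓ : ℕ) (hℓ : ℓ.Prime) (hℓN : ¬ ℓ ∣ M * q), HasKappaN M q A hqM harch l U k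
        (CuspForm.heckeAlgebra.T (k := 2) hℓ hℓN (Set.notMem_empty ℓ) • z)
        ((ℓ + 1 : ℕ) * κ) := by
  haveI : NeZero (l ^ k) := ⟨pow_ne_zero _ hl.out.ne_zero⟩
  have hF := isFunctionField_level Qb (M * q)
  have hlift := infinite_fix M q A hA hqM harch
  obtain ⟨D₀, hD₀⟩ := Pic0.mk_surjective (torsCls M q l k z : Pic0 Qb Fl)
  obtain ⟨O, -, hO⟩ := SemiFibre.exists_fixed_place hF hlift (1 : Fl)
  obtain ⟨D, hD, hDfix⟩ := exists_fixed_rep hF (inertAuts M q A) hO D₀ (by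
    rintro _ ⟨σ, hσ, rfl⟩
    rw [hD₀, ← SemilinearAut.coe_torsion_smul, ← torsCls_galMod, hz σ hσ])
  rw [hD₀] at hD
  obtain ⟨g₀, hg₀, hgD₀⟩ : ∃ g : Fl, g ≠ 0 ∧
      ∀ P, ((l ^ k : ℕ) : ℤ) * (D : Divisor Qb Fl) P = P.ord g := by
    have h : Pic0.mk (((l ^ k : ℕ) : ℤ) • D) = 0 := by
      have := Pic0.mem_torsion.1 (torsCls M q l k z).2
      rw [← hD] at this
      exact this
    rw [Pic0.mk, QuotientAddGroup.eq_zero_iff, AddSubgroup.mem_addSubgroupOf] at h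
    obtain ⟨g, hg, hgD⟩ := h
    exact ⟨g, hg, fun P => by simpa using hgD P⟩
  obtain ⟨P₁, hP₁0, hP₁⟩ := SemiFibre.exists_fixed_place hF hlift g₀
  obtain ⟨e, he, hfix⟩ := exists_fixed_fn hF (inertAuts M q A) hg₀
    (fun S hS P => by rw [← hgD₀, ← hgD₀, hDfix S hS P]) hP₁ hP₁0
  set g := algebraMap Qb Fl e * g₀
  have hg : g ≠ 0 := mul_ne_zero (by simpa using he) hg₀
  have hgD : ∀ P, ((l ^ k : ℕ) : ℤ) * (D : Divisor Qb Fl) P = P.ord g := fun P => by
    rw [P.ord_mul (by simpa using he) hg₀, place_ord_algebraMap, zero_add, hgD₀]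
  obtain ⟨c0, g0, r0, hc0, e0, hg0, hr0⟩ := exists_scaled
    (scaled_cInf M q A πA IsLocalRing.residue_surjective residueAt_eq_zero hqM harch) hg
  obtain ⟨c1, g1, r1, hc1, e1, hg1, hr1⟩ := exists_scaled
    (scaled_cZero M q A πA IsLocalRing.residue_surjective residueAt_eq_zero hqM harch) hg
  obtain ⟨a0, ha0, ha0f, ha0v⟩ := SemiFibre.exists_fixed_scale hF (fun _ : Fin 2 =>
    isFunctionField_fullC kA M) hlift (i := 0) e0 hg0 hr0 hc0 hfix
  obtain ⟨a1, ha1, ha1f, ha1v⟩ := SemiFibre.exists_fixed_scale hF (fun _ : Fin 2 =>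
    isFunctionField_fullC kA M) hlift (i := 1) e1 hg1 hr1 hc1 hfix
  obtain ⟨m0, hm0⟩ := exists_zpow_of_fixed M q A hA ha0 ha0f
  obtain ⟨m1, hm1⟩ := exists_zpow_of_fixed M q A hA ha1 ha1f
  have hv0 : A.valuation (q : Qb) ≠ 0 :=
    (Valuation.ne_zero_iff _).2 (Nat.cast_ne_zero.2 hq.out.ne_zero)
  have hκ : A.valuation c1 = A.valuation (q : Qb) ^ (m1 - m0) * A.valuation c0 := by
    rw [← ha0v, ← ha1v, hm0, hm1, ← zpow_add₀ hv0, sub_add_cancel]
  refine ⟨m1 - m0, hasKappaN_of_fixed M q A hA hqM harch l U hU hD hg hgD hfix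
    (c := ![c0, c1]) (gg := ![g0, g1]) (r := ![r0, r1]) (Fin.forall_fin_two.2 ⟨e0, e1⟩) hg0 hg1
    (Fin.forall_fin_two.2 ⟨hr0, hr1⟩) hκ, fun ℓ hℓ hℓN => ?_⟩
  haveI : Fact ℓ.Prime := ⟨hℓ⟩
  haveI : NeZero ℓ := ⟨hℓ.ne_zero⟩
  obtain ⟨D', hD', hng, hngD⟩ := exists_repr_T (M * q) ℓ (torsCls M q l k z)
    (torsCls M q l k (CuspForm.heckeAlgebra.T (k := 2) hℓ hℓN (Set.notMem_empty ℓ) • z))
    (torsN_T_smul (M * q) (l ^ k) hℓ hℓN z) hD hg hgD
  obtain ⟨r0', hr0', hR0⟩ :=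
    cInf_normT M q A πA IsLocalRing.residue_surjective residueAt_eq_zero hqM harch ℓ hℓN hg0
  obtain ⟨r1', hr1', hR1⟩ :=
    cZero_normT M q A πA IsLocalRing.residue_surjective residueAt_eq_zero hqM harch ℓ hℓN hg1
  have hn : ∀ (c : Qb) (f : Fl), g = algebraMap Qb Fl c * f →
      normT (M * q) ℓ Qb g = algebraMap Qb Fl (c ^ (ℓ + 1)) * normT (M * q) ℓ Qb f := by
    intro c f h
    rw [h, normT_mul, normT_algebraMap (M * q) ℓ hℓN]
  refine hasKappaN_of_fixed M q A hA hqM harch l U hU hD' hng hngD ?_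
    (c := ![c0 ^ (ℓ + 1), c1 ^ (ℓ + 1)]) (gg := ![normT (M * q) ℓ Qb g0, normT (M * q) ℓ Qb g1])
    (r := ![r0', r1']) (Fin.forall_fin_two.2 ⟨hn _ _ e0, hn _ _ e1⟩) hr0' hr1'
    (Fin.forall_fin_two.2 ⟨hR0.ne_zero hr0, hR1.ne_zero hr1⟩) ?_
  · rintro _ ⟨σ, hσ, rfl⟩
    have hℓq : ℓ ≠ q := fun h => hℓN (h ▸ dvd_mul_left q M)
    rw [← normT_gal (M * q) ℓ Qb hℓN σ (inertia_fix_root q A hA l hqp hℓq hσ) g]
    exact congrArg _ (hfix _ ⟨σ, hσ, rfl⟩)
  · show A.valuation (c1 ^ (ℓ + 1)) = _ * A.valuation (c0 ^ (ℓ + 1))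
    rw [map_pow, map_pow, hκ, mul_pow, ← zpow_natCast (A.valuation (q : Qb) ^ (m1 - m0)),
      ← zpow_mul, mul_comm (m1 - m0)]

theorem isUnit_cast_of_not_dvd {k Δ : ℕ} (h : ¬ l ∣ Δ) : IsUnit (Δ : ZMod (l ^ k)) := by
  rw [ZMod.isUnit_iff_coprime]
  exact Nat.Coprime.pow_right _ ((hl.out.coprime_iff_not_dvd.2 h).symm)

include hA hqp in
/-- **`T_ℓ` multiplies the orders by `ℓ + 1`.** -/
theorem brN_T (U : (theFibre M q A hqM harch).UnitDatum (q : Qb))
    (hU : ∀ S ∈ inertAuts M q A, S • U.u = U.u) (hΔ : ¬ l ∣ U.Δ) {k : ℕ}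
    {z : ModN (M * q) (∅ : Set ℕ) (l ^ k)}
    (hz : ∀ σ ∈ A.inertiaSubgroupIn ℚ, galMod (M * q) (∅ : Set ℕ) (l ^ k) σ z = z)
    {ℓ : ℕ} (hℓ : ℓ.Prime) (hℓN : ¬ ℓ ∣ M * q) :
    brN M q A hqM harch l k (CuspForm.heckeAlgebra.T (k := 2) hℓ hℓN (Set.notMem_empty ℓ) • z) =
      (ℓ + 1) • brN M q A hqM harch l k z := by
  obtain ⟨κ, hκ, hT⟩ := exists_kappaN M q A hA hqM harch l hqp U hU hz
  funext t
  refine (isUnit_cast_of_not_dvd l hΔ).mul_left_cancel ?_
  rw [hT ℓ hℓ hℓN t, Pi.smul_apply, nsmul_eq_mul]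
  have h1 := hκ t
  push_cast at h1 ⊢
  linear_combination -((ℓ : ZMod (l ^ k)) + 1) * h1

include hA hqp in
/-- **They lie on one line.** -/
theorem brN_mem_span (U : (theFibre M q A hqM harch).UnitDatum (q : Qb))
    (hU : ∀ S ∈ inertAuts M q A, S • U.u = U.u) (hΔ : ¬ l ∣ U.Δ) {k : ℕ}
    {z : ModN (M * q) (∅ : Set ℕ) (l ^ k)}
    (hz : ∀ σ ∈ A.inertiaSubgroupIn ℚ, galMod (M * q) (∅ : Set ℕ) (l ^ k) σ z = z) :
    brN M q A hqM harch l k z ∈ AddSubgroup.zmultiples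
      (fun t => (U.δ t : ZMod (l ^ k)) * Ring.inverse (U.Δ : ZMod (l ^ k))) := by
  obtain ⟨κ, hκ, -⟩ := exists_kappaN M q A hA hqM harch l hqp U hU hz
  refine ⟨κ, funext fun t => ?_⟩
  have hD := isUnit_cast_of_not_dvd (k := k) l hΔ
  refine hD.mul_left_cancel ?_
  rw [hκ t]
  show (U.Δ : ZMod (l ^ k)) * (κ • ((U.δ t : ZMod (l ^ k)) * Ring.inverse (U.Δ : ZMod (l ^ k)))) = _
  rw [zsmul_eq_mul]
  push_cast
  linear_combination ((U.δ t : ZMod (l ^ k)) * κ) * (Ring.mul_inverse_cancel _ hD)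

theorem brN_eq_zero_of_mem {k : ℕ} {z : ModN (M * q) (∅ : Set ℕ) (l ^ k)}
    (hz : z ∈ toricN M q A hqM harch l k) : brN M q A hqM harch l k z = 0 := funext fun s => by
  have h : rI (l ^ k) (torsCls M q l k z) = 0 := hz.1
  rw [brN_apply, h, map_zero]
  rfl

include hA hqp hM in
/-- Fixed classes with toric multiples by `d` are at most `d` times the toric ones. -/
theorem card_le_mul_toricN (U : (theFibre M q A hqM harch).UnitDatum (q : Qb))
    (hU : ∀ S ∈ inertAuts M q A, S • U.u = U.u) (hΔ : ¬ l ∣ U.Δ) {k d : ℕ} (hd : 0 < d)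
    (G : AddSubgroup (ModN (M * q) (∅ : Set ℕ) (l ^ k)))
    (hG : ∀ z ∈ G, ∀ σ ∈ A.inertiaSubgroupIn ℚ, galMod (M * q) (∅ : Set ℕ) (l ^ k) σ z = z)
    (hdG : ∀ z ∈ G, d • z ∈ toricN M q A hqM harch l k) :
    Nat.card G ≤ d * Nat.card (toricN M q A hqM harch l k) := by
  classical
  haveI : NeZero (l ^ k) := ⟨pow_ne_zero _ hl.out.ne_zero⟩
  haveI := (card_modN (M * q) (l ^ k)).1
  set v := fun t => (U.δ t : ZMod (l ^ k)) * Ring.inverse (U.Δ : ZMod (l ^ k))
  let φ := (brN M q A hqM harch l k).comp G.subtype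
  have hle : φ.range ≤ AddSubgroup.zmultiples v := by
    rintro _ ⟨⟨z, hz⟩, rfl⟩
    exact brN_mem_span M q A hA hqM harch l hqp U hU hΔ (hG z hz)
  haveI : IsAddCyclic φ.range :=
    isAddCyclic_of_injective (AddSubgroup.inclusion hle) (AddSubgroup.inclusion_injective hle)
  have hker : Nat.card φ.ker ≤ Nat.card (toricN M q A hqM harch l k) :=
    Nat.card_le_card_of_injective (fun z => (⟨z.1.1, mem_toricN_of_brN M q A hA hqM harch l hqp hM U
      fun s => congrFun z.2 s⟩ : toricN M q A hqM harch l k))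
      fun a b h => Subtype.ext (Subtype.ext (congrArg Subtype.val h :))
  have hrange : Nat.card φ.range ≤ d := by
    obtain ⟨g, hg⟩ := IsAddCyclic.exists_generator (α := φ.range)
    rw [← addOrderOf_eq_card_of_forall_mem_zmultiples hg]
    refine Nat.le_of_dvd hd (addOrderOf_dvd_of_nsmul_eq_zero (Subtype.ext ?_))
    obtain ⟨⟨z, hz⟩, hzg⟩ := g.2
    rw [AddSubmonoidClass.coe_nsmul, ZeroMemClass.coe_zero, ← hzg, ← map_nsmul]
    exact brN_eq_zero_of_mem M q A hqM harch l (hdG z hz)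
  rw [AddSubgroup.card_eq_card_quotient_mul_card_addSubgroup φ.ker,
    Nat.card_congr (QuotientAddGroup.quotientKerEquivRange φ).toEquiv]
  exact Nat.mul_le_mul hrange hker

include hA hqp in
/-- **At most `l ^ (k g)` toric classes.** -/
theorem card_toricN_le (k : ℕ) : Nat.card (toricN M q A hqM harch l k) ≤
    (l ^ k) ^ Module.finrank ℂ (CuspForm (CongruenceSubgroup.Gamma0 (M * q)) 2) := by
  haveI : NeZero (l ^ k) := ⟨pow_ne_zero _ hl.out.ne_zero⟩
  obtain ⟨hfin, hcard⟩ := (theFibre M q A hqM harch).card_toricKer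
    (X0.connected M q A πA IsLocalRing.residue_surjective residueAt_eq_zero hqM harch)
    (valuation_natCast_of_red A πA residueAt_eq_zero (natCast_pow_ne_zero q A l hqp k))
  haveI := hfin
  let g : toricN M q A hqM harch l k →
      (theSemi M q A hqM harch).toricKer (isFunctionField_level Qb (M * q)) (l ^ k) := fun z =>
    ⟨torsCls M q l k z.1, by
      rw [SemiFibre.mem_toricKer, Fin.forall_fin_two]
      exact ⟨z.2.1, z.2.2⟩⟩
  refine ((Nat.card_le_card_of_injective g fun a b h => Subtype.ext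
    (toTors_injective (M * q) (∅ : Set ℕ) (l ^ k) (congrArg Subtype.val (congrArg Subtype.val h)))).trans
      hcard).trans (Nat.pow_le_pow_right (NeZero.pos _) ?_)
  have := genus_count M q A hqM harch
  omega

end FA.JZeroInertia
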