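import Fermat.Agent.JZeroInertia.Fixed
import Fermat.Agent.ModField.Semistable.Mono.Eta.Datum
import Fermat.Agent.EisReducible.AtLevel

/-!
# Inertia at the level on `J₀(p)[l]`

For primes `p` and `l ≥ 5`, `l ≠ p`, `l` not dividing the numerator of `(p - 1) / 12`.
-/

set_option autoImplicit false
set_option linter.style.haveILetI false
set_option linter.unusedSectionVars false
set_option synthInstance.maxHeartbeats 400000
set_option maxHeartbeats 1000000

noncomputable section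

open ModularCurve FA.Mazur FA.JTorsion FA.ModField

local notation "Qb" => AlgebraicClosure ℚ
local notation "GQ" => AlgebraicClosure ℚ ≃ₐ[ℚ] AlgebraicClosure ℚ

namespace FA.JZeroInertia

variable {p : ℕ} [hp : Fact p.Prime] {l : ℕ} [hl : Fact l.Prime]

/-- A system with the values `r + 1` at the good primes forces `l` to divide the numerator. -/
theorem dvd_numerator_of_values (h5 : 5 ≤ l) (hlp : l ≠ p) {k : Type} [Field k] [CharP k l]
    (θ : TAlg p →+* k)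
    (hθ : ∀ (r : ℕ) (hr : r.Prime) (hrp : ¬ r ∣ p),
      θ (CuspForm.heckeAlgebra.T (k := 2) hr hrp (Set.notMem_empty r)) = ((r + 1 : ℕ) : k)) :
    l ∣ eisensteinNumerator p := by
  have heis : ∀ q : Nat.Primes, (q : ℕ) ≠ p → θ (tGen p q) = 1 + ((q : ℕ) : k) := fun q hq => by
    have hqp : ¬ (q : ℕ) ∣ p := fun h => hq ((Nat.prime_dvd_prime_iff_eq q.2 hp.out).1 h)
    rw [show tGen p q = CuspForm.heckeAlgebra.T (k := 2) q.2 hqp (Set.notMem_empty _) from
      CuspForm.heckeEvalForms_heckeGen_of_not_dvd hqp, hθ, Nat.cast_add, Nat.cast_one, add_comm]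
  refine FA.EisReducible.dvd_of_eisenstein_system θ fun q => ?_
  split_ifs with h
  · rw [show q = ⟨p, hp.out⟩ from Subtype.ext h,
      FA.EisReducible.value_at_level_eq_one h5 hlp θ heis]
  · exact heis q h

variable [Algebra Qb ℂ]

/-- The statement at a level `N` with a marked operator. -/
def LevelShape (p l : ℕ) [NeZero l] (N : ℕ) [NeZero N] (u : HFull N) (A : ValuationSubring Qb)
    (s : GQ) : Prop :=
  (∀ z : ModN N (∅ : Set ℕ) l, galMod N (∅ : Set ℕ) l s z = z →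
    (∀ σ ∈ A.inertiaSubgroupIn ℚ, galMod N (∅ : Set ℕ) l σ z = z) ∧
    (∃ w, galMod N (∅ : Set ℕ) l s w - w = z) ∧
    ∀ σ : GQ, A.IsFrobeniusAt σ p → galMod N (∅ : Set ℕ) l σ z = p • (u • z)) ∧
  (∀ σ : GQ, A.IsFrobeniusAt σ p → ∀ w, galMod N (∅ : Set ℕ) l s
    (galMod N (∅ : Set ℕ) l σ w - u • w) = galMod N (∅ : Set ℕ) l σ w - u • w) ∧
  (∀ w, galMod N (∅ : Set ℕ) l s (galMod N (∅ : Set ℕ) l s w - w) =
    galMod N (∅ : Set ℕ) l s w - w) ∧
  Nat.card {z : ModN N (∅ : Set ℕ) l // galMod N (∅ : Set ℕ) l s z = z} =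
    l ^ Module.finrank ℂ (CuspForm (CongruenceSubgroup.Gamma0 N) 2)

theorem levelShape_mul [NeZero l] (h5 : 5 ≤ l) (hlp : l ≠ p)
    (hn : ¬ l ∣ eisensteinNumerator p) (N : ℕ) [NeZero N] (hN : N = 1 * p)
    {A : ValuationSubring Qb} (hA : A.LiesOverPrime p) {s : GQ} (hs : IsTameGen l A s) :
    LevelShape p l N (CuspForm.heckeEvalForms N 2 (heckeGen ⟨p, hp.out⟩)) A s := by
  subst hN
  haveI : NeZero p := ⟨hp.out.ne_zero⟩
  haveI : Algebra.IsAlgebraic ℚ Qb := AlgebraicClosure.isAlgebraic ℚ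
  haveI : IsAlgClosed (IsLocalRing.ResidueField A) := FA.Frob.residueField_isAlgClosed A
  haveI : CharP (IsLocalRing.ResidueField A) p := residueAt_charP hA
  have hqM : ¬ p ∣ 1 := hp.out.not_dvd_one
  have harch : ∀ c : Qb, c ≠ 0 → ∃ m : ℕ, A.valuation ((p : Qb) ^ m) < A.valuation c :=
    fun c hc => exists_pow_lt_valuation hp.out hA c hc
  have hqp : p ≠ l := Ne.symm hlp
  obtain ⟨w, m, r, hr0, hr, h, h', hw, hpw⟩ :=
    exists_adm (M := 1) hp.out hl.out hqp (Or.inl h5)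
  haveI : NeZero r := ⟨hr0⟩
  obtain ⟨U, hΔ, hu⟩ := exists_unitDatum 1 p A hqM harch hr h h' hw
  have hU : ∀ S ∈ inertAuts 1 p A, S • U.u = U.u := by
    rintro T ⟨σ, -, rfl⟩
    rw [hu]
    exact galAut_etaElt 1 p h σ
  have hEis : ∀ (k : Type) [Field k] [CharP k l] (θ : HFull (1 * p) →+* k),
      ∃ (ℓ : ℕ) (hℓ : ℓ.Prime) (hℓN : ¬ ℓ ∣ 1 * p),
        θ (CuspForm.heckeAlgebra.T (k := 2) hℓ hℓN (Set.notMem_empty ℓ)) ≠ ((ℓ + 1 : ℕ) : k) := by
    suffices key : ∀ (N : ℕ) [NeZero N], N = p → ∀ (k : Type) [Field k] [CharP k l]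
        (θ : HFull N →+* k), ∃ (ℓ : ℕ) (hℓ : ℓ.Prime) (hℓN : ¬ ℓ ∣ N),
          θ (CuspForm.heckeAlgebra.T (k := 2) hℓ hℓN (Set.notMem_empty ℓ)) ≠ ((ℓ + 1 : ℕ) : k) by
      exact key (1 * p) (one_mul p)
    rintro N _ rfl k _ _ θ
    by_contra hcon
    push Not at hcon
    exact hn (dvd_numerator_of_values h5 hlp θ hcon)
  have hΔ' : ¬ l ∣ U.Δ := hΔ ▸ hpw
  obtain ⟨hker, hrange, hcard⟩ :=
    ker_eq_range 1 p A hA hqM harch U hU l hqp rfl hEis hΔ' hs
  refine ⟨fun z hz => ⟨fun σ hσ => galMod_fixed 1 p l hqp hqM hA hs hz hσ, ?_, fun σ hσ => ?_⟩,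
    fun σ hσ w => ?_, fun w => ?_, ?_⟩
  · have hz' : z ∈ (galSub (1 * p) l s).range := by
      rw [hrange, ← hker]
      exact sub_eq_zero.2 hz
    obtain ⟨w, hw⟩ := hz'
    exact ⟨w, hw⟩
  · rw [CuspForm.heckeEvalForms_heckeGen_of_dvd (q := ⟨p, hp.out⟩) (dvd_mul_left p 1)]
    exact frobenius_fixed 1 p A hA hqM harch U hU l hqp rfl hEis hΔ' hs hσ (sub_eq_zero.2 hz)
  · rw [CuspForm.heckeEvalForms_heckeGen_of_dvd (q := ⟨p, hp.out⟩) (dvd_mul_left p 1)]
    exact galMod_toricSub 1 p A hA hqM harch l hqp hs.1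
      (frobenius_sub_mem 1 p A hA hqM harch l rfl hσ w)
  · have h1 : galSub (1 * p) l s w ∈ (galSub (1 * p) l s).ker := by
      rw [hker, ← hrange]
      exact ⟨w, rfl⟩
    exact sub_eq_zero.1 h1
  · rw [← hcard, ← hker]
    exact Nat.card_congr (Equiv.subtypeEquivRight fun z => sub_eq_zero.symm)

/-- **Inertia at the level on `J₀(p)[l]`.** -/
theorem levelShape [NeZero l] (h5 : 5 ≤ l) (hlp : l ≠ p) (hn : ¬ l ∣ eisensteinNumerator p)
    {A : ValuationSubring Qb} (hA : A.LiesOverPrime p) {s : GQ} (hs : IsTameGen l A s) :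
    LevelShape p l p (tGen p ⟨p, hp.out⟩) A s :=
  levelShape_mul h5 hlp hn p (one_mul p).symm hA hs

end FA.JZeroInertia
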