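import Fermat.Agent.JZeroInertia.Cuspidal
import Fermat.Agent.JZeroInertia.Level

/-!
# Inertia at the level on `J₀(p)[l]`, `l` dividing the numerator
-/

set_option autoImplicit false
set_option linter.style.haveILetI false
set_option linter.unusedSectionVars false
set_option synthInstance.maxHeartbeats 400000
set_option maxHeartbeats 1000000

noncomputable section

open ModularCurve FA.Mazur FA.JTorsion FA.ModField

local notation "Qb" => AlgebraicClosure ℚ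
local notation "GQ" => AlgebraicClosure ℚ ≃ₐ[ℚ] AlgebraicClosure ℚ

namespace FA.JZeroInertia

variable {p : ℕ} [hp : Fact p.Prime] {l : ℕ} [hl : Fact l.Prime] [Algebra Qb ℂ]

/-- The statement for `l` dividing the numerator. -/
def CuspShape (l : ℕ) [NeZero l] (N : ℕ) [NeZero N] (A : ValuationSubring Qb) (s : GQ) : Prop :=
  (∀ z : ModN N (∅ : Set ℕ) l, galMod N (∅ : Set ℕ) l s z = z →
    ∀ σ ∈ A.inertiaSubgroupIn ℚ, galMod N (∅ : Set ℕ) l σ z = z) ∧
  (∃ c : ModN N (∅ : Set ℕ) l, c ≠ 0 ∧ (∀ σ : GQ, galMod N (∅ : Set ℕ) l σ c = c) ∧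
    ∀ w, galMod N (∅ : Set ℕ) l s w - w ≠ c) ∧
  Nat.card {z : ModN N (∅ : Set ℕ) l // galMod N (∅ : Set ℕ) l s z = z} =
    l ^ (Module.finrank ℂ (CuspForm (CongruenceSubgroup.Gamma0 N) 2) + 1) ∧
  Nat.card (Set.range fun w : ModN N (∅ : Set ℕ) l => galMod N (∅ : Set ℕ) l s w - w) * l =
    l ^ Module.finrank ℂ (CuspForm (CongruenceSubgroup.Gamma0 N) 2)

theorem cuspShape_mul [NeZero l] (h5 : 5 ≤ l) (hlp : l ≠ p) (hn : l ∣ eisensteinNumerator p)
    (N : ℕ) [NeZero N] (hN : N = 1 * p) {A : ValuationSubring Qb} (hA : A.LiesOverPrime p) {s : GQ}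
    (hs : IsTameGen l A s) : CuspShape l N A s := by
  subst hN
  haveI : NeZero p := ⟨hp.out.ne_zero⟩
  haveI : Algebra.IsAlgebraic ℚ Qb := AlgebraicClosure.isAlgebraic ℚ
  haveI : IsAlgClosed (IsLocalRing.ResidueField A) := FA.Frob.residueField_isAlgClosed A
  haveI : CharP (IsLocalRing.ResidueField A) p := residueAt_charP hA
  have hqM : ¬ p ∣ 1 := hp.out.not_dvd_one
  have harch : ∀ c : Qb, c ≠ 0 → ∃ m : ℕ, A.valuation ((p : Qb) ^ m) < A.valuation c :=
    fun c hc => exists_pow_lt_valuation hp.out hA c hc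
  have hqp : p ≠ l := Ne.symm hlp
  obtain ⟨w, m, r, hr0, hr, h, h', hw, hpw⟩ :=
    exists_adm (M := 1) hp.out hl.out hqp (Or.inl h5)
  haveI : NeZero r := ⟨hr0⟩
  obtain ⟨U, hΔ, hu⟩ := exists_unitDatum 1 p A hqM harch hr h h' hw
  have hU : ∀ S ∈ inertAuts 1 p A, S • U.u = U.u := by
    rintro T ⟨σ, -, rfl⟩
    rw [hu]
    exact galAut_etaElt 1 p h σ
  have hΔ' : ¬ l ∣ U.Δ := hΔ ▸ hpw
  obtain ⟨c, hc, hcT⟩ := exists_cusp_not_toric p A hA hqM harch l h5 hn
  obtain ⟨-, hker, -, hrange⟩ := fixed_of_not_toric 1 p A hA hqM harch U hU l hqp rfl hΔ' hs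
    (sub_eq_zero.2 (hc s)) hcT
  refine ⟨fun z hz σ hσ => galMod_fixed 1 p l hqp hqM hA hs hz hσ,
    ⟨c, fun h => hcT (h ▸ zero_mem _), hc, fun w hw => hcT ?_⟩, ?_, ?_⟩
  · rw [← hw]
    exact galSub_range_le 1 p A hA hqM harch l hs.1 ⟨w, rfl⟩
  · rw [← hker]
    exact Nat.card_congr (Equiv.subtypeEquivRight fun z => sub_eq_zero.symm)
  · exact hrange

/-- **Inertia at the level on `J₀(p)[l]`, `l ∣ n`.** -/
theorem cuspShape [NeZero l] (h5 : 5 ≤ l) (hlp : l ≠ p) (hn : l ∣ eisensteinNumerator p)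
    {A : ValuationSubring Qb} (hA : A.LiesOverPrime p) {s : GQ} (hs : IsTameGen l A s) :
    CuspShape l p A s :=
  cuspShape_mul h5 hlp hn p (one_mul p).symm hA hs

end FA.JZeroInertia
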