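import Fermat.Agent.JZeroInertia.Level
import Fermat.Agent.WeightTwoOrdinary.NonSolvableTorsion
import Fermat.Agent.Root.SummaryPrimeLevelNumerator

/-!
# Representations of systems modulo `l` at level `p` are ramified at `p`

For `l ≥ 5`, `l ≠ p`, `l` not dividing the numerator of `(p - 1) / 12`, a tame generator at `p`
acts as a transvection. Hence the image is not solvable, and over the prime field it is everything.
-/

set_option autoImplicit false
set_option linter.style.haveILetI false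
set_option linter.unusedSectionVars false
set_option synthInstance.maxHeartbeats 400000
set_option maxHeartbeats 2000000

noncomputable section

open ModularCurve FA.Mazur FA.JTorsion FA.ModField FA.WeightTwoOrdinary FA.LocalDef
open scoped Matrix

local notation "Qb" => AlgebraicClosure ℚ
local notation "GQ" => AlgebraicClosure ℚ ≃ₐ[ℚ] AlgebraicClosure ℚ

namespace FA.JZeroInertia

variable {p : ℕ} [hp : Fact p.Prime] {l : ℕ} [hl : Fact l.Prime] {k : Type} [Field k] [CharP k l]

/-- A representation with the traces and determinants of a system modulo `l` away from `p l`. -/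
def IsSystemRepAway (l : ℕ) (θ : TAlg p →+* k) (r : GQ →* Matrix (Fin 2) (Fin 2) k) : Prop :=
  IsOpen (r.ker : Set GQ) ∧ ∀ q : Nat.Primes, (q : ℕ) ≠ p → (q : ℕ) ≠ l →
    ∀ A : ValuationSubring Qb, A.LiesOverPrime q → ∀ σ : GQ, A.IsFrobeniusAt σ q →
      (r σ).trace = θ (tGen p q) ∧ (r σ).det = ((q : ℕ) : k)

variable {θ : TAlg p →+* k} {r : GQ →* Matrix (Fin 2) (Fin 2) k}

theorem IsSystemRepAway.map (h : IsSystemRepAway l θ r) {K : Type} [Field K] (e : k →+* K) :
    IsSystemRepAway l (e.comp θ) (e.mapMatrix.toMonoidHom.comp r) := by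
  refine ⟨Subgroup.isOpen_mono (fun σ hσ => MonoidHom.mem_ker.2 ?_) h.1,
    fun q hqp hql A hA σ hσ => ?_⟩
  · show e.mapMatrix (r σ) = 1
    rw [MonoidHom.mem_ker.1 hσ, map_one]
  · obtain ⟨ht, hd⟩ := h.2 q hqp hql A hA σ hσ
    refine ⟨?_, ?_⟩
    · show ((r σ).map e).trace = e (θ (tGen p q))
      rw [← ht]
      exact (AddMonoidHom.map_trace e.toAddMonoidHom _).symm
    · show ((r σ).map e).det = _
      rw [← map_natCast e, ← hd]
      exact (e.map_det _).symm

/-- The determinant is the cyclotomic character. -/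
theorem IsSystemRepAway.det_eq (h : IsSystemRepAway l θ r) (σ : GQ) :
    (r σ).det = ((cycK l k σ : kˣ) : k) := by
  classical
  obtain ⟨L, hL, hLχ⟩ := exists_field_cycK l k
  have hcyc : IsOpen ((cycK l k).ker : Set GQ) := isOpen_ker_of_field (cycK l k) ⟨L, hL, hLχ⟩
  have hN : IsOpen ((r.ker ⊓ (cycK l k).ker : Subgroup GQ) : Set GQ) := by
    rw [Subgroup.coe_inf]
    exact h.1.inter hcyc
  exact FA.Density.forall_of_frobenius_pow _ hN
    (fun g => (r g).det = ((cycK l k g : kˣ) : k)) (fun g n hn hg => by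
      rw [map_mul, map_mul, MonoidHom.mem_ker.1 hn.1, MonoidHom.mem_ker.1 hn.2, mul_one, mul_one]
      exact hg) {p, l} (fun q hq hqS A hA τ hτ j => by
      rw [Finset.mem_insert, Finset.mem_singleton, not_or] at hqS
      rw [map_pow, map_pow, Matrix.det_pow, Units.val_pow_eq_pow_val,
        cycK_frobenius l k hq hqS.2 hA hτ, (h.2 ⟨q, hq⟩ hqS.1 hqS.2 A hA τ hτ).2]) σ

/-- No stable line. -/
theorem IsSystemRepAway.no_line (h : IsSystemRepAway l θ r) (h5 : 5 ≤ l) (hlp : l ≠ p)
    (hn : ¬ l ∣ eisensteinNumerator p) {v : Fin 2 → k} (hv : v ≠ 0) :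
    ∃ σ, ∀ c : k, r σ *ᵥ v ≠ c • v :=
  FA.Summary.prime_level_irreducible_of_not_dvd h5 hlp hn θ r h.1 h.2 v hv

/-- The image spans. -/
theorem IsSystemRepAway.span (h : IsSystemRepAway l θ r) (h5 : 5 ≤ l) (hlp : l ≠ p)
    (hn : ¬ l ∣ eisensteinNumerator p) : Submodule.span k (Set.range r) = ⊤ := by
  haveI : CharP (AlgebraicClosure k) l :=
    charP_of_injective_algebraMap (algebraMap k (AlgebraicClosure k)).injective l
  exact FA.Density.span_range_eq_top r (AlgebraicClosure k) fun v hv =>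
    (h.map (algebraMap k (AlgebraicClosure k))).no_line h5 hlp hn hv

section Module

variable {N : Type} [AddCommGroup N] [Module (TAlg p) N]

/-- **The matrices act on the compatible functionals.** -/
theorem IsSystemRepAway.exists_action (h : IsSystemRepAway l θ r) (h5 : 5 ≤ l) (hlp : l ≠ p)
    (hn : ¬ l ∣ eisensteinNumerator p) (γ : GQ →* Module.End (TAlg p) N)
    (hfield : ∃ L : IntermediateField ℚ Qb, FiniteDimensional ℚ L ∧
      ∀ σ : GQ, (∀ a ∈ L, σ a = a) → γ σ = 1)
    (hfrob : ∀ q : Nat.Primes, (q : ℕ) ≠ p → (q : ℕ) ≠ l →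
      ∀ A : ValuationSubring Qb, A.LiesOverPrime q → ∀ σ : GQ, A.IsFrobeniusAt σ q →
        γ σ + (q : ℕ) • γ σ⁻¹ = algebraMap (TAlg p) (Module.End (TAlg p) N) (tGen p q))
    [Nontrivial (compatDual (N := N) θ)] :
    ∃ Ψ : Matrix (Fin 2) (Fin 2) k →ₐ[k] Module.End k (compatDual (N := N) θ),
      Function.Injective Ψ ∧ ∀ g, Ψ ((r g)ᵀ) = compatAct θ γ g⁻¹ := by
  classical
  let r' : GQ →* Matrix (Fin 2) (Fin 2) k :=
    { toFun := fun g => (r g⁻¹)ᵀ
      map_one' := by rw [inv_one, map_one, Matrix.transpose_one]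
      map_mul' := fun g h => by rw [_root_.mul_inv_rev, map_mul, Matrix.transpose_mul] }
  set act := compatAct θ γ
  have hinv : ∀ {M : Type} [Monoid M] (f : GQ →* M) {η : GQ}, f η = 1 → f η⁻¹ = 1 :=
    fun f η h => by
      have h4 : f η⁻¹ * f η = 1 := by rw [← map_mul, inv_mul_cancel, map_one]
      rwa [h, mul_one] at h4
  have hrel0 : ∀ g, act g⁻¹ + (r g).det • act g = (r g).trace • 1 := by
    obtain ⟨L, hL, hLγ⟩ := hfield
    have hact : IsOpen (act.ker : Set GQ) := isOpen_ker_of_field act ⟨L, hL, fun s hs =>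
      LinearMap.ext fun φ => Subtype.ext (funext fun y => by
        show φ.1 (γ s⁻¹ y) = φ.1 y
        rw [hinv γ (hLγ s hs)]
        rfl)⟩
    have hK : IsOpen (((act.prod r).ker : Subgroup GQ) : Set GQ) := by
      rw [MonoidHom.ker_prod, Subgroup.coe_inf]
      exact hact.inter h.1
    refine fun g => FA.Density.forall_of_frobenius_pow _ hK
      (fun g => act g⁻¹ + (r g).det • act g = (r g).trace • 1) ?_ {p, l} ?_ g
    · intro g η hη hg
      obtain ⟨e1, e2⟩ := Prod.ext_iff.1 (MonoidHom.mem_ker.1 hη)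
      change act η = 1 at e1
      change r η = 1 at e2
      rw [_root_.mul_inv_rev, map_mul, map_mul, map_mul, e1, e2, hinv act e1, one_mul, mul_one,
        mul_one]
      exact hg
    · intro q hq hqS B hB g hg e
      rw [Finset.mem_insert, Finset.mem_singleton, not_or] at hqS
      obtain ⟨htr, hdet⟩ := h.2 ⟨q, hq⟩ hqS.1 hqS.2 B hB g hg
      have h1 : act g⁻¹ + (r g).det • act g = (r g).trace • 1 :=
        LinearMap.ext fun φ => Subtype.ext (funext fun y => by
          let f : N →+ k := AddMonoidHom.mk' φ.1 φ.2.1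
          have hf := congrArg f (LinearMap.congr_fun (hfrob ⟨q, hq⟩ hqS.1 hqS.2 B hB g hg) y)
          rw [LinearMap.add_apply, LinearMap.smul_apply, map_add, map_nsmul,
            Module.algebraMap_end_apply, show ∀ z, f z = φ.1 z from fun _ => rfl,
            show ∀ z, f z = φ.1 z from fun _ => rfl, show ∀ z, f z = φ.1 z from fun _ => rfl,
            φ.2.2, nsmul_eq_mul] at hf
          show φ.1 (γ g⁻¹⁻¹ y) + (r g).det • φ.1 (γ g⁻¹ y) = (r g).trace • φ.1 y
          rw [inv_inv, htr, hdet, smul_eq_mul, smul_eq_mul]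
          exact hf)
      have hpow := pow_add_smul_pow (u := act g⁻¹) (v := act g)
        (by rw [← map_mul, inv_mul_cancel, map_one]) (by rw [← map_mul, mul_inv_cancel, map_one])
        h1 e
      rw [← map_pow, ← map_pow, inv_pow] at hpow
      rw [show r (g ^ e) = r g ^ e from map_pow r g e, trace_pow_fin_two, Matrix.det_pow]
      exact hpow
  have hrel : ∀ g, act g + (r' g).det • act g⁻¹ = (r' g).trace • 1 := fun g => by
    show act g + ((r g⁻¹)ᵀ).det • act g⁻¹ = ((r g⁻¹)ᵀ).trace • 1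
    rw [Matrix.det_transpose, Matrix.trace_transpose]
    simpa only [inv_inv] using hrel0 g⁻¹
  have hspan' : Submodule.span k (Set.range r') = ⊤ := by
    refine eq_top_iff.2 fun M _ => ?_
    have hmem : Mᵀ ∈ Submodule.span k (Set.range r) := h.span h5 hlp hn ▸ Submodule.mem_top
    have h := Submodule.mem_map_of_mem
      (f := (Matrix.transposeLinearEquiv (Fin 2) (Fin 2) k k).toLinearMap) hmem
    rw [Submodule.map_span] at h
    refine Submodule.span_mono ?_ (by simpa using h)
    rintro _ ⟨_, ⟨g, rfl⟩, rfl⟩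
    exact ⟨g⁻¹, by show (r g⁻¹⁻¹)ᵀ = _; rw [inv_inv]⟩
  have h2 : IsUnit (2 : k) := isUnit_iff_ne_zero.2 fun h => by
    have := Nat.le_of_dvd two_pos ((CharP.cast_eq_zero_iff k l 2).1 (by exact_mod_cast h))
    omega
  obtain ⟨Ψ, hΨ⟩ := FA.FlatModel.exists_matrix_action r' act hspan' h2 hrel
  refine ⟨Ψ, RingHom.injective Ψ.toRingHom, fun g => ?_⟩
  rw [← hΨ g⁻¹]
  exact congrArg Ψ (by show (r g)ᵀ = (r g⁻¹⁻¹)ᵀ; rw [inv_inv])

end Module

variable [Algebra Qb ℂ] [NeZero l]

/-- A system has a compatible functional on the classes of order `l`. -/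
theorem exists_functional (θ : TAlg p →+* k) :
    ∃ φ ∈ compatDual (N := ModN p (∅ : Set ℕ) l) θ, φ ≠ 0 := by
  classical
  haveI : Module.Finite ℤ (TAlg p) := FA.Period.moduleFinite_heckeAlgebra p 2 _
  obtain ⟨m, hmdef⟩ : ∃ m : Ideal (TAlg p), m = RingHom.ker θ := ⟨_, rfl⟩
  haveI hmp : m.IsPrime := hmdef ▸ RingHom.ker_isPrime θ
  have hlm : (l : TAlg p) ∈ m := by
    rw [hmdef, RingHom.mem_ker, map_natCast, CharP.cast_eq_zero]
  haveI hmax : (m.comap (algebraMap ℤ (TAlg p))).IsMaximal := by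
    refine Ideal.IsPrime.isMaximal (Ideal.comap_isPrime _ _) fun h => ?_
    have h1 : (l : ℤ) ∈ m.comap (algebraMap ℤ (TAlg p)) := by
      rw [Ideal.mem_comap, map_natCast]
      exact hlm
    rw [h, Ideal.mem_bot] at h1
    exact hl.out.ne_zero (by exact_mod_cast h1)
  haveI hm : m.IsMaximal := Ideal.isMaximal_of_isIntegral_of_isMaximal_comap (R := ℤ) m hmax
  have hne : m • (⊤ : Submodule (TAlg p) (ModN p (∅ : Set ℕ) l)) ≠ ⊤ := fun htop => by
    have hmax : (⊤ : Submodule (TAlg p) (LatMod p (∅ : Set ℕ))) ≤ m • ⊤ := by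
      intro x _
      have hx : (Submodule.Quotient.mk x : ModN p (∅ : Set ℕ) l) ∈
          (m • (⊤ : Submodule (TAlg p) (LatMod p (∅ : Set ℕ)))).map
            (nMultiples p (∅ : Set ℕ) l).mkQ := by
        rw [Submodule.map_smul'', Submodule.map_top, Submodule.range_mkQ, htop]
        exact Submodule.mem_top
      obtain ⟨y, hy, hyx⟩ := hx
      obtain ⟨w, hw⟩ := (mem_nMultiples p (∅ : Set ℕ)).1 ((Submodule.Quotient.eq _).1 hyx.symm)
      have hxy : x = y + l • w := by rw [hw, add_sub_cancel]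
      rw [hxy, ← Nat.cast_smul_eq_nsmul (TAlg p)]
      exact add_mem hy (Submodule.smul_mem_smul hlm Submodule.mem_top)
    obtain ⟨t, ht, ht'⟩ := Submodule.exists_sub_one_mem_and_smul_eq_zero_of_fg_of_le_smul m
      (⊤ : Submodule (TAlg p) (LatMod p (∅ : Set ℕ))) Module.Finite.fg_top hmax
    refine hm.ne_top ((Ideal.eq_top_iff_one m).2 ?_)
    rw [latMod_faithful p (∅ : Set ℕ) (t := t) fun y => ht' y Submodule.mem_top, zero_sub] at ht
    exact (Ideal.neg_mem_iff m).1 ht
  obtain ⟨y, hy⟩ : ∃ y : ModN p (∅ : Set ℕ) l, y ∉ m • (⊤ : Submodule (TAlg p) _) := by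
    by_contra hall
    push Not at hall
    exact hne (eq_top_iff.2 fun y _ => hall y)
  letI := Ideal.Quotient.field m
  obtain ⟨f, hf⟩ : ∃ f : Module.Dual (TAlg p ⧸ m)
      (ModN p (∅ : Set ℕ) l ⧸ m • (⊤ : Submodule (TAlg p) (ModN p (∅ : Set ℕ) l))),
      f (Submodule.Quotient.mk y) ≠ 0 := by
    by_contra hall
    push Not at hall
    exact hy ((Submodule.Quotient.mk_eq_zero _).1
      ((Module.forall_dual_apply_eq_zero_iff (TAlg p ⧸ m) _).1 hall))
  obtain ⟨ι, hι⟩ : ∃ ι : TAlg p ⧸ m →+* k, ∀ t, ι (Ideal.Quotient.mk m t) = θ t :=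
    ⟨Ideal.Quotient.lift m θ fun t ht => by rwa [hmdef, RingHom.mem_ker] at ht, fun _ => rfl⟩
  refine ⟨fun z => ι (f (Submodule.Quotient.mk z)), ⟨fun a b => ?_, fun t z => ?_⟩, fun h =>
    hf (ι.injective ((congrFun h y).trans (map_zero ι).symm))⟩
  · simp only [Submodule.Quotient.mk_add, map_add]
  · simp only [Submodule.Quotient.mk_smul]
    rw [← hι t, ← map_mul]
    exact congrArg ι (f.map_smul (Ideal.Quotient.mk m t) (Submodule.Quotient.mk z))

/-- A system of characteristic `l` at level `p` with `p ≡ 1` modulo `l` would be Eisenstein. -/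
theorem dvd_numerator_of_cast_eq_one (h5 : 5 ≤ l) (h1 : (p : k) = 1) :
    l ∣ eisensteinNumerator p := by
  have hp1 : 1 ≤ p := hp.out.one_le
  have hd : l ∣ p - 1 := (CharP.cast_eq_zero_iff k l _).1 (by rw [Nat.cast_sub hp1, h1, Nat.cast_one, sub_self])
  have hmul : eisensteinNumerator p * Nat.gcd (p - 1) 12 = p - 1 :=
    Nat.div_mul_cancel (Nat.gcd_dvd_left _ _)
  refine (hl.out.dvd_mul.1 (hmul.symm ▸ hd)).resolve_right fun h => ?_
  have h12 : l ∣ 12 := h.trans (Nat.gcd_dvd_right _ _)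
  have := Nat.le_of_dvd (by norm_num) h12
  interval_cases l <;> simp_all (config := {decide := true})

/-- **A tame generator at `p` acts as a transvection.** -/
theorem IsSystemRepAway.tame_transvection (h : IsSystemRepAway l θ r) (h5 : 5 ≤ l) (hlp : l ≠ p)
    (hn : ¬ l ∣ eisensteinNumerator p) {A : ValuationSubring Qb} (hA : A.LiesOverPrime p) {s : GQ}
    (hs : IsTameGen l A s) : r s ≠ 1 ∧ (r s - 1) * (r s - 1) = 0 := by
  classical
  obtain ⟨hfix, hfrobA, hsq, -⟩ := levelShape h5 hlp hn hA hs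
  set γ := galMod p (∅ : Set ℕ) l
  obtain ⟨φ₀, hφ₀, hne₀⟩ := exists_functional (l := l) θ
  haveI : Nontrivial (compatDual (N := ModN p (∅ : Set ℕ) l) θ) :=
    ⟨⟨φ₀, hφ₀⟩, 0, fun e => hne₀ (congrArg Subtype.val e)⟩
  obtain ⟨Ψ, hΨi, hΨ⟩ := h.exists_action h5 hlp hn γ (exists_field_galMod p (∅ : Set ℕ) l)
    (fun q hqp hql B hB σ hσ => by
      have hqN : ¬ (q : ℕ) ∣ p := fun h => hqp ((Nat.prime_dvd_prime_iff_eq q.2 hp.out).1 h)
      haveI : NeZero (q : ℕ) := ⟨q.2.ne_zero⟩
      refine LinearMap.ext fun z => ?_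
      have hf := galMod_frobenius p (∅ : Set ℕ) l (goodRed_all p) q.2 hqN
        (fun h => hql ((Nat.prime_dvd_prime_iff_eq q.2 hl.out).1 h)) hB
        (Set.notMem_empty _) hσ z
      rw [← CuspForm.heckeEvalForms_heckeGen_of_not_dvd (ℓ := q) hqN] at hf
      rw [LinearMap.add_apply, LinearMap.smul_apply, hf]
      rfl)
  have hval : ∀ (g : GQ) (φ : compatDual (N := ModN p (∅ : Set ℕ) l) θ) (y : ModN p (∅ : Set ℕ) l),
      ((Ψ ((r g)ᵀ) φ : compatDual (N := ModN p (∅ : Set ℕ) l) θ) :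
        ModN p (∅ : Set ℕ) l → k) y = φ.1 (γ g y) := fun g φ y => by
    rw [hΨ]
    show φ.1 (γ g⁻¹⁻¹ y) = _
    rw [inv_inv]
  have hsub : ∀ (φ : compatDual (N := ModN p (∅ : Set ℕ) l) θ) (a b : ModN p (∅ : Set ℕ) l),
      φ.1 (a - b) = φ.1 a - φ.1 b := fun φ a b =>
    map_sub (AddMonoidHom.mk' φ.1 φ.2.1) a b
  have hsq2 : (r s - 1) * (r s - 1) = 0 := by
    have h1 : ((r s)ᵀ - 1) * ((r s)ᵀ - 1) = 0 := hΨi (by
      rw [map_zero, map_mul, map_sub, map_one]
      refine LinearMap.ext fun φ => Subtype.ext (funext fun y => ?_)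
      rw [Module.End.mul_apply, LinearMap.sub_apply, LinearMap.sub_apply, Module.End.one_apply,
        Module.End.one_apply, map_sub, LinearMap.zero_apply]
      simp only [Submodule.coe_sub, Pi.sub_apply, hval, Submodule.coe_zero, Pi.zero_apply]
      rw [← hsub, ← hsub, ← hsub, show γ s (γ s y) - γ s y - (γ s y - y) =
        γ s (γ s y - y) - (γ s y - y) by rw [map_sub], hsq, sub_self]
      exact map_zero (AddMonoidHom.mk' φ.1 φ.2.1))
    have h2 := congrArg Matrix.transpose h1
    simpa [Matrix.transpose_mul, Matrix.transpose_sub] using h2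
  refine ⟨fun hs1 => hn ?_, hsq2⟩
  have hkill : ∀ (φ : compatDual (N := ModN p (∅ : Set ℕ) l) θ) (z : ModN p (∅ : Set ℕ) l),
      γ s z = z → φ.1 z = 0 := fun φ z hz => by
    obtain ⟨w, hw⟩ := (hfix z hz).2.1
    rw [← hw, hsub, ← hval, hs1, Matrix.transpose_one, map_one, Module.End.one_apply, sub_self]
  obtain ⟨σ, hσ⟩ := FA.Deform.exists_isFrobeniusAt hp.out hA
  have hscal : r σ = θ (tGen p ⟨p, hp.out⟩) • 1 := by
    have h1 : (r σ)ᵀ = θ (tGen p ⟨p, hp.out⟩) • 1 := hΨi (by
      rw [map_smul, map_one]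
      refine LinearMap.ext fun φ => Subtype.ext (funext fun y => ?_)
      rw [hval, LinearMap.smul_apply, Module.End.one_apply, Submodule.coe_smul, Pi.smul_apply,
        smul_eq_mul, ← φ.2.2, ← sub_eq_zero, ← hsub]
      exact hkill φ _ (hfrobA σ hσ y))
    have h2 := congrArg Matrix.transpose h1
    simpa using h2
  have hdet := h.det_eq σ
  rw [cycK_frobenius l k hp.out (Ne.symm hlp) hA hσ, hscal, Matrix.det_smul, Matrix.det_one,
    mul_one, Fintype.card_fin, pow_two, ← map_mul, FA.EisReducible.tGen_level_sq, map_one] at hdet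
  exact dvd_numerator_of_cast_eq_one h5 hdet.symm

/-- **No stable line on subgroups with abelian quotient.** -/
theorem IsSystemRepAway.no_line_abelian (h : IsSystemRepAway l θ r) (h5 : 5 ≤ l) (hlp : l ≠ p)
    (hn : ¬ l ∣ eisensteinNumerator p) (H : Subgroup GQ) [hH : H.Normal]
    (hab : ∀ σ τ : GQ, σ * τ * σ⁻¹ * τ⁻¹ ∈ H) {v : Fin 2 → k} (hv : v ≠ 0) :
    ∃ σ ∈ H, ∀ c : k, r σ *ᵥ v ≠ c • v := by
  classical
  obtain ⟨A, hA⟩ := FA.Deform.exists_liesOverPrime hp.out
  obtain ⟨s, hs⟩ := FA.RT.exists_tame_gen hl.out hp.out hlp hA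
  obtain ⟨hne, hsq⟩ := h.tame_transvection h5 hlp hn hA hs
  have h2 : (2 : k) ≠ 0 := fun e => by
    have := Nat.le_of_dvd two_pos ((CharP.cast_eq_zero_iff k l 2).1 (by exact_mod_cast e))
    omega
  by_contra hall
  push Not at hall
  set Nm := r s - 1 with hNm
  have hN : r s = 1 + Nm := by rw [hNm, add_sub_cancel]
  have hsv : ∀ u, r s *ᵥ u = u + Nm *ᵥ u := fun u => by
    rw [hN, Matrix.add_mulVec, Matrix.one_mulVec]
  have hNN : ∀ u, Nm *ᵥ (Nm *ᵥ u) = 0 := fun u => by
    rw [Matrix.mulVec_mulVec, hsq, Matrix.zero_mulVec]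
  by_cases hscalH : ∀ x ∈ H, ∃ c : k, r x = c • 1
  · obtain ⟨u, hu⟩ : ∃ u, Nm *ᵥ u ≠ 0 := by
      by_contra hz
      push Not at hz
      exact hne (Matrix.ext_of_mulVec_single fun i => by
        rw [hsv, hz, add_zero, Matrix.one_mulVec])
    obtain ⟨x, hx⟩ := h.no_line h5 hlp hn hu
    obtain ⟨c, hc⟩ := hscalH _ (hab s x)
    have hcomm : r x * Nm = Nm * r x := by
      rcases comm_or_anti r hc with h1 | h1
      · rw [hNm, mul_sub, sub_mul, mul_one, one_mul, h1]
      · exfalso
        have ht := trace_eq_zero_of_anti r h2 h1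
        have hN0 : Nm.trace = 0 := (Matrix.isNilpotent_trace_of_isNilpotent
          ⟨2, by rw [pow_two, hsq]⟩).eq_zero
        rw [hN, Matrix.trace_add, Matrix.trace_one, Fintype.card_fin, hN0, add_zero] at ht
        exact h2 (by exact_mod_cast ht)
    -- the image of `Nm` is its kernel
    obtain ⟨a, ha⟩ : ∃ a : k, r x *ᵥ (Nm *ᵥ u) = a • (Nm *ᵥ u) := by
      by_contra hno
      push Not at hno
      have hz : Nm *ᵥ (r x *ᵥ (Nm *ᵥ u)) = 0 := by
        rw [Matrix.mulVec_mulVec, ← hcomm, ← Matrix.mulVec_mulVec, hNN, Matrix.mulVec_zero]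
      have h0 : Nm = (0 : k) • 1 := eq_scalar_of_two hu hno (by rw [hNN, zero_smul])
        (by rw [hz, zero_smul])
      exact hu (by rw [h0, zero_smul, Matrix.zero_mulVec])
    exact hx a ha
  · push Not at hscalH
    obtain ⟨y, hy, hyns⟩ := hscalH
    obtain ⟨x, hx⟩ := h.no_line h5 hlp hn hv
    set w := r x *ᵥ v
    have himg : ∀ (g : GQ) (z : Fin 2 → k), (∀ b ∈ H, ∃ c : k, r b *ᵥ z = c • z) →
        ∀ b ∈ H, ∃ c : k, r b *ᵥ (r g *ᵥ z) = c • (r g *ᵥ z) := by
      intro g z hz b hb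
      have hb' : g⁻¹ * b * g ∈ H := by simpa using hH.conj_mem b hb g⁻¹
      obtain ⟨c, hc⟩ := hz _ hb'
      refine ⟨c, ?_⟩
      rw [Matrix.mulVec_mulVec, ← map_mul, show b * g = g * (g⁻¹ * b * g) by group, map_mul,
        ← Matrix.mulVec_mulVec, hc, Matrix.mulVec_smul]
    have hline : ∀ z : Fin 2 → k, (∀ b ∈ H, ∃ c : k, r b *ᵥ z = c • z) →
        (∃ c : k, z = c • v) ∨ ∃ c : k, z = c • w := by
      intro z hz
      by_contra hno
      push Not at hno
      obtain ⟨cv, hcv⟩ := hall y hy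
      obtain ⟨cw, hcw⟩ := himg x v (fun b hb => hall b hb) y hy
      obtain ⟨cz, hcz⟩ := hz y hy
      have hli : LinearIndependent k ![v, w] :=
        (LinearIndependent.pair_iff' hv).2 fun c h => hx c h.symm
      have hu : z ∈ Submodule.span k (Set.range ![v, w]) := by
        rw [hli.span_eq_top_of_card_eq_finrank (by simp)]
        exact Submodule.mem_top
      rw [Matrix.range_cons, Matrix.range_cons, Matrix.range_empty, Set.union_empty,
        Set.union_singleton, Set.pair_comm, Submodule.mem_span_pair] at hu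
      obtain ⟨a, b, hab'⟩ := hu
      have ha : a ≠ 0 := fun h => hno.2 b (by rw [← hab', h, zero_smul, zero_add])
      have hb : b ≠ 0 := fun h => hno.1 a (by rw [← hab', h, zero_smul, add_zero])
      have h1 : (a * cv) • v + (b * cw) • w = (a * cz) • v + (b * cz) • w := by
        have h := hcz
        rw [← hab', Matrix.mulVec_add, Matrix.mulVec_smul, Matrix.mulVec_smul, hcv, hcw, smul_add,
          smul_smul, smul_smul, smul_smul, smul_smul, mul_comm cz a, mul_comm cz b] at h
        exact h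
      obtain ⟨q1, q2⟩ := hli.eq_of_pair h1
      refine hyns cv (eq_scalar_of_two hv hx hcv ?_)
      rw [hcw, mul_left_cancel₀ hb q2, ← mul_left_cancel₀ ha q1]
    -- the transvection fixes both lines
    have hfixed : ∀ z, z ≠ 0 → (∀ b ∈ H, ∃ c : k, r b *ᵥ z = c • z) → Nm *ᵥ z = 0 := by
      intro z hz0 hz
      obtain ⟨d, hd⟩ : ∃ d : k, Nm *ᵥ z = d • z := by
        by_contra hno
        push Not at hno
        have hgz := himg s z hz
        have hg2z := himg s _ hgz
        have e1 : r s *ᵥ (r s *ᵥ z) = z + (2 : k) • (Nm *ᵥ z) := by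
          rw [hsv z, hsv, Matrix.mulVec_add, hNN, add_zero, two_smul, add_assoc]
        have hpair : ∀ a b : k, a • z + b • (Nm *ᵥ z) = 0 → a = 0 ∧ b = 0 := fun a b hab' => by
          have := ((LinearIndependent.pair_iff).1 ((LinearIndependent.pair_iff' hz0).2
            fun c h => hno c h.symm)) a b hab'
          exact this
        have htwo : ∀ (a b : k), a ≠ b → ∀ t : Fin 2 → k,
            (∃ c : k, z + a • (Nm *ᵥ z) = c • t) → ¬ ∃ c : k, z + b • (Nm *ᵥ z) = c • t := by
          rintro a b hne' t ⟨c, hc⟩ ⟨c', hc'⟩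
          have hcc : c' • (z + a • (Nm *ᵥ z)) = c • (z + b • (Nm *ᵥ z)) := by
            rw [hc, hc', smul_smul, smul_smul, mul_comm]
          obtain ⟨e, e'⟩ := hpair (c' - c) (c' * a - c * b) (by
            rw [sub_smul, sub_smul]
            rw [smul_add, smul_add, smul_smul, smul_smul, ← sub_eq_zero] at hcc
            rw [← hcc]
            abel)
          rw [sub_eq_zero.1 e, ← mul_sub, mul_eq_zero] at e'
          rcases e' with h0 | h0
          · exact one_ne_zero (hpair 1 a (by rw [one_smul, hc, h0, zero_smul])).1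
          · exact hne' (sub_eq_zero.1 h0)
        have ez : z = z + (0 : k) • (Nm *ᵥ z) := by rw [zero_smul, add_zero]
        have eg : r s *ᵥ z = z + (1 : k) • (Nm *ᵥ z) := by rw [hsv, one_smul]
        rcases hline z hz with h0 | h0 <;> rcases hline _ hgz with h1 | h1 <;>
          rcases hline _ hg2z with h2' | h2' <;> rw [ez] at h0 <;> rw [eg] at h1 <;>
          rw [e1] at h2'
        all_goals first
          | exact htwo 0 1 zero_ne_one _ h0 h1
          | exact htwo 0 2 (Ne.symm h2) _ h0 h2'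
          | exact htwo 1 2 (fun e => one_ne_zero (α := k) (by linear_combination -e)) _ h1 h2'
      have h0 := hNN z
      rw [hd, Matrix.mulVec_smul, hd, smul_smul, smul_eq_zero] at h0
      rw [hd, mul_self_eq_zero.1 (h0.resolve_right hz0), zero_smul]
    have hw0 : w ≠ 0 := fun hw => hx 0 (by rw [zero_smul]; exact hw)
    refine hne ?_
    have h0 : Nm = (0 : k) • 1 := eq_scalar_of_two hv hx
      (by rw [hfixed v hv fun b hb => hall b hb, zero_smul])
      (by rw [hfixed w hw0 (himg x v fun b hb => hall b hb), zero_smul])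
    rw [hN, h0, zero_smul, add_zero]

/-- **Nontrivial on every term of the derived series.** -/
theorem IsSystemRepAway.derived_ne_one (h : IsSystemRepAway l θ r) (h5 : 5 ≤ l) (hlp : l ≠ p)
    (hn : ¬ l ∣ eisensteinNumerator p) (n : ℕ) : ∃ s ∈ derivedSeries GQ n, r s ≠ 1 := by
  haveI : CharP (AlgebraicClosure k) l :=
    charP_of_injective_algebraMap (algebraMap k (AlgebraicClosure k)).injective l
  obtain ⟨e, he⟩ : ∃ e : k →+* AlgebraicClosure k, e = algebraMap k (AlgebraicClosure k) :=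
    ⟨_, rfl⟩
  set r' := e.mapMatrix.toMonoidHom.comp r
  have h' : IsSystemRepAway l (e.comp θ) r' := h.map e
  obtain ⟨A, hA⟩ := FA.Deform.exists_liesOverPrime hp.out
  obtain ⟨g, hg⟩ := FA.RT.exists_tame_gen hl.out hp.out hlp hA
  obtain ⟨hne, hsq⟩ := h'.tame_transvection h5 hlp hn hA hg
  have hpow : r' g ^ l = 1 := by
    have h1 : (r' g - 1) ^ l = 0 := pow_eq_zero_of_le hl.out.two_le (by rw [pow_two]; exact hsq)
    rwa [sub_pow_char_of_commute l (Commute.one_right _), one_pow, sub_eq_zero] at h1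
  obtain ⟨s, hs, hs1⟩ := exists_derived_ne_one r' hl.out h5 hpow hne
    (fun H _ hab v hv => h'.no_line_abelian h5 hlp hn H hab hv) n
  exact ⟨s, hs, fun e1 => hs1 (by show e.mapMatrix (r s) = 1; rw [e1, map_one])⟩

end FA.JZeroInertia
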