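import Fermat.Agent.JZeroInertia.Level
import Fermat.Agent.Mazur.EisSplit

/-!
# Toric reduction of `J₀(p)` at `p`, read on the torsion of every order prime to `6 n p`

Inertia is unipotent on the torsion prime to `p`. With the count at the primes this gives at every
order `M` prime to `6 n p` a generator `s` of the image of inertia, whose fixed classes are the
`M ^ g` classes `s • y - y`.
-/

set_option autoImplicit false
set_option linter.style.haveILetI false
set_option linter.unusedSectionVars false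
set_option synthInstance.maxHeartbeats 400000
set_option maxHeartbeats 1000000

noncomputable section

open ModularCurve FA.Mazur FA.JTorsion FA.ModField CongruenceSubgroup

local notation "Qb" => AlgebraicClosure ℚ
local notation "GQ" => AlgebraicClosure ℚ ≃ₐ[ℚ] AlgebraicClosure ℚ

namespace FA.JZeroInertia

variable {p : ℕ} [hp : Fact p.Prime]

/-- The torsion of order dividing `M`. -/
def torsSub (p M : ℕ) [Fact p.Prime] : AddSubgroup (JZero p) :=
  (nsmulAddMonoidHom (α := JZero p) M).ker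

theorem mem_torsSub {M : ℕ} {x : JZero p} : x ∈ torsSub p M ↔ M • x = 0 := Iff.rfl

/-- `σ - 1`. -/
def subOne (p : ℕ) [Fact p.Prime] (σ : GQ) : JZero p →+ JZero p :=
  DistribSMul.toAddMonoidHom (JZero p) σ - AddMonoidHom.id _

theorem subOne_apply (σ : GQ) (x : JZero p) : subOne p σ x = σ • x - x := rfl

theorem smul_nsmul_comm (σ : GQ) (n : ℕ) (x : JZero p) : σ • (n • x) = n • (σ • x) :=
  (DistribSMul.toAddMonoidHom (JZero p) σ).map_nsmul n x

theorem smul_zero_jzero (σ : GQ) : σ • (0 : JZero p) = 0 :=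
  (DistribSMul.toAddMonoidHom (JZero p) σ).map_zero

theorem nsmul_congr {M a b : ℕ} {x : JZero p} (hx : M • x = 0) (h : a ≡ b [MOD M]) :
    a • x = b • x :=
  nsmul_eq_nsmul_iff_modEq.2 (h.of_dvd (addOrderOf_dvd_of_nsmul_eq_zero hx))

theorem nsmul_smul_eq_zero {M : ℕ} {x : JZero p} (hx : M • x = 0) (σ : GQ) : M • (σ • x) = 0 := by
  rw [← smul_nsmul_comm, hx, smul_zero_jzero]

section Unipotent

variable {A : ValuationSubring Qb} (hA : A.LiesOverPrime p)

include hA in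
theorem inertia_sq {M : ℕ} (hM : ¬ p ∣ M) {σ : GQ} (hσ : σ ∈ A.inertiaSubgroupIn ℚ) {y : JZero p}
    (hy : M • y = 0) : σ • (σ • y - y) = σ • y - y := by
  have h : σ • σ • y + y = 2 • (σ • y) := semistableTors_level p A hA σ hσ M hM y hy
  rw [smul_sub, eq_sub_of_add_eq h, two_nsmul]
  abel

include hA in
theorem inertia_pow {M : ℕ} (hM : ¬ p ∣ M) {σ : GQ} (hσ : σ ∈ A.inertiaSubgroupIn ℚ) {y : JZero p}
    (hy : M • y = 0) (j : ℕ) : σ ^ j • y = y + j • (σ • y - y) := by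
  induction j with
  | zero => rw [pow_zero, one_smul, zero_nsmul, add_zero]
  | succ j ih =>
    rw [pow_succ', mul_smul, ih, smul_add, smul_nsmul_comm, inertia_sq hA hM hσ hy, succ_nsmul]
    abel

include hA in
theorem inertia_pow_eq_self {M : ℕ} (hM : ¬ p ∣ M) {σ : GQ} (hσ : σ ∈ A.inertiaSubgroupIn ℚ)
    {y : JZero p} (hy : M • y = 0) {j : ℕ} (hj : M ∣ j) : σ ^ j • y = y := by
  obtain ⟨c, rfl⟩ := hj
  rw [inertia_pow hA hM hσ hy, mul_nsmul, nsmul_sub, nsmul_smul_eq_zero hy, hy, sub_zero,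
    smul_zero, add_zero]

include hA in
theorem inertia_pow_eq_smul {M : ℕ} (hM : ¬ p ∣ M) {σ : GQ} (hσ : σ ∈ A.inertiaSubgroupIn ℚ)
    {y : JZero p} (hy : M • y = 0) {j : ℕ} (hj : j ≡ 1 [MOD M]) : σ ^ j • y = σ • y := by
  rw [inertia_pow hA hM hσ hy,
    nsmul_congr (show M • (σ • y - y) = 0 by rw [nsmul_sub, nsmul_smul_eq_zero hy, hy, sub_zero]) hj,
    one_nsmul, add_sub_cancel]

end Unipotent

/-- What is proved at the order `M`. -/
def ToricAt (p M : ℕ) [Fact p.Prime] (A : ValuationSubring Qb) (s : GQ) : Prop :=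
  s ∈ A.inertiaSubgroupIn ℚ ∧
  (∀ x : JZero p, M • x = 0 → s • x = x → ∃ y : JZero p, M • y = 0 ∧ x = s • y - y) ∧
  Nat.card {x : JZero p // M • x = 0 ∧ s • x = x} =
    M ^ Module.finrank ℂ (CuspForm (Gamma0 p) 2) ∧
  ∀ τ ∈ A.inertiaSubgroupIn ℚ, ∃ i : ℕ, ∀ y : JZero p, M • y = 0 → τ • y = s ^ i • y

theorem ToricAt.fixed {M : ℕ} {A : ValuationSubring Qb} {s : GQ} (h : ToricAt p M A s)
    {x : JZero p} (hx : M • x = 0) (hs : s • x = x) {τ : GQ} (hτ : τ ∈ A.inertiaSubgroupIn ℚ) :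
    τ • x = x := by
  obtain ⟨i, hi⟩ := h.2.2.2 τ hτ
  rw [hi x hx]
  clear hi
  induction i with
  | zero => rw [pow_zero, one_smul]
  | succ i ih => rw [pow_succ, mul_smul, hs, ih]

section Algebra

variable [Algebra Qb ℂ]

theorem card_torsSub (M : ℕ) [NeZero M] : Finite (torsSub p M) ∧
    Nat.card (torsSub p M) = M ^ (2 * Module.finrank ℂ (CuspForm (Gamma0 p) 2)) := by
  haveI : NeZero p := ⟨hp.out.ne_zero⟩
  obtain ⟨hfin, hcard⟩ := card_modN p M
  haveI := hfin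
  let f : ModN p (∅ : Set ℕ) M → torsSub p M := fun z =>
    ⟨toTors p (∅ : Set ℕ) M z, nsmul_toTors p (∅ : Set ℕ) M z⟩
  have hf : Function.Bijective f := by
    refine ⟨fun a b h => toTors_injective p (∅ : Set ℕ) M (congrArg Subtype.val h), ?_⟩
    rintro ⟨x, hx⟩
    obtain ⟨z, hz⟩ := FA.EisReducible.exists_toTors_eq_of_nsmul p M x hx
    exact ⟨z, Subtype.ext hz⟩
  exact ⟨Finite.of_surjective f hf.2, by rw [← hcard, Nat.card_congr (Equiv.ofBijective f hf)]⟩

variable {l : ℕ} [hl : Fact l.Prime]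

theorem prime_power_cyclic (hlp : l ≠ p) (k : ℕ) {A : ValuationSubring Qb} (hA : A.LiesOverPrime p)
    {s : GQ} (hs : IsTameGen l A s) {τ : GQ} (hτ : τ ∈ A.inertiaSubgroupIn ℚ) :
    ∃ i : ℕ, ∀ y : JZero p, l ^ k • y = 0 → τ • y = s ^ i • y := by
  haveI : NeZero p := ⟨hp.out.ne_zero⟩
  haveI : NeZero (l ^ k) := ⟨pow_ne_zero _ hl.out.ne_zero⟩
  have hpl : ¬ p ∣ l ^ k := fun h =>
    hlp ((Nat.prime_dvd_prime_iff_eq hp.out hl.out).1 (hp.out.dvd_of_dvd_pow h)).symm
  obtain ⟨i, hi⟩ := hs.2 _ (galMod p (∅ : Set ℕ) (l ^ k)) (isOpen_ker_galMod p (l ^ k))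
    (fun σ hσ => ⟨k, pow_eq_one_of_sq (modN_nsmul p (l ^ k)) _ fun x =>
      toTors_injective p (∅ : Set ℕ) (l ^ k) (by
        rw [map_add, map_nsmul, toTors_galMod, toTors_galMod]
        exact semistableTors_level p A hA σ hσ (l ^ k) hpl _
          (nsmul_toTors p (∅ : Set ℕ) (l ^ k) x))⟩) τ hτ
  refine ⟨i, fun y hy => ?_⟩
  obtain ⟨z, rfl⟩ := FA.EisReducible.exists_toTors_eq_of_nsmul p (l ^ k) y hy
  rw [← toTors_galMod, ← toTors_galMod, map_pow, hi]

/-- The fixed classes of order dividing `M`. -/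
def fixSub (p M : ℕ) [Fact p.Prime] (s : GQ) : AddSubgroup (JZero p) :=
  torsSub p M ⊓ (subOne p s).ker

theorem mem_fixSub {M : ℕ} {s : GQ} {x : JZero p} :
    x ∈ fixSub p M s ↔ M • x = 0 ∧ s • x = x := and_congr Iff.rfl sub_eq_zero

theorem finite_fixSub (M : ℕ) [NeZero M] (s : GQ) : Finite (fixSub p M s) := by
  haveI := (card_torsSub (p := p) M).1
  exact Finite.of_injective (fun x => (⟨x.1, x.2.1⟩ : torsSub p M))
    fun a b h => Subtype.ext (congrArg Subtype.val h :)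

theorem card_fixSub_prime (h5 : 5 ≤ l) (hlp : l ≠ p) (hn : ¬ l ∣ eisensteinNumerator p)
    {A : ValuationSubring Qb} (hA : A.LiesOverPrime p) {s : GQ} (hs : IsTameGen l A s) :
    Nat.card (fixSub p l s) = l ^ Module.finrank ℂ (CuspForm (Gamma0 p) 2) := by
  haveI : NeZero p := ⟨hp.out.ne_zero⟩
  haveI : NeZero l := ⟨hl.out.ne_zero⟩
  obtain ⟨-, -, -, hcard⟩ := levelShape h5 hlp hn hA hs
  rw [← hcard]
  let f : {z : ModN p (∅ : Set ℕ) l // galMod p (∅ : Set ℕ) l s z = z} → fixSub p l s := fun z =>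
    ⟨toTors p (∅ : Set ℕ) l z.1, mem_fixSub.2 ⟨nsmul_toTors p (∅ : Set ℕ) l z.1, by
      rw [← toTors_galMod, z.2]⟩⟩
  have hf : Function.Bijective f := by
    refine ⟨fun a b h => Subtype.ext (toTors_injective p (∅ : Set ℕ) l (congrArg Subtype.val h)),
      ?_⟩
    rintro ⟨x, hx⟩
    obtain ⟨z, rfl⟩ := FA.EisReducible.exists_toTors_eq_of_nsmul p l x (mem_fixSub.1 hx).1
    exact ⟨⟨z, toTors_injective p (∅ : Set ℕ) l (by rw [toTors_galMod]; exact (mem_fixSub.1 hx).2)⟩,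
      rfl⟩
  exact (Nat.card_congr (Equiv.ofBijective f hf)).symm

theorem card_fixSub_le (h5 : 5 ≤ l) (hlp : l ≠ p) (hn : ¬ l ∣ eisensteinNumerator p)
    {A : ValuationSubring Qb} (hA : A.LiesOverPrime p) {s : GQ} (hs : IsTameGen l A s) :
    ∀ k, Nat.card (fixSub p (l ^ k) s) ≤ (l ^ k) ^ Module.finrank ℂ (CuspForm (Gamma0 p) 2)
  | 0 => by
    rw [pow_zero, one_pow]
    have h : fixSub p 1 s = ⊥ := (eq_bot_iff).2 fun x hx => by
      simpa [AddSubgroup.mem_bot] using (mem_fixSub.1 hx).1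
    rw [h, AddSubgroup.card_bot]
  | k + 1 => by
    haveI : NeZero (l ^ (k + 1)) := ⟨pow_ne_zero _ hl.out.ne_zero⟩
    haveI : NeZero (l ^ k) := ⟨pow_ne_zero _ hl.out.ne_zero⟩
    haveI : NeZero l := ⟨hl.out.ne_zero⟩
    haveI := finite_fixSub (p := p) (l ^ (k + 1)) s
    haveI := finite_fixSub (p := p) (l ^ k) s
    haveI := finite_fixSub (p := p) l s
    let φ : fixSub p (l ^ (k + 1)) s →+ fixSub p (l ^ k) s :=
      AddMonoidHom.mk' (fun x => ⟨l • x.1, mem_fixSub.2 ⟨by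
        rw [← mul_nsmul', ← pow_succ]; exact (mem_fixSub.1 x.2).1, by
        rw [smul_nsmul_comm, (mem_fixSub.1 x.2).2]⟩⟩)
        fun a b => Subtype.ext (nsmul_add _ _ _)
    have hker : Nat.card φ.ker ≤ Nat.card (fixSub p l s) :=
      Nat.card_le_card_of_injective (fun x => (⟨x.1.1, mem_fixSub.2
        ⟨congrArg Subtype.val (x.2 : φ x.1 = 0), (mem_fixSub.1 x.1.2).2⟩⟩ : fixSub p l s))
        fun a b h => Subtype.ext (Subtype.ext (congrArg Subtype.val h :))
    rw [AddSubgroup.card_eq_card_quotient_mul_card_addSubgroup φ.ker,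
      Nat.card_congr (QuotientAddGroup.quotientKerEquivRange φ).toEquiv]
    refine le_of_le_of_eq ?_ (show (l ^ k) ^ Module.finrank ℂ (CuspForm (Gamma0 p) 2) *
        Nat.card (fixSub p l s) = _ by
      rw [card_fixSub_prime h5 hlp hn hA hs, ← mul_pow, ← pow_succ])
    exact Nat.mul_le_mul ((Nat.card_le_card_of_injective _ Subtype.val_injective).trans
      (card_fixSub_le h5 hlp hn hA hs k)) hker

/-- **The statement at the powers of a prime.** -/
theorem toricAt_prime_pow (h5 : 5 ≤ l) (hlp : l ≠ p) (hn : ¬ l ∣ eisensteinNumerator p)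
    {A : ValuationSubring Qb} (hA : A.LiesOverPrime p) (k : ℕ) {s : GQ} (hs : IsTameGen l A s) :
    ToricAt p (l ^ k) A s := by
  haveI : NeZero (l ^ k) := ⟨pow_ne_zero _ hl.out.ne_zero⟩
  have hpl : ¬ p ∣ l ^ k := fun h =>
    hlp ((Nat.prime_dvd_prime_iff_eq hp.out hl.out).1 (hp.out.dvd_of_dvd_pow h)).symm
  obtain ⟨hfinT, hcardT⟩ := card_torsSub (p := p) (l ^ k)
  haveI := hfinT
  haveI := finite_fixSub (p := p) (l ^ k) s
  set g := Module.finrank ℂ (CuspForm (Gamma0 p) 2)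
  let D : torsSub p (l ^ k) →+ JZero p := (subOne p s).comp (torsSub p (l ^ k)).subtype
  have hrange : D.range ≤ fixSub p (l ^ k) s := by
    rintro _ ⟨⟨y, hy⟩, rfl⟩
    refine mem_fixSub.2 ⟨?_, inertia_sq hA hpl hs.1 hy⟩
    show l ^ k • (s • y - y) = 0
    rw [nsmul_sub, nsmul_smul_eq_zero hy, mem_torsSub.1 hy, sub_zero]
  have hker : Nat.card D.ker = Nat.card (fixSub p (l ^ k) s) :=
    Nat.card_congr
      { toFun := fun y => ⟨y.1.1, y.1.2, y.2⟩
        invFun := fun x => ⟨⟨x.1, x.2.1⟩, x.2.2⟩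
        left_inv := fun _ => rfl
        right_inv := fun _ => rfl }
  haveI : Finite D.range := Finite.of_injective _ (AddSubgroup.inclusion_injective hrange)
  have hle : Nat.card D.range ≤ Nat.card (fixSub p (l ^ k) s) :=
    Nat.card_le_card_of_injective _ (AddSubgroup.inclusion_injective hrange)
  have hmul : Nat.card D.range * Nat.card (fixSub p (l ^ k) s) = (l ^ k) ^ g * (l ^ k) ^ g := by
    rw [← hker, ← Nat.card_congr (QuotientAddGroup.quotientKerEquivRange D).toEquiv,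
      ← AddSubgroup.card_eq_card_quotient_mul_card_addSubgroup, hcardT, two_mul, pow_add]
  have hub := card_fixSub_le h5 hlp hn hA hs k
  have hlb : (l ^ k) ^ g ≤ Nat.card D.range := Nat.le_of_mul_le_mul_right
    (hmul.symm.le.trans (Nat.mul_le_mul_left _ hub)) (pow_pos (pow_pos hl.out.pos k) g)
  have heq : D.range = fixSub p (l ^ k) s :=
    AddSubgroup.eq_of_le_of_card_ge hrange (hub.trans hlb)
  refine ⟨hs.1, fun x hx hsx => ?_, ?_, fun τ hτ => prime_power_cyclic hlp k hA hs hτ⟩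
  · obtain ⟨⟨y, hy⟩, rfl⟩ : x ∈ D.range := heq ▸ mem_fixSub.2 ⟨hx, hsx⟩
    exact ⟨y, hy, rfl⟩
  · rw [← le_antisymm hub (hlb.trans hle)]
    exact Nat.card_congr (Equiv.subtypeEquivRight fun x => mem_fixSub.symm)

end Algebra

section Glue

variable {A : ValuationSubring Qb} (hA : A.LiesOverPrime p)

include hA in
theorem toricAt_mul {a b : ℕ} (hab : a.Coprime b) (ha : ¬ p ∣ a) (hb : ¬ p ∣ b) {sa sb : GQ}
    (Ha : ToricAt p a A sa) (Hb : ToricAt p b A sb) : ∃ s, ToricAt p (a * b) A s := by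
  classical
  obtain ⟨e, hea, heb⟩ := Nat.chineseRemainder hab 1 0
  obtain ⟨f, hfa, hfb⟩ := Nat.chineseRemainder hab 0 1
  have hef : e + f ≡ 1 [MOD a * b] :=
    (Nat.modEq_and_modEq_iff_modEq_mul hab).1
      ⟨by simpa using hea.add hfa, by simpa using heb.add hfb⟩
  have hbe : b ∣ e := Nat.modEq_zero_iff_dvd.1 heb
  have haf : a ∣ f := Nat.modEq_zero_iff_dvd.1 hfa
  have hab' : ¬ p ∣ a * b := fun h => (hp.out.dvd_mul.1 h).elim ha hb
  set s := sa ^ e * sb ^ f with hsdef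
  have hsI : s ∈ A.inertiaSubgroupIn ℚ := mul_mem (pow_mem Ha.1 e) (pow_mem Hb.1 f)
  have hsa : ∀ y : JZero p, a • y = 0 → s • y = sa • y := fun y hy => by
    rw [hsdef, mul_smul, inertia_pow_eq_self hA ha Hb.1 hy haf,
      inertia_pow_eq_smul hA ha Ha.1 hy hea]
  have hsb : ∀ y : JZero p, b • y = 0 → s • y = sb • y := fun y hy => by
    rw [hsdef, mul_smul, inertia_pow_eq_smul hA hb Hb.1 hy hfb,
      inertia_pow_eq_self hA hb Ha.1 (nsmul_smul_eq_zero hy sb) hbe]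
  have hka : ∀ x : JZero p, (a * b) • x = 0 → a • (e • x) = 0 := fun x hx => by
    obtain ⟨c, rfl⟩ := hbe
    rw [← mul_nsmul', ← mul_assoc, mul_nsmul, hx, smul_zero]
  have hkb : ∀ x : JZero p, (a * b) • x = 0 → b • (f • x) = 0 := fun x hx => by
    obtain ⟨c, rfl⟩ := haf
    rw [← mul_nsmul', ← mul_assoc, mul_comm b a, mul_nsmul, hx, smul_zero]
  have hsplit : ∀ x : JZero p, (a * b) • x = 0 → e • x + f • x = x := fun x hx => by
    rw [← add_nsmul, nsmul_congr hx hef, one_nsmul]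
  have hupa : ∀ y : JZero p, a • y = 0 → (a * b) • y = 0 := fun y hy => by
    rw [mul_nsmul, hy, smul_zero]
  have hupb : ∀ y : JZero p, b • y = 0 → (a * b) • y = 0 := fun y hy => by
    rw [mul_nsmul', hy, smul_zero]
  refine ⟨s, hsI, fun x hx hsx => ?_, ?_, fun τ hτ => ?_⟩
  · obtain ⟨ya, hya, hxa⟩ := Ha.2.1 _ (hka x hx) (by
      rw [← hsa _ (hka x hx), smul_nsmul_comm, hsx])
    obtain ⟨yb, hyb, hxb⟩ := Hb.2.1 _ (hkb x hx) (by
      rw [← hsb _ (hkb x hx), smul_nsmul_comm, hsx])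
    refine ⟨ya + yb, by rw [nsmul_add, hupa ya hya, hupb yb hyb, add_zero], ?_⟩
    rw [smul_add, hsa ya hya, hsb yb hyb, add_sub_add_comm, ← hxa, ← hxb, hsplit x hx]
  · rw [mul_pow, ← Ha.2.2.1, ← Hb.2.2.1, ← Nat.card_prod]
    refine Nat.card_congr
      { toFun := fun x => (⟨e • x.1, hka x.1 x.2.1, by
            rw [← hsa _ (hka x.1 x.2.1), smul_nsmul_comm, x.2.2]⟩,
          ⟨f • x.1, hkb x.1 x.2.1, by rw [← hsb _ (hkb x.1 x.2.1), smul_nsmul_comm, x.2.2]⟩)
        invFun := fun u => ⟨u.1.1 + u.2.1, by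
            rw [nsmul_add, hupa _ u.1.2.1, hupb _ u.2.2.1, add_zero], by
            rw [smul_add, hsa _ u.1.2.1, hsb _ u.2.2.1, u.1.2.2, u.2.2.2]⟩
        left_inv := fun x => Subtype.ext (hsplit x.1 x.2.1)
        right_inv := fun u => Prod.ext (Subtype.ext ?_) (Subtype.ext ?_) }
    · show e • (u.1.1 + u.2.1) = u.1.1
      rw [nsmul_add, nsmul_congr u.1.2.1 hea, nsmul_congr u.2.2.1 heb, one_nsmul, zero_nsmul,
        add_zero]
    · show f • (u.1.1 + u.2.1) = u.2.1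
      rw [nsmul_add, nsmul_congr u.1.2.1 hfa, nsmul_congr u.2.2.1 hfb, one_nsmul, zero_nsmul,
        zero_add]
  · obtain ⟨ia, hia⟩ := Ha.2.2.2 τ hτ
    obtain ⟨ib, hib⟩ := Hb.2.2.2 τ hτ
    obtain ⟨i, hiA, hiB⟩ := Nat.chineseRemainder hab ia ib
    refine ⟨i, fun y hy => ?_⟩
    have e1 : ∀ u : JZero p, a • u = 0 → τ • u = s ^ i • u := fun u hu => by
      rw [hia u hu, inertia_pow hA ha Ha.1 hu, inertia_pow hA ha hsI hu, hsa u hu,
        nsmul_congr (show a • (sa • u - u) = 0 by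
          rw [nsmul_sub, nsmul_smul_eq_zero hu, hu, sub_zero]) hiA]
    have e2 : ∀ u : JZero p, b • u = 0 → τ • u = s ^ i • u := fun u hu => by
      rw [hib u hu, inertia_pow hA hb Hb.1 hu, inertia_pow hA hb hsI hu, hsb u hu,
        nsmul_congr (show b • (sb • u - u) = 0 by
          rw [nsmul_sub, nsmul_smul_eq_zero hu, hu, sub_zero]) hiB]
    rw [← hsplit y hy, smul_add, smul_add, e1 _ (hka y hy), e2 _ (hkb y hy)]

end Glue

/-- **The statement at every order prime to `6 n p`.** -/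
theorem exists_toricAt {A : ValuationSubring Qb} (hA : A.LiesOverPrime p) (M : ℕ) :
    M.Coprime (6 * eisensteinNumerator p * p) → ∃ s, ToricAt p M A s := by
  obtain ⟨alg⟩ := exists_algebra_qbar
  letI := alg
  induction M using Nat.recOnPosPrimePosCoprime with
  | prime_pow l k hl hk =>
    intro hco
    haveI : Fact l.Prime := ⟨hl⟩
    have hc : l.Coprime (6 * eisensteinNumerator p * p) := (Nat.coprime_pow_left_iff hk _ _).1 hco
    have hnd : ¬ l ∣ 6 * eisensteinNumerator p * p := hl.coprime_iff_not_dvd.1 hc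
    have hlp : l ≠ p := fun h => hnd (by rw [h]; exact dvd_mul_left p _)
    have hn : ¬ l ∣ eisensteinNumerator p := fun h =>
      hnd ((h.trans (dvd_mul_left _ 6)).trans (dvd_mul_right _ p))
    have h6 : ¬ l ∣ 6 := fun h => hnd ((h.trans (dvd_mul_right 6 _)).trans (dvd_mul_right _ p))
    have h5 : 5 ≤ l := by
      by_contra h
      have h2 := hl.two_le
      interval_cases l <;> revert h6 hl <;> decide
    obtain ⟨s, hsI, hgen⟩ := FA.RT.exists_tame_gen hl hp.out hlp hA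
    exact ⟨s, toricAt_prime_pow h5 hlp hn hA k ⟨hsI, hgen⟩⟩
  | zero =>
    intro hco
    rw [Nat.coprime_zero_left] at hco
    exact absurd (Nat.eq_one_of_mul_eq_one_left hco) hp.out.one_lt.ne'
  | one =>
    intro _
    refine ⟨1, one_mem _, fun x hx _ => ⟨0, nsmul_zero _, ?_⟩, ?_, fun τ _ => ⟨0, fun y hy => ?_⟩⟩
    · rw [one_nsmul] at hx
      rw [hx, smul_zero_jzero, sub_zero]
    · rw [one_pow, Nat.card_eq_one_iff_exists]
      exact ⟨⟨0, nsmul_zero _, one_smul _ _⟩, fun y => Subtype.ext ((one_nsmul y.1).symm.trans y.2.1)⟩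
    · rw [one_nsmul] at hy
      rw [hy, smul_zero_jzero, smul_zero_jzero]
  | coprime a b _ _ hab iha ihb =>
    intro hco
    obtain ⟨sa, Ha⟩ := iha (Nat.Coprime.coprime_mul_right hco)
    obtain ⟨sb, Hb⟩ := ihb (Nat.Coprime.coprime_mul_left hco)
    have hp' : ¬ p ∣ a * b := hp.out.coprime_iff_not_dvd.1
      ((Nat.Coprime.coprime_dvd_right (dvd_mul_left p _) hco).symm)
    exact toricAt_mul hA hab (fun h => hp' (h.trans (dvd_mul_right a b)))
      (fun h => hp' (h.trans (dvd_mul_left b a))) Ha Hb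

end FA.JZeroInertia
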