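import Fermat.Agent.JZeroInertia.BranchSum
import Fermat.Agent.JZeroInertia.Fixed

/-!
# The toric kernel at a power of `l` has at least `l ^ (k g)` elements

Level `M q` with `M = 1`. A class whose orders at the crossings vanish reduces to zero on both
components, and the orders at the crossings of `∞` add up to zero.
-/

set_option autoImplicit false
set_option linter.style.haveILetI false
set_option linter.unusedSectionVars false
set_option synthInstance.maxHeartbeats 400000
set_option maxHeartbeats 1000000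

noncomputable section

namespace FA.JZeroInertia

open ModularCurve AlgebraicCurve FA.Curve FA.CurveRed FA.JTorsion FA.Level FA.LocalDef FA.ModField

local notation "Qb" => AlgebraicClosure ℚ

/-- Off the branches the orders of the reduced classes vanish modulo `n`. -/
theorem ordMod_off {K F k : Type*} [Field K] [IsAlgClosed K] [Field F] [Algebra K F] [Field k]
    [IsAlgClosed k] {ι : Type*} [Fintype ι] {Fk : ι → Type*} [∀ i, Field (Fk i)]
    [∀ i, Algebra k (Fk i)] {A : ValuationSubring K} {β σ : Type*} [Fintype β] [Fintype σ]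
    (X : SemiFibre K F k Fk A β σ) (hF : IsFunctionField K F) (n : ℕ) [NeZero n]
    (x : Pic0.torsion K F n) {i : ι} {Q : Place k (Fk i)} (hb : ∀ b, X.br b ≠ ⟨i, Q⟩) :
    ordMod k (Fk i) n Q (redTor n hF (X.scaled i) x) = 0 := by
  obtain ⟨D, g, hD, hg, hgD⟩ := exists_torsion_fn n x
  obtain ⟨c, f, r, hc, e, hfr, hr⟩ := exists_scaled (X.scaled i) hg
  rw [redTor_mk n _ _ _ hD hg hgD, redFn_eq n hc e hfr hr, ordMod_redCls n Q hr,
    ZMod.intCast_zmod_eq_zero_iff_dvd, ← X.push_divOf hF hfr hr hb,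
    show divOf hF f = n • (D : Divisor K F) from
      Finsupp.ext fun P => by
        rw [divOf_apply, Finsupp.smul_apply, nsmul_eq_mul, hgD, e,
          P.ord_mul (by simpa using hc) (hfr.ne_zero hr), place_ord_algebraMap, zero_add],
    SemiFibre.push_nsmul, Finsupp.smul_apply, nsmul_eq_mul]
  exact dvd_mul_right _ _

variable [Algebra Qb ℂ] (M q : ℕ) [NeZero M] [hq : Fact q.Prime] [hq0 : NeZero q]
variable (A : ValuationSubring Qb) [IsAlgClosed (IsLocalRing.ResidueField A)]
  [CharP (IsLocalRing.ResidueField A) q] (hA : A.LiesOverPrime q) (hqM : ¬ q ∣ M)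
  (harch : ∀ c : Qb, c ≠ 0 → ∃ m : ℕ, A.valuation ((q : Qb) ^ m) < A.valuation c)
variable (l : ℕ) [hl : Fact l.Prime] [NeZero l] (hqp : q ≠ l) (hM : M = 1)

local notation "kA" => IsLocalRing.ResidueField A
local notation "πA" => IsLocalRing.residue A
local notation "Fb" => modularFunctionFieldFullC (IsLocalRing.ResidueField A) M
local notation "rI" => redTorInf M q A πA IsLocalRing.residue_surjective residueAt_eq_zero hqM harch
local notation "rZ" => redTorZero M q A πA IsLocalRing.residue_surjective residueAt_eq_zero hqM harch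

/-- The classes killed by `l ^ k` reducing to zero on both components. -/
def toricN (k : ℕ) : AddSubgroup (ModN (M * q) (∅ : Set ℕ) (l ^ k)) :=
  ((rI (l ^ k)).comp (torsCls M q l k)).ker ⊓ ((rZ (l ^ k)).comp (torsCls M q l k)).ker

/-- The orders at the crossings on the component of `∞`. -/
def brN (k : ℕ) :
    ModN (M * q) (∅ : Set ℕ) (l ^ k) →+ ((theFibre M q A hqM harch).Sg → ZMod (l ^ k)) :=
  AddMonoidHom.pi fun s => (ordMod kA Fb (l ^ k) ((theFibre M q A hqM harch).brPl s 0)).comp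
    ((rI (l ^ k)).comp (torsCls M q l k))

theorem brN_apply (k : ℕ) (z : ModN (M * q) (∅ : Set ℕ) (l ^ k))
    (s : (theFibre M q A hqM harch).Sg) : brN M q A hqM harch l k z s =
      ordMod kA Fb (l ^ k) ((theFibre M q A hqM harch).brPl s 0)
        (rI (l ^ k) (torsCls M q l k z)) := rfl

include hqp in
theorem natCast_pow_ne_zero (k : ℕ) : ((l ^ k : ℕ) : kA) ≠ 0 := fun h =>
  hqp ((Nat.prime_dvd_prime_iff_eq hq.out hl.out).1
    (hq.out.dvd_of_dvd_pow ((CharP.cast_eq_zero_iff kA q _).1 h)))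

set_option maxHeartbeats 6000000 in
/-- Opposite orders at the two branches. -/
theorem ordMod_branch (U : (theFibre M q A hqM harch).UnitDatum (q : Qb)) (k : ℕ) (x : Pic0.torsion Qb (levelField (M * q) Qb) (l ^ k))
    (s : (theFibre M q A hqM harch).Sg) :
    ordMod kA Fb (l ^ k) ((theFibre M q A hqM harch).brPl s 1) (rZ (l ^ k) x) =
      - ordMod kA Fb (l ^ k) ((theFibre M q A hqM harch).brPl s 0) (rI (l ^ k) x) := by
  obtain ⟨D, g, hD, hg, hgD⟩ := exists_torsion_fn (l ^ k) x
  obtain ⟨c0, g0, r0, hc0, e0, hg0, hr0⟩ := exists_scaled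
    (scaled_cInf M q A πA IsLocalRing.residue_surjective residueAt_eq_zero hqM harch) hg
  obtain ⟨c1, g1, r1, hc1, e1, hg1, hr1⟩ := exists_scaled
    (scaled_cZero M q A πA IsLocalRing.residue_surjective residueAt_eq_zero hqM harch) hg
  have h := FibreHyp.branch_ord_sum
    (X0.connected M q A πA IsLocalRing.residue_surjective residueAt_eq_zero hqM harch) U
    (p := l ^ k) (D : Divisor Qb (levelField (M * q) Qb)) hg (fun P => (hgD P).symm)
    (c := ![c0, c1]) (gg := ![g0, g1]) (r := ![r0, r1]) (Fin.forall_fin_two.2 ⟨e0, e1⟩)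
    (Fin.forall_fin_two.2 ⟨hg0, hg1⟩) (Fin.forall_fin_two.2 ⟨hr0, hr1⟩) s
  rw [redTorInf, redTor_mk (l ^ k) _ _ _ hD hg hgD, redFn_eq (l ^ k) hc0 e0 hg0 hr0, redTorZero,
    redTor_mk (l ^ k) _ _ _ hD hg hgD, redFn_eq (l ^ k) hc1 e1 hg1 hr1, ordMod_redCls _ _ hr0,
    ordMod_redCls _ _ hr1]
  rw [← ZMod.intCast_zmod_eq_zero_iff_dvd, Int.cast_add] at h
  exact eq_neg_of_add_eq_zero_right h

/-- The crossings of a component are distinct. -/
theorem brPl_inj (i : Fin 2) {s t : (theFibre M q A hqM harch).Sg}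
    (h : (theFibre M q A hqM harch).brPl s i = (theFibre M q A hqM harch).brPl t i) : s = t := by
  rw [← (theFibre M q A hqM harch).sgPt_brAt s i, ← (theFibre M q A hqM harch).sgPt_brAt t i]
  exact congrArg _ (Subtype.ext (by
    show (⟨i, (theFibre M q A hqM harch).brPl s i⟩ : Σ _ : Fin 2, Place kA Fb) = ⟨i, _⟩
    rw [h]))

/-- The orders at the crossings of `∞` add up to zero. -/
theorem sum_brN (k : ℕ) (z : ModN (M * q) (∅ : Set ℕ) (l ^ k)) :
    ∑ s, brN M q A hqM harch l k z s = 0 := by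
  classical
  haveI : NeZero (l ^ k) := ⟨pow_ne_zero _ (NeZero.ne l)⟩
  obtain ⟨D, g, hD, hg, hgD⟩ := exists_torsion_fn (l ^ k) (torsCls M q l k z)
  obtain ⟨c, g', r, hc, e, hg', hr⟩ := exists_scaled
    (scaled_cInf M q A πA IsLocalRing.residue_surjective residueAt_eq_zero hqM harch) hg
  have hk' := isFunctionField_fullC kA M
  have hval : rI (l ^ k) (torsCls M q l k z) = redCls (l ^ k) r := by
    rw [redTorInf, redTor_mk (l ^ k) _ _ _ hD hg hgD, redFn_eq (l ^ k) hc e hg' hr]
  simp only [brN_apply, hval, ordMod_redCls _ _ hr]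
  set H := theFibre M q A hqM harch
  set I : Finset (Place kA Fb) := Finset.univ.image fun s => H.brPl s 0
  have hoff : ∀ Q, Q ∉ I → ((Q.ord r : ℤ) : ZMod (l ^ k)) = 0 := fun Q hQ => by
    have hb : ∀ b : H.Br, b.1 ≠ ⟨0, Q⟩ := fun b hb => hQ <| by
      obtain ⟨⟨j, Q'⟩, hj⟩ := b
      obtain ⟨rfl, hQ'⟩ := Sigma.mk.inj hb
      obtain rfl := eq_of_heq hQ'
      have h := congrArg Subtype.val (H.eq_brAt (⟨⟨0, Q'⟩, hj⟩ : H.Br) rfl)
      rw [eq_of_heq (Sigma.mk.inj h).2]
      exact Finset.mem_image_of_mem _ (Finset.mem_univ _)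
    have h := ordMod_off (theSemi M q A hqM harch) (isFunctionField_level Qb (M * q)) (l ^ k)
      (torsCls M q l k z) (i := (0 : Fin 2)) (Q := Q) hb
    rw [← ordMod_redCls (l ^ k) Q hr, ← hval]
    exact h
  have hdeg := degree_divOf hk' r
  rw [degree_eq_sum (hF := hk')] at hdeg
  have hI : ∑ Q ∈ I, ((Q.ord r : ℤ) : ZMod (l ^ k)) =
      ∑ s, (((H.brPl s 0).ord r : ℤ) : ZMod (l ^ k)) :=
    Finset.sum_image (f := fun Q : Place kA Fb => ((Q.ord r : ℤ) : ZMod (l ^ k)))
      (g := fun s => H.brPl s 0) fun a _ b _ h => brPl_inj M q A hqM harch 0 h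
  rw [← hI,
    Finset.sum_subset (Finset.subset_union_left (s₂ := (divOf hk' r).support))
      (fun Q _ hQ => hoff Q hQ),
    ← Finset.sum_subset (Finset.subset_union_right (s₁ := I)) (fun Q _ hQ => by
      rw [← divOf_apply hk' r Q, Finsupp.notMem_support_iff.1 hQ, Int.cast_zero])]
  calc ∑ Q ∈ (divOf hk' r).support, ((Q.ord r : ℤ) : ZMod (l ^ k))
      = (((divOf hk' r).sum fun _ n => n : ℤ) : ZMod (l ^ k)) := by
        rw [Finsupp.sum, Int.cast_sum]
        exact Finset.sum_congr rfl fun Q _ => by rw [divOf_apply]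
    _ = 0 := by rw [hdeg, Int.cast_zero]

include hA hqp hM in
/-- Without orders at the crossings a class is toric. -/
theorem mem_toricN_of_brN (U : (theFibre M q A hqM harch).UnitDatum (q : Qb)) {k : ℕ} {z : ModN (M * q) (∅ : Set ℕ) (l ^ k)}
    (h0 : ∀ s, brN M q A hqM harch l k z s = 0) : z ∈ toricN M q A hqM harch l k := by
  haveI : NeZero (l ^ k) := ⟨pow_ne_zero _ (NeZero.ne l)⟩
  have key : ∀ i Q, ordMod kA Fb (l ^ k) Q (redTor (l ^ k) (isFunctionField_level Qb (M * q))
      ((theSemi M q A hqM harch).scaled i) (torsCls M q l k z)) = 0 := by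
    refine (theFibre M q A hqM harch).forall_place
      (fun i Q hb => ordMod_off (theSemi M q A hqM harch) _ (l ^ k) _ hb) ?_
    intro s
    refine Fin.forall_fin_two.2 ⟨h0 s, ?_⟩
    exact (ordMod_branch M q A hqM harch l U k _ s).trans (by
      rw [show ordMod kA Fb (l ^ k) ((theFibre M q A hqM harch).brPl s 0)
        (rI (l ^ k) (torsCls M q l k z)) = 0 from h0 s]; exact neg_zero)
  have hzero : ∀ y : RedTarget kA Fb (l ^ k), (∀ Q, ordMod kA Fb (l ^ k) Q y = 0) → y = 0 := by
    intro y hy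
    obtain ⟨x, rfl⟩ := exists_redTorLow M q A πA IsLocalRing.residue_surjective residueAt_eq_zero
      hqM (natCast_pow_ne_zero q A l hqp k) hy
    obtain ⟨v, rfl⟩ := torsN_surjective M (l ^ k) x
    rw [modN_level_one M hM (l ^ k) v, map_zero, map_zero]
  exact ⟨hzero _ (key 0), hzero _ (key 1)⟩

include hA hqp hM in
/-- **At least `l ^ (k g)` toric classes.** -/
theorem le_card_toricN (U : (theFibre M q A hqM harch).UnitDatum (q : Qb)) (k : ℕ) :
    (l ^ k) ^ Module.finrank ℂ (CuspForm (CongruenceSubgroup.Gamma0 (M * q)) 2) ≤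
      Nat.card (toricN M q A hqM harch l k) := by
  classical
  haveI : NeZero (l ^ k) := ⟨pow_ne_zero _ (NeZero.ne l)⟩
  obtain ⟨hfinX, hcardX⟩ := card_modN (M * q) (l ^ k)
  haveI := hfinX
  obtain ⟨s₀⟩ := (theFibre M q A hqM harch).nonempty_sg
    (X0.connected M q A πA IsLocalRing.residue_surjective residueAt_eq_zero hqM harch)
  set g := Module.finrank ℂ (CuspForm (CongruenceSubgroup.Gamma0 (M * q)) 2)
  let f : ModN (M * q) (∅ : Set ℕ) (l ^ k) →+
      ({s : (theFibre M q A hqM harch).Sg // s ≠ s₀} → ZMod (l ^ k)) :=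
    AddMonoidHom.pi fun s => (Pi.evalAddMonoidHom _ s.1).comp (brN M q A hqM harch l k)
  have hker : Nat.card f.ker ≤ Nat.card (toricN M q A hqM harch l k) := by
    refine Nat.card_le_card_of_injective _ (AddSubgroup.inclusion_injective fun z hz =>
      mem_toricN_of_brN M q A hA hqM harch l hqp hM U fun s => ?_)
    have hz' : ∀ t, t ≠ s₀ → brN M q A hqM harch l k z t = 0 := fun t ht => congrFun hz ⟨t, ht⟩
    by_cases hs : s = s₀
    · have hsum := sum_brN M q A hqM harch l k z
      rw [Finset.sum_eq_single s₀ (fun t _ ht => hz' t ht)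
        (fun h => absurd (Finset.mem_univ _) h)] at hsum
      rw [hs, hsum]
    · exact hz' s hs
  have hrange : Nat.card f.range ≤ (l ^ k) ^ g := by
    refine (Nat.card_le_card_of_injective _ Subtype.val_injective).trans ?_
    rw [Nat.card_fun, Nat.card_zmod, Nat.card_eq_fintype_card (α := {s // s ≠ s₀}),
      Fintype.card_subtype_compl, Fintype.card_subtype_eq]
    exact Nat.pow_le_pow_right (NeZero.pos _) (by
      have := genus_count M q A hqM harch
      omega)
  refine Nat.le_of_mul_le_mul_left ?_ (pow_pos (NeZero.pos (l ^ k)) g)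
  refine le_trans (le_of_eq ?_) (Nat.mul_le_mul hrange hker)
  rw [← Nat.card_congr (QuotientAddGroup.quotientKerEquivRange f).toEquiv,
    ← AddSubgroup.card_eq_card_quotient_mul_card_addSubgroup, hcardX, two_mul, pow_add]

include hA hqp in
/-- Inertia fixes the toric classes. -/
theorem galMod_toricN {k : ℕ} {τ : GalQ} (hτ : τ ∈ A.inertiaSubgroupIn ℚ)
    {z : ModN (M * q) (∅ : Set ℕ) (l ^ k)} (hz : z ∈ toricN M q A hqM harch l k) :
    galMod (M * q) (∅ : Set ℕ) (l ^ k) τ z = z := by
  obtain ⟨S, hSs, hθk, -, he⟩ :=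
    (fibreData M q A πA IsLocalRing.residue_surjective residueAt_eq_zero hqM harch).symm_inertia τ
      (inducesOn_inertia hτ)
  refine toTors_injective (M * q) (∅ : Set ℕ) (l ^ k) ?_
  have h := S.smul_eq_self (isFunctionField_level Qb (M * q)) (fun _ => isFunctionField_fullC kA M)
    hθk he (pow_ne_zero k (NeZero.ne l))
    (valuation_natCast_of_red A πA residueAt_eq_zero (natCast_pow_ne_zero q A l hqp k))
    (x := torsCls M q l k z) ((SemiFibre.mem_toricKer _).2 (Fin.forall_fin_two.2 ⟨hz.1, hz.2⟩))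
  rw [hSs, ← torsCls_galMod] at h
  exact congrArg Subtype.val h

include hA in
/-- Inertia displaces into the toric classes. -/
theorem galSub_mem_toricN {k : ℕ} {τ : GalQ} (hτ : τ ∈ A.inertiaSubgroupIn ℚ)
    (z : ModN (M * q) (∅ : Set ℕ) (l ^ k)) :
    galMod (M * q) (∅ : Set ℕ) (l ^ k) τ z - z ∈ toricN M q A hqM harch l k := by
  have h := redTor_gal_inertia M q A πA IsLocalRing.residue_surjective residueAt_eq_zero hqM harch
    (l ^ k) (inducesOn_inertia hτ) (torsCls M q l k z)
  refine ⟨?_, ?_⟩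
  · exact map_sub_zero_of_eq (G := ModN (M * q) (∅ : Set ℕ) (l ^ k))
      (H := RedTarget kA Fb (l ^ k)) ((rI (l ^ k)).comp (torsCls M q l k))
      (show rI (l ^ k) (torsCls M q l k (galMod (M * q) (∅ : Set ℕ) (l ^ k) τ z)) =
        rI (l ^ k) (torsCls M q l k z) by rw [torsCls_galMod]; exact h.1)
  · exact map_sub_zero_of_eq (G := ModN (M * q) (∅ : Set ℕ) (l ^ k))
      (H := RedTarget kA Fb (l ^ k)) ((rZ (l ^ k)).comp (torsCls M q l k))
      (show rZ (l ^ k) (torsCls M q l k (galMod (M * q) (∅ : Set ℕ) (l ^ k) τ z)) =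
        rZ (l ^ k) (torsCls M q l k z) by rw [torsCls_galMod]; exact h.2)

end FA.JZeroInertia
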