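import Fermat.Agent.JZeroInertia.FrobeniusAll
import Fermat.Agent.JTorsion.Unramified

/-!
# Every maximal ideal occurs among the displaced classes

For a system `θ` modulo `l ≥ 5`, `l ≠ p`, some nonzero class killed by `l` is displaced by inertia
at the order `l ^ (2 n + 1)` and killed by the kernel of `θ`: otherwise some `t` with `θ t ≠ 0`
would, through the displaced and the fixed classes, have a power killing all classes killed by `l`.
-/

set_option autoImplicit false
set_option linter.style.haveILetI false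
set_option linter.unusedSectionVars false
set_option synthInstance.maxHeartbeats 400000
set_option maxHeartbeats 1600000

noncomputable section

open ModularCurve FA.Mazur FA.JTorsion FA.ModField CongruenceSubgroup

local notation "Qb" => AlgebraicClosure ℚ
local notation "GQ" => AlgebraicClosure ℚ ≃ₐ[ℚ] AlgebraicClosure ℚ

namespace FA.JZeroInertia

/-- A maximal ideal with no torsion in a finite module misses some annihilator. -/
theorem exists_notMem_smul_eq_zero {R V : Type*} [CommRing R] [AddCommGroup V] [Module R V]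
    [Finite V] (m : Ideal R) [hm : m.IsMaximal]
    (h : ∀ v : V, (∀ t ∈ m, t • v = 0) → v = 0) : ∃ t ∉ m, ∀ v : V, t • v = 0 := by
  let F : ℕ → Submodule R V := fun j => m ^ j • ⊤
  haveI : Finite (Submodule R V) :=
    Finite.of_injective (fun W : Submodule R V => (W : Set V)) SetLike.coe_injective
  obtain ⟨i, j, hij, heq⟩ : ∃ i j, i < j ∧ F i = F j := by
    obtain ⟨i, j, hne, heq⟩ := Finite.exists_ne_map_eq_of_infinite F
    rcases lt_or_gt_of_ne hne with h1 | h1
    · exact ⟨i, j, h1, heq⟩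
    · exact ⟨j, i, h1, heq.symm⟩
  have hsucc : F i ≤ m • F i := by
    refine heq.le.trans ?_
    show m ^ j • (⊤ : Submodule R V) ≤ m • (m ^ i • (⊤ : Submodule R V))
    rw [← Submodule.smul_assoc, Ideal.smul_eq_mul, ← pow_succ']
    exact Submodule.smul_mono_left (Ideal.pow_le_pow_right hij)
  haveI : Module.Finite R V := Module.Finite.of_finite
  obtain ⟨t, ht, ht'⟩ := Submodule.exists_sub_one_mem_and_smul_eq_zero_of_fg_of_le_smul m (F i)
    (Submodule.fg_def.2 ⟨(F i : Set V), Set.toFinite _, Submodule.span_eq _⟩) hsucc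
  have htm : t ∉ m := fun h1 => hm.ne_top ((Ideal.eq_top_iff_one m).2 (by
    have h2 := Ideal.sub_mem _ h1 ht
    rwa [sub_sub_cancel] at h2))
  have hall : ∀ k, k ≤ i → ∀ v ∈ F (i - k), t • v = 0 := by
    intro k
    induction k with
    | zero => exact fun _ v hv => ht' v hv
    | succ k ih =>
      intro hk v hv
      refine h _ fun a ha => ?_
      rw [smul_comm]
      refine ih (by omega) _ ?_
      show a • v ∈ m ^ (i - k) • (⊤ : Submodule R V)
      rw [show i - k = (i - (k + 1)) + 1 by omega, pow_succ', ← Ideal.smul_eq_mul,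
        Submodule.smul_assoc]
      exact Submodule.smul_mem_smul ha hv
  refine ⟨t, htm, fun v => hall i le_rfl v ?_⟩
  show v ∈ m ^ (i - i) • (⊤ : Submodule R V)
  rw [Nat.sub_self, pow_zero, Ideal.one_eq_top, Submodule.top_smul]
  exact Submodule.mem_top

variable {p : ℕ} [hp : Fact p.Prime] [NeZero p] {A : ValuationSubring Qb}

/-- The squares of the gcd move the fixed classes into the displaced ones. -/
theorem exists_displaced_eq_nsmul_fixed (hA : A.LiesOverPrime p) {M : ℕ} (hM : M.Coprime (6 * p))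
    {s : GQ} (hs : s ∈ A.inertiaSubgroupIn ℚ)
    (hgen : ∀ τ ∈ A.inertiaSubgroupIn ℚ, ∃ i : ℕ, ∀ y : JZero p, M • y = 0 → τ • y = s ^ i • y)
    {w : JZero p} (hw : w ∈ fixI p M A) :
    ∃ y : JZero p, M • y = 0 ∧
      (Nat.gcd M (eisensteinNumerator p) * Nat.gcd M (eisensteinNumerator p)) • w = s • y - y := by
  classical
  set n := eisensteinNumerator p with hn
  rcases lt_or_ge p 5 with hp4 | hp5
  · have hn1 : n = 1 := by
      have h2 := hp.out.two_le
      rw [hn]
      interval_cases p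
      · decide
      · decide
      · exact absurd hp.out (by decide)
    have hco : M.Coprime (6 * eisensteinNumerator p * p) := by rw [← hn, hn1, mul_one]; exact hM
    obtain ⟨s', hs', -, -, hiff⟩ := FA.ToricJZero.Summary.inertia_cyclic hco hA
    obtain ⟨y, hy, hwy⟩ := (hiff w (mem_fixI.1 hw).1).1 (mem_fixI.1 hw).2
    obtain ⟨i, hi⟩ := hgen s' hs'
    refine ⟨i • y, by rw [smul_comm, hy, nsmul_zero], ?_⟩
    rw [hn1, Nat.gcd_one_right, mul_one, one_nsmul, smul_nsmul_comm, ← nsmul_sub, hwy, hi y hy,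
      inertia_pow hA (not_dvd_of_coprime_six_mul hM) hs hy, add_sub_cancel_left]
  obtain ⟨c, hord, hrat, h⟩ := exists_cuspToric hp5 hA
  obtain ⟨T, hT⟩ := h M hM
  obtain ⟨t, ht⟩ := hT.2.2.2.2.1 w hw
  have hnw : n • w ∈ T := by
    have h1 := AddSubgroup.nsmul_mem _ ht n
    rwa [nsmul_sub, smul_comm n t, show n • c = 0 by rw [hn, ← hord]; exact addOrderOf_nsmul_eq_zero c,
      nsmul_zero, sub_zero] at h1
  have hdw : Nat.gcd M n • w ∈ T := by
    rw [← natCast_zsmul, Nat.gcd_eq_gcd_ab, add_zsmul, mul_comm, mul_zsmul, mul_comm ((n : ℕ) : ℤ),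
      mul_zsmul, natCast_zsmul, natCast_zsmul, (mem_fixI.1 hw).1, zsmul_zero, zero_add]
    exact AddSubgroup.zsmul_mem _ hnw _
  obtain ⟨y, hy, he⟩ := exists_displaced_eq_gcd_nsmul hA hM hT hs hgen hdw
  exact ⟨y, hy, by rw [← he, ← mul_nsmul']⟩

section Hecke

variable [Algebra Qb ℂ]

/-- The Hecke action on the torsion does not depend on the order. -/
theorem toTors_smul_congr {a b : ℕ} [NeZero a] [NeZero b] (t : TAlg p) :
    ∀ (q : ModN p (∅ : Set ℕ) a) (q' : ModN p (∅ : Set ℕ) b),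
      toTors p (∅ : Set ℕ) a q = toTors p (∅ : Set ℕ) b q' →
      toTors p (∅ : Set ℕ) a (t • q) = toTors p (∅ : Set ℕ) b (t • q') := by
  obtain ⟨t, ht⟩ := t
  refine Algebra.adjoin_induction
    (p := fun t ht => ∀ (q : ModN p (∅ : Set ℕ) a) (q' : ModN p (∅ : Set ℕ) b),
      toTors p (∅ : Set ℕ) a q = toTors p (∅ : Set ℕ) b q' →
      toTors p (∅ : Set ℕ) a ((⟨t, ht⟩ : TAlg p) • q) =
        toTors p (∅ : Set ℕ) b ((⟨t, ht⟩ : TAlg p) • q')) ?_ ?_ ?_ ?_ ht
  · rintro _ (⟨ℓ, hℓ, hℓN, hℓS, rfl⟩ | ⟨ℓ, hℓN, hℓ, hℓS, rfl⟩) q q' h <;>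
      haveI : NeZero ℓ := ⟨hℓ.ne_zero⟩
    · show toTors p (∅ : Set ℕ) a (CuspForm.heckeAlgebra.T (k := 2) hℓ hℓN hℓS • q) =
        toTors p (∅ : Set ℕ) b (CuspForm.heckeAlgebra.T (k := 2) hℓ hℓN hℓS • q')
      rw [toTors_T_smul, toTors_T_smul, h]
    · show toTors p (∅ : Set ℕ) a (CuspForm.heckeAlgebra.U (k := 2) hℓ hℓN hℓS • q) =
        toTors p (∅ : Set ℕ) b (CuspForm.heckeAlgebra.U (k := 2) hℓ hℓN hℓS • q')
      rw [toTors_U_smul, toTors_U_smul, h]
  · intro r q q' h
    have hr : (⟨algebraMap ℤ _ r, Subalgebra.algebraMap_mem _ r⟩ : TAlg p) =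
        algebraMap ℤ _ r := rfl
    rw [hr, eq_intCast, Int.cast_smul_eq_zsmul, Int.cast_smul_eq_zsmul, map_zsmul, map_zsmul, h]
  · intro x y hx hy h1 h2 q q' h
    have hxy : (⟨x + y, add_mem hx hy⟩ : TAlg p) = ⟨x, hx⟩ + ⟨y, hy⟩ := rfl
    rw [hxy, add_smul, add_smul, map_add, map_add, h1 q q' h, h2 q q' h]
  · intro x y hx hy h1 h2 q q' h
    have hxy : (⟨x * y, mul_mem hx hy⟩ : TAlg p) = ⟨x, hx⟩ * ⟨y, hy⟩ := rfl
    rw [hxy, mul_smul, mul_smul]
    exact h1 _ _ (h2 q q' h)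

variable {l : ℕ} [hl : Fact l.Prime] [NeZero l] {k : Type} [Field k] [CharP k l]

/-- **Every system modulo `l` occurs among the displaced classes.** -/
theorem exists_toric_eigen (h5 : 5 ≤ l) (hlp : l ≠ p) (hA : A.LiesOverPrime p)
    (θ : TAlg p →+* k) :
    ∃ (z : ModN p (∅ : Set ℕ) l) (s : GQ) (M : ℕ) (y : JZero p),
      s ∈ A.inertiaSubgroupIn ℚ ∧ M.Coprime (6 * p) ∧
      (∀ τ ∈ A.inertiaSubgroupIn ℚ, ∃ i : ℕ, ∀ w : JZero p, M • w = 0 → τ • w = s ^ i • w) ∧
      M • y = 0 ∧ z ≠ 0 ∧ (∀ t, θ t = 0 → t • z = 0) ∧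
      toTors p (∅ : Set ℕ) l z = s • y - y := by
  classical
  set n := eisensteinNumerator p with hn
  set K := l ^ (2 * n + 1) with hK
  haveI : NeZero K := ⟨pow_ne_zero _ hl.out.ne_zero⟩
  have hco : K.Coprime (6 * p) := Nat.Coprime.pow_left _ (Nat.Coprime.mul_right
    (hl.out.coprime_iff_not_dvd.2 fun h => by
      have := Nat.le_of_dvd (by norm_num) h
      interval_cases l <;> simp_all (config := {decide := true}))
    ((Nat.coprime_primes hl.out hp.out).2 hlp))
  obtain ⟨s, hs, hgen⟩ := exists_inertia_gen hA K hco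
  by_contra hall
  push Not at hall
  haveI := (card_modN p K).1
  let X := ModN p (∅ : Set ℕ) K
  let D : Module.End (TAlg p) X := galMod p (∅ : Set ℕ) K s - 1
  have hD : ∀ q : X, toTors p (∅ : Set ℕ) K (D q) =
      s • toTors p (∅ : Set ℕ) K q - toTors p (∅ : Set ℕ) K q := fun q => by
    show toTors p (∅ : Set ℕ) K (galMod p (∅ : Set ℕ) K s q - q) = _
    rw [map_sub, toTors_galMod]
  let V : Submodule (TAlg p) X :=
    LinearMap.range D ⊓ LinearMap.ker ((l : TAlg p) • (LinearMap.id : X →ₗ[TAlg p] X))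
  have hV : ∀ z : X, z ∈ V ↔ (∃ q, D q = z) ∧ l • z = 0 := fun z => by
    show z ∈ LinearMap.range D ∧ z ∈ LinearMap.ker _ ↔ _
    rw [LinearMap.mem_range, LinearMap.mem_ker, LinearMap.smul_apply, LinearMap.id_apply,
      Nat.cast_smul_eq_nsmul]
  haveI : Module.Finite ℤ (TAlg p) := FA.Period.moduleFinite_heckeAlgebra p 2 _
  obtain ⟨m, hmdef⟩ : ∃ m : Ideal (TAlg p), m = RingHom.ker θ := ⟨_, rfl⟩
  haveI hmp : m.IsPrime := hmdef ▸ RingHom.ker_isPrime θ
  haveI hmax : (m.comap (algebraMap ℤ (TAlg p))).IsMaximal := by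
    refine Ideal.IsPrime.isMaximal (Ideal.comap_isPrime _ _) fun h => ?_
    have h1 : (l : ℤ) ∈ m.comap (algebraMap ℤ (TAlg p)) := by
      rw [Ideal.mem_comap, map_natCast, hmdef, RingHom.mem_ker, map_natCast, CharP.cast_eq_zero]
    rw [h, Ideal.mem_bot] at h1
    exact hl.out.ne_zero (by exact_mod_cast h1)
  haveI hm : m.IsMaximal := Ideal.isMaximal_of_isIntegral_of_isMaximal_comap (R := ℤ) m hmax
  -- no torsion of `m` among the displaced classes killed by `l`
  have hno : ∀ v : V, (∀ t ∈ m, t • v = 0) → v = 0 := by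
    rintro ⟨v, hv⟩ hv0
    obtain ⟨⟨q, hq⟩, hlv⟩ := (hV v).1 hv
    have hlv' : l • toTors p (∅ : Set ℕ) K v = 0 := by rw [← map_nsmul, hlv, map_zero]
    obtain ⟨z, hz⟩ := FA.EisReducible.exists_toTors_eq_of_nsmul p l _ hlv'
    refine Subtype.ext (toTors_injective p (∅ : Set ℕ) K ?_)
    show toTors p (∅ : Set ℕ) K v = toTors p (∅ : Set ℕ) K 0
    rw [map_zero]
    by_contra hne
    refine hall z s K (toTors p (∅ : Set ℕ) K q) hs hco hgen (nsmul_toTors _ _ _ _)
      (fun h => hne (by rw [← hz, h, map_zero])) (fun t ht => ?_) (by rw [hz, ← hq, hD])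
    refine toTors_injective p (∅ : Set ℕ) l ?_
    rw [toTors_smul_congr t z v hz, map_zero,
      show t • v = 0 from congrArg Subtype.val (hv0 t (hmdef ▸ ht)), map_zero]
  haveI : Finite V := Finite.of_injective _ Subtype.val_injective
  obtain ⟨t, htm, htV⟩ := exists_notMem_smul_eq_zero (R := TAlg p) (V := V) m hno
  have hθt : θ t ≠ 0 := fun h => htm (hmdef ▸ h)
  -- a power of `t` kills the displaced classes
  have hrange : ∀ j, ∀ q : X, l ^ j • D q = 0 → t ^ j • D q = 0 := by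
    intro j
    induction j with
    | zero =>
      intro q hq
      rw [pow_zero, one_nsmul] at hq
      rw [hq, smul_zero]
    | succ j ih =>
      intro q hq
      have hmem : D (l ^ j • q) ∈ V := (hV _).2 ⟨⟨_, rfl⟩, by
        rw [map_nsmul, ← mul_nsmul', ← pow_succ', hq]⟩
      have h0 : t • D (l ^ j • q) = 0 := congrArg Subtype.val (htV ⟨_, hmem⟩)
      rw [pow_succ, mul_smul, ← map_smul]
      refine ih _ ?_
      rw [map_smul, smul_comm, ← map_nsmul]
      exact h0
  set N := 2 * n + 1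
  have hkillD : ∀ q : X, t ^ N • D q = 0 := fun q =>
    hrange N q (toTors_injective p (∅ : Set ℕ) K (by
      rw [map_nsmul, map_zero]; exact nsmul_toTors p (∅ : Set ℕ) K _))
  set d := Nat.gcd K n * Nat.gcd K n
  have hkill : ∀ q : X, d • t ^ (2 * N) • q = 0 := fun q => by
    have hfix : toTors p (∅ : Set ℕ) K (t ^ N • q) ∈ fixI p K A := by
      refine mem_fixI.2 ⟨nsmul_toTors p (∅ : Set ℕ) K _, fun τ hτ => ?_⟩
      obtain ⟨i, hi⟩ := hgen τ hτ
      have hsf : s • toTors p (∅ : Set ℕ) K (t ^ N • q) = toTors p (∅ : Set ℕ) K (t ^ N • q) := by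
        rw [← sub_eq_zero, ← hD, map_smul, hkillD, map_zero]
      rw [hi _ (nsmul_toTors p (∅ : Set ℕ) K _)]
      clear hi
      induction i with
      | zero => rw [pow_zero, one_smul]
      | succ i ih => rw [pow_succ, mul_smul, hsf, ih]
    obtain ⟨y, hy, hyd⟩ := exists_displaced_eq_nsmul_fixed hA hco hs hgen hfix
    obtain ⟨q', rfl⟩ := FA.EisReducible.exists_toTors_eq_of_nsmul p K y hy
    rw [← hD, ← map_nsmul] at hyd
    rw [two_mul, pow_add, mul_smul (t ^ N) (t ^ N) q, smul_comm d (t ^ N) (t ^ N • q),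
      show d • t ^ N • q = D q' from toTors_injective p (∅ : Set ℕ) K hyd, hkillD]
  -- `l` divides the values of `t ^ (2 N)` on the lattice
  have hl2n : d ∣ l ^ (2 * n) := by
    obtain ⟨a, -, ha⟩ := (Nat.dvd_prime_pow hl.out).1 (Nat.gcd_dvd_left (l ^ (2 * n + 1)) n)
    have han : a ≤ n := by
      have hn0 : 0 < n := Nat.pos_of_ne_zero numerator_ne_zero
      exact (Nat.lt_pow_self (n := a) hl.out.one_lt).le.trans
        (Nat.le_of_dvd hn0 (ha ▸ Nat.gcd_dvd_right _ _))
    show Nat.gcd (l ^ (2 * n + 1)) n * Nat.gcd (l ^ (2 * n + 1)) n ∣ l ^ (2 * n)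
    rw [ha, ← pow_add]
    exact pow_dvd_pow l (by omega)
  have hlat : ∀ x : LatMod p (∅ : Set ℕ), t ^ (2 * N) • x ∈ nMultiples p (∅ : Set ℕ) l := by
    intro x
    obtain ⟨e, he⟩ := hl2n
    have h1 : l ^ (2 * n) • (t ^ (2 * N) • x) ∈ nMultiples p (∅ : Set ℕ) K := by
      rw [he, mul_comm, mul_nsmul']
      refine Submodule.smul_of_tower_mem _ e ((Submodule.Quotient.mk_eq_zero _).1 ?_)
      exact hkill (Submodule.Quotient.mk x)
    obtain ⟨y, hy⟩ := (mem_nMultiples p (∅ : Set ℕ)).1 h1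
    rw [mem_nMultiples]
    haveI := latMod_free p (∅ : Set ℕ)
    refine ⟨y, ?_⟩
    have h2 : ((l ^ (2 * n) : ℕ) : ℤ) • (l • y) = ((l ^ (2 * n) : ℕ) : ℤ) • (t ^ (2 * N) • x) := by
      rw [natCast_zsmul, natCast_zsmul, ← mul_nsmul', ← pow_succ, ← hy]
    exact smul_right_injective (LatMod p (∅ : Set ℕ))
      (Int.natCast_ne_zero.2 (pow_ne_zero _ hl.out.ne_zero)) h2
  obtain ⟨φ, hφ, hne⟩ := exists_functional (l := l) θ
  refine hne (funext fun z => ?_)
  obtain ⟨x, rfl⟩ := Submodule.Quotient.mk_surjective _ z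
  have h3 := hφ.2 (t ^ (2 * N)) (Submodule.Quotient.mk x)
  rw [← Submodule.Quotient.mk_smul, (Submodule.Quotient.mk_eq_zero _).2 (hlat x),
    map_pow] at h3
  rw [show φ 0 = 0 from map_zero (AddMonoidHom.mk' φ hφ.1)] at h3
  exact ((mul_eq_zero.1 h3.symm).resolve_left (pow_ne_zero _ hθt))

end Hecke

end FA.JZeroInertia
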