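import Fermat.Agent.JZeroInertia.Ramified
import Fermat.Agent.Root.SummarySolvableTorsionJZero

/-!
# No torsion of order prime to `6 n` over the solvable closure

`n` is the numerator of `(p - 1) / 12`.
-/

set_option autoImplicit false
set_option linter.style.haveILetI false
set_option linter.unusedSectionVars false
set_option synthInstance.maxHeartbeats 400000
set_option maxHeartbeats 2000000

noncomputable section

open ModularCurve FA.Mazur FA.JTorsion FA.ModField FA.WeightTwoOrdinary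
open scoped Matrix

local notation "Qb" => AlgebraicClosure ℚ
local notation "GQ" => AlgebraicClosure ℚ ≃ₐ[ℚ] AlgebraicClosure ℚ

namespace FA.JZeroInertia

variable {p : ℕ} [hp : Fact p.Prime] {l : ℕ} [hl : Fact l.Prime]

/-- **A class of order `l` fixed by a term of the derived series is zero.** -/
theorem eq_zero_of_derived (h5 : 5 ≤ l) (hlp : l ≠ p) (hn : ¬ l ∣ eisensteinNumerator p) (n : ℕ)
    (x : JZero p) (hlx : l • x = 0) (hfix : ∀ σ ∈ derivedSeries GQ n, σ • x = x) : x = 0 := by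
  classical
  by_contra hx0
  obtain ⟨alg⟩ := exists_algebra_qbar
  letI := alg
  haveI : NeZero l := ⟨hl.out.ne_zero⟩
  obtain ⟨q₀, hq₀⟩ := FA.EisReducible.exists_toTors_eq_of_nsmul p l x hlx
  obtain ⟨γ, hγ⟩ : ∃ γ : GQ →* Module.End (TAlg p) (ModN p (∅ : Set ℕ) l),
      γ = galMod p (∅ : Set ℕ) l := ⟨_, rfl⟩
  obtain ⟨N, hN⟩ : ∃ N : Submodule (TAlg p) (ModN p (∅ : Set ℕ) l),
      ∀ q, q ∈ N ↔ ∀ s ∈ derivedSeries GQ n, γ s q = q :=
    ⟨{ carrier := {q | ∀ s ∈ derivedSeries GQ n, γ s q = q}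
       add_mem' := fun {a b} ha hb s hs => by rw [map_add, ha s hs, hb s hs]
       zero_mem' := fun s _ => map_zero _
       smul_mem' := fun t a ha s hs => by rw [map_smul, ha s hs] }, fun _ => Iff.rfl⟩
  have hmem : ∀ (σ : GQ), ∀ q ∈ N, γ σ q ∈ N := fun σ q hq => (hN _).2 fun s hs => by
    have h := (hN q).1 hq (σ⁻¹ * s * σ) (by
      simpa using (derivedSeries_normal GQ n).conj_mem s hs σ⁻¹)
    rw [← Module.End.mul_apply, ← map_mul, show s * σ = σ * (σ⁻¹ * s * σ) by group, map_mul,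
      Module.End.mul_apply, h]
  obtain ⟨g, hg⟩ : ∃ g : GQ →* Module.End (TAlg p) N,
      ∀ σ (q : N), (g σ q : ModN p (∅ : Set ℕ) l) = γ σ q :=
    ⟨{ toFun := fun σ => (γ σ).restrict (hmem σ)
       map_one' := LinearMap.ext fun q => Subtype.ext (by
        show γ 1 q = q
        rw [map_one]
        rfl)
       map_mul' := fun σ τ => LinearMap.ext fun q => Subtype.ext (by
        show γ (σ * τ) q = γ σ (γ τ q)
        rw [map_mul]
        rfl) }, fun _ _ => rfl⟩
  have hq : q₀ ∈ N := (hN _).2 fun s hs => toTors_injective p (∅ : Set ℕ) l (by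
    rw [hγ, toTors_galMod, hq₀, hfix s hs])
  haveI : Nontrivial N := ⟨⟨⟨q₀, hq⟩, 0, fun h => hx0 (by
    rw [← hq₀, show q₀ = 0 from congrArg Subtype.val h, map_zero])⟩⟩
  haveI := FA.FlatModel.modN_finite p (∅ : Set ℕ) l
  haveI : Finite N := inferInstance
  obtain ⟨m, hm, ψ, hψ, hψt, hann⟩ := exists_compat_functional (T := TAlg p) (N := N)
  letI := Ideal.Quotient.field m
  haveI : CharP (TAlg p ⧸ m) l := (CharP.charP_iff_prime_eq_zero hl.out).2 (by
    rw [← map_natCast (Ideal.Quotient.mk m), Ideal.Quotient.eq_zero_iff_mem]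
    refine hann _ fun y => Subtype.ext (toTors_injective p (∅ : Set ℕ) l ?_)
    rw [Submodule.coe_smul, Nat.cast_smul_eq_nsmul, map_nsmul, nsmul_toTors, ZeroMemClass.coe_zero,
      map_zero])
  haveI : CharP (AlgebraicClosure (TAlg p ⧸ m)) l :=
    charP_of_injective_algebraMap (algebraMap (TAlg p ⧸ m) (AlgebraicClosure (TAlg p ⧸ m))).injective l
  obtain ⟨e, he⟩ : ∃ e : TAlg p ⧸ m →+* AlgebraicClosure (TAlg p ⧸ m), e = algebraMap _ _ :=
    ⟨_, rfl⟩
  set θ : TAlg p →+* AlgebraicClosure (TAlg p ⧸ m) := e.comp (Ideal.Quotient.mk m)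
  obtain ⟨r, hopen, hr⟩ := FA.Summary.prime_level_representation (l := l) θ
  have hsys : IsSystemRepAway l θ r := ⟨hopen, fun q hqp hql A hA => (hr q hqp hql A hA).2⟩
  haveI : Nontrivial (compatDual (N := N) θ) :=
    ⟨⟨fun y => e (ψ y), fun a b => by simp only [map_add], fun t y => by
      simp only [hψt, map_mul]
      rfl⟩, 0, fun h => hψ (AddMonoidHom.ext fun y =>
        e.injective ((congrFun (congrArg Subtype.val h) y).trans (map_zero e).symm))⟩
  obtain ⟨Ψ, hΨi, hΨ⟩ := hsys.exists_action h5 hlp hn g (by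
    obtain ⟨L, hL, hLγ⟩ := exists_field_galMod p (∅ : Set ℕ) l
    exact ⟨L, hL, fun σ hσ => LinearMap.ext fun q => Subtype.ext (by
      rw [hg, hγ, hLγ σ hσ]
      rfl)⟩) fun q hqp hql A hA σ hσ => by
    have hqN : ¬ (q : ℕ) ∣ p := fun h => hqp ((Nat.prime_dvd_prime_iff_eq q.2 hp.out).1 h)
    haveI : NeZero (q : ℕ) := ⟨q.2.ne_zero⟩
    refine LinearMap.ext fun z => Subtype.ext ?_
    have hf := galMod_frobenius p (∅ : Set ℕ) l (goodRed_all p) q.2 hqN
      (fun h => hql ((Nat.prime_dvd_prime_iff_eq q.2 hl.out).1 h)) hA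
      (Set.notMem_empty _) hσ (z : ModN p (∅ : Set ℕ) l)
    rw [← CuspForm.heckeEvalForms_heckeGen_of_not_dvd (ℓ := q) hqN, ← hγ] at hf
    rw [LinearMap.add_apply, LinearMap.smul_apply, Submodule.coe_add, SetLike.val_smul_of_tower,
      hg, hg, hf]
    rfl
  obtain ⟨s, hs, hne⟩ := hsys.derived_ne_one h5 hlp hn n
  refine hne ?_
  have h1 : (r s)ᵀ = 1 := hΨi (by
    rw [hΨ, map_one]
    refine LinearMap.ext fun φ => Subtype.ext (funext fun y => ?_)
    show φ.1 (g s⁻¹⁻¹ y) = φ.1 y
    rw [inv_inv]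
    exact congrArg φ.1 (Subtype.ext (by rw [hg]; exact (hN _).1 y.2 s hs)))
  simpa using congrArg Matrix.transpose h1

omit hl in
/-- **No torsion of order prime to `6 n` fixed by a term of the derived series.** -/
theorem eq_zero_of_coprime (n : ℕ) : ∀ (m : ℕ) (x : JZero p),
    m.Coprime (6 * eisensteinNumerator p) → m • x = 0 →
    (∀ σ ∈ derivedSeries GQ n, σ • x = x) → x = 0 := by
  intro m
  induction m using Nat.strong_induction_on with
  | _ m ih =>
    intro x hcop hmx hfix
    rcases eq_or_ne m 1 with rfl | hm1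
    · rwa [one_smul] at hmx
    have hr : (m.minFac).Prime := Nat.minFac_prime hm1
    obtain ⟨c, hc⟩ := Nat.minFac_dvd m
    have hcop' : (m.minFac).Coprime (6 * eisensteinNumerator p) :=
      hcop.coprime_dvd_left (Nat.minFac_dvd m)
    have hr5 : 5 ≤ m.minFac := by
      have h6 : ¬ m.minFac ∣ 6 := fun h => hr.one_lt.ne'
        (Nat.eq_one_of_dvd_coprimes hcop' dvd_rfl (h.trans (dvd_mul_right 6 _)))
      have h2 := hr.two_le
      by_contra hlt
      push Not at hlt
      interval_cases hq : m.minFac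
      · exact h6 (by norm_num)
      · exact h6 (by norm_num)
      · exact absurd hr (by norm_num)
    have hm0 : m ≠ 0 := fun h => by
      rw [h, Nat.minFac_zero] at hr5
      omega
    have hn' : ¬ m.minFac ∣ eisensteinNumerator p := fun h => hr.one_lt.ne'
      (Nat.eq_one_of_dvd_coprimes hcop' dvd_rfl (h.trans (dvd_mul_left _ 6)))
    have hfix' : ∀ σ ∈ derivedSeries GQ n, σ • (c • x) = c • x := fun σ hσ =>
      ((DistribSMul.toAddMonoidHom (JZero p) σ).map_nsmul c x).trans
        (by rw [DistribSMul.toAddMonoidHom_apply, hfix σ hσ])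
    have hkill : m.minFac • (c • x) = 0 := by rw [smul_smul, ← hc, hmx]
    have hy : c • x = 0 := by
      rcases eq_or_ne m.minFac p with h | h
      · exact eq_zero_of_derived_pow (p := p) (h ▸ hr5) n 1 _ (by rw [pow_one]; exact (congrArg (· • (c • x)) h.symm).trans hkill) hfix'
      · haveI := Fact.mk hr
        exact eq_zero_of_derived hr5 h hn' n _ hkill hfix'
    refine ih c ?_ x (hcop.coprime_dvd_left (Dvd.intro_left _ hc.symm)) hy hfix
    have hc0 : c ≠ 0 := fun h => hm0 (by rw [hc, h, mul_zero])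
    calc c < 2 * c := by omega
      _ ≤ m.minFac * c := Nat.mul_le_mul_right c hr.two_le
      _ = m := hc.symm

end FA.JZeroInertia
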